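import Fermat.Agent.S16.LowerS21.Plan
import Fermat.Agent.Lib.CrossingHom

/-!
# S16 lower bound, leaf (C3): the crossing class

`CrossingStmt p` from the generic crossing homomorphism of `Lib/CrossingHom`
(signed crossing number with the `Γ₀(p)`-orbit of the geodesic from `0` to `∞`).
-/

set_option autoImplicit false

namespace Fermat.Agent.S16.LowerS21

/-- Contract (C3) of `LowerS21/Plan`: an integral class with value `1` on both parabolic
generators `T` and `[1 0; p 1]` of `Γ₀(p)`. -/
theorem crossingStmt_of_crossingHom (p : ℕ) [Fact p.Prime] : CrossingStmt p := by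
  obtain ⟨φ₁, hT, hZ⟩ :=
    Fermat.Agent.Lib.CrossingHom.exists_crossing_hom_generators p (Fact.out : p.Prime).two_le
  exact ⟨φ₁, hT (tInf p) rfl, hZ (tZero p) rfl rfl rfl rfl⟩

end Fermat.Agent.S16.LowerS21
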