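import Mathlib
import Fermat.Agent.S16.Plan
import Fermat.Agent.Lib.EisTwo
import Fermat.Agent.Lib.DeltaSlash
import Fermat.Prelude.Def_ModularCurve_PeriodHomPair

/-!
# S16 lower bound through Eichler–Shimura (landed S21): shared definitions and contracts

Sub-package "L-main" of S16 (board #682 (C1)–(C5), #723, #802).  This file contains ONLY
definitions: the shared vocabulary and, for every leaf package, its contract as a `Prop`.
A leaf proves `theorem <name> (p : ℕ) [Fact p.Prime] … : <Contract> p`; a leaf that USES another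
leaf takes its contract as a hypothesis.  The assembly `LowerS21/Assembly.lean` proves
`Fermat.Agent.S16.LowerBound p` from the contracts and the landed `Fermat.Agent.S21.result`.

Mathematics.  `Γ = Γ₀(p)`, `Hm p A = Hom(Γ, A)`.  For a prime `ℓ` the Hecke correspondence acts on
`Hm p A` (transfer along the coset representatives of `T_ℓ`, resp. `U_p`), compatibly with periods:
the period homomorphism of `primHecke p ℓ F` is `Θ_ℓ` of the period homomorphism of `F`.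
Let `P` be a Hecke polynomial killing `S₂(Γ)`; `Θ_P` kills every parabolic class (S21).
Two integral classes: `k` = `24 ×` the period of the Eisenstein series `E = eisP p`
(`k(T) = p - 1`, `Θ_ℓ k = (1 + ℓ) k`) and the crossing class `φ₁` (`φ₁(T) = 1`).  Both take the
same value up to the factor `p - 1` on the two parabolic generators, so `(p - 1) φ₁ - k` is
parabolic and `(p - 1) Θ_P φ₁ = χ(P) k`.  Since `k / d` integral forces `d ∣ 12` (`RootStmt`,
Ogg's argument: a `d`-th root of `Δ(pz)/Δ(z)` has Fricke constant `c`, `c^d = p^(-12)`, `c ∈ ℚ`),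
`(p - 1)/gcd(p - 1, 12)` divides `χ(P)`.
-/

set_option autoImplicit false

noncomputable section

namespace Fermat.Agent.S16.LowerS21

open ModularCurve CuspForm UpperHalfPlane CongruenceSubgroup ModularCurve.Period
open scoped MatrixGroups ModularForm Real

/-! ## 0. Vocabulary -/

/-- `Hom(Γ₀(p), A)`. -/
abbrev Hm (p : ℕ) (A : Type*) [AddCommGroup A] : Type _ := Additive (Gamma0 p) →+ A

/-- Complexification of an integral class. -/
def toC (p : ℕ) (φ : Hm p ℤ) : Hm p ℂ := (Int.castAddHom ℂ).comp φ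

@[simp] theorem toC_apply (p : ℕ) (φ : Hm p ℤ) (γ : Additive (Gamma0 p)) :
    toC p φ γ = ((φ γ : ℤ) : ℂ) := rfl

/-- `T = [1 1; 0 1]` as an element of `Γ₀(p)` (generator of the stabiliser of the cusp `∞`). -/
def tInf (p : ℕ) : Gamma0 p :=
  ⟨ModularGroup.T, by rw [Gamma0_mem]; simp [ModularGroup.T]⟩

/-- `[1 0; p 1]` as an element of `Γ₀(p)` (generator of the stabiliser of the cusp `0`). -/
def tZero (p : ℕ) : Gamma0 p :=
  ⟨⟨!![1, 0; (p : ℤ), 1], by simp [Matrix.det_fin_two_of]⟩, by rw [Gamma0_mem]; simp⟩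

/-- The weight-two Hecke operator at the prime `ℓ` for level `p` on functions:
`U_p` if `ℓ = p`, `T_ℓ` otherwise (Prelude operators). -/
def heckeFun (p ℓ : ℕ) (f : ℍ → ℂ) : ℍ → ℂ :=
  if ℓ = p then ModularForm.heckeU 2 ℓ f else ModularForm.heckeT 2 ℓ f

/-- The matching operator on primitives: `F ↦ ∑_j F((z+j)/ℓ) (+ F(ℓ z) if ℓ ≠ p)`. -/
def primHecke (p ℓ : ℕ) (F : ℍ → ℂ) : ℍ → ℂ := fun z =>
  (∑ j ∈ Finset.range ℓ, F (ModularForm.heckeMatrix ℓ j • z)) +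
    (if ℓ = p then 0 else F (ModularForm.heckeDiagMatrix ℓ • z))

/-- The Eisenstein eigenvalue at `ℓ`: `1` if `ℓ = p`, `1 + ℓ` otherwise. -/
def eisEig (p ℓ : ℕ) : ℤ := if ℓ = p then 1 else 1 + (ℓ : ℤ)

/-- `F` is a holomorphic primitive of `f` on the upper half plane. -/
def IsPrim (f F : ℍ → ℂ) : Prop := ∀ τ : ℍ, HasDerivAt (F ∘ ofComplex) (f τ) τ

/-- `F` is a primitive of the Eisenstein series `E = eisP p = (p-1)/24 + ∑ σ'(n) qⁿ`. -/
def IsEisPrim (p : ℕ) (F : ℍ → ℂ) : Prop := IsPrim (Fermat.Agent.Lib.EisTwo.eisP p) F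

/-! ## 1. (C1) Hecke operators on `Hom(Γ₀(p), A)` -/

/-- Contract of `LowerS21/HeckeHom` (C1): for every prime `ℓ` an additive operator `Θ` on
`Hom(Γ₀(p), ℂ)` which (a) preserves integral classes, (b) commutes with the involution
`γ ↦ diag(1,-1) γ diag(1,-1)`, (c) computes the periods of `primHecke p ℓ F` from those of `F`,
for EVERY equivariant `F` (no holomorphy needed). -/
def HeckeHomStmt (p : ℕ) : Prop :=
  ∀ ℓ : ℕ, ℓ.Prime → ∃ Θ : Hm p ℂ →+ Hm p ℂ,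
    (∀ φ : Hm p ℤ, ∃ φ' : Hm p ℤ, Θ (toC p φ) = toC p φ') ∧
    (∀ φ : Hm p ℂ, Θ (charInvolution p ℂ ℂ φ) = charInvolution p ℂ ℂ (Θ φ)) ∧
    (∀ (F : ℍ → ℂ) (hF : IsEquivariantPrimitive (Gamma0 p) F),
      ∃ hF' : IsEquivariantPrimitive (Gamma0 p) (primHecke p ℓ F),
        hF'.periodHom = Θ hF.periodHom)

/-- Contract of `LowerS21/PrimHecke` (C1'): `primHecke` of a primitive of `f` is a primitive of
the Hecke transform of `f`, and it still vanishes at `i∞` if `F` does. -/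
def PrimHeckeStmt (p : ℕ) : Prop :=
  ∀ ℓ : ℕ, ℓ.Prime → ∀ f F : ℍ → ℂ, IsPrim f F →
    IsPrim (heckeFun p ℓ f) (primHecke p ℓ F) ∧
    (Filter.Tendsto F atImInfty (nhds 0) →
      Filter.Tendsto (primHecke p ℓ F) atImInfty (nhds 0))

/-! ## 2. (C2) The Eisenstein class -/

/-- Contract of `LowerS21/EisUnit` (C2u): `exp(48 π i F) = C · Δ(p z)/Δ(z)` for a primitive `F`
of `E` (both sides have logarithmic derivative `2 π i (p E₂(p z) - E₂(z))`,
Mathlib `logDeriv_eta_eq_E2`). -/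
def EisUnitStmt (p : ℕ) : Prop :=
  ∀ F : ℍ → ℂ, IsEisPrim p F → ∃ C : ℂ, C ≠ 0 ∧ ∀ z : ℍ,
    Complex.exp (2 * π * Complex.I * 24 * F z) =
      C * (Fermat.Agent.Lib.DeltaSlash.deltaN p z / ModularForm.discriminant z)

/-- Contract of `LowerS21/EisClass` (C2): a primitive `F` of `E`, its period homomorphism, and the
integral class `k = 24 · period` with `k(T) = p - 1 = k([1 0; p 1])`. -/
def EisClassStmt (p : ℕ) : Prop :=
  ∃ (F : ℍ → ℂ) (hF : IsEquivariantPrimitive (Gamma0 p) F) (k : Hm p ℤ),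
    IsEisPrim p F ∧
    (∀ γ : Gamma0 p, 24 * hF.period γ = ((k (Additive.ofMul γ) : ℤ) : ℂ)) ∧
    k (Additive.ofMul (tInf p)) = (p : ℤ) - 1 ∧
    k (Additive.ofMul (tZero p)) = (p : ℤ) - 1

/-- Contract of `LowerS21/EisEigen` (C2e): `E` is a Hecke eigenfunction, `T_ℓ E = (1 + ℓ) E`,
`U_p E = E` (equality of functions on `ℍ`). -/
def EisEigenStmt (p : ℕ) : Prop :=
  ∀ ℓ : ℕ, ℓ.Prime →
    heckeFun p ℓ (Fermat.Agent.Lib.EisTwo.eisP p) =
      ((eisEig p ℓ : ℤ) : ℂ) • Fermat.Agent.Lib.EisTwo.eisP p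

/-! ## 3. (C3) The crossing class and the two cusps -/

/-- Contract of `LowerS21/Crossing` (C3): an integral class with value `1` on both parabolic
generators (signed crossing number with the `Γ₀(p)`-orbit of the geodesic `0 → ∞`; the value at
`[1 0; p 1]` follows from `φ₁ ∘ Ad(W_p) = -φ₁`). -/
def CrossingStmt (p : ℕ) : Prop :=
  ∃ φ₁ : Hm p ℤ, φ₁ (Additive.ofMul (tInf p)) = 1 ∧ φ₁ (Additive.ofMul (tZero p)) = 1

/-- Contract of `LowerS21/TwoCusp` (C3'): an integral class vanishing on the two parabolic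
generators is parabolic (`Γ₀(p)`, `p` prime, has the two cusps `∞`, `0`). -/
def TwoCuspStmt (p : ℕ) : Prop :=
  ∀ ψ : Hm p ℤ, ψ (Additive.ofMul (tInf p)) = 0 → ψ (Additive.ofMul (tZero p)) = 0 →
    toC p ψ ∈ parabolicHoms ℂ (Gamma0 p) ℂ

/-! ## 4. (C4) Roots of the modular unit -/

/-- Contract of `LowerS21/RootSeries` (C4a, formal, Mathlib only): a `d`-th root in `ℂ⟦X⟧` of
`C · X^s · U`, `U ∈ 1 + X ℚ⟦X⟧`, is a constant times `X^r · A₀` with `A₀ ∈ 1 + X ℚ⟦X⟧`.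
[Write `A = a X^r A₁`, `A₁(0) = 1`; then `A₁^d = U`, and `d · U · A₁' = U' · A₁` gives a linear
recursion for the coefficients of `A₁` with rational coefficients.] -/
def RootSeriesStmt : Prop :=
  ∀ d : ℕ, 0 < d → ∀ (A : PowerSeries ℂ) (U : PowerSeries ℚ) (s : ℕ) (C : ℂ), C ≠ 0 →
    PowerSeries.constantCoeff U = 1 →
    A ^ d = C • (PowerSeries.X ^ s * PowerSeries.map (algebraMap ℚ ℂ) U) →
    ∃ (a : ℂ) (r : ℕ) (A₀ : PowerSeries ℚ), PowerSeries.constantCoeff A₀ = 1 ∧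
      A = a • (PowerSeries.X ^ r * PowerSeries.map (algebraMap ℚ ℂ) A₀)

/-- Contract of `LowerS21/RootForm` (C4b, analytic): if all periods of `24 F` are divisible by
`d`, then `v := exp(48 π i F / d)` is `Γ₀(p)`-invariant and `Φ := v Δ`, `Φ' := Φ♭ = v(-1/(pz)) Δ(pz)`
are modular forms of weight 12 on `Γ₀(p)` with `Φ^d = C Δ(pz) Δ^(d-1)`, `Φ Φ' = c Δ Δ(pz)`,
`c^d = C² p^(-12)`.
[`v^d = C Δ(pz)/Δ(z)` by `EisUnitStmt`; `F(-1/(pz)) + F(z)` is constant by `EisTwo.eisDiff_fricke`;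
boundedness at the cusps is free: `|Φ|γ|^d = |C| |(Δ(p·) Δ^(d-1))|γ|`.] -/
def RootFormStmt (p : ℕ) [NeZero p] : Prop :=
  ∀ F : ℍ → ℂ, IsEisPrim p F → ∀ d : ℕ, 0 < d →
    (∀ (γ : Gamma0 p) (z : ℍ), ∃ m : ℤ,
      24 * (F ((γ : SL(2, ℤ)) • z) - F z) = (d : ℂ) * (m : ℂ)) →
    ∃ (Φ Φ' : ModularForm (Gamma0 p) 12) (C c : ℂ), C ≠ 0 ∧ c ≠ 0 ∧
      (∀ z : ℍ, Φ' z = ((p : ℂ) * z) ^ (-(12 : ℤ)) * Φ (frickePt p z)) ∧
      (∀ z : ℍ, Φ z ^ d = C * (Fermat.Agent.Lib.DeltaSlash.deltaN p z *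
        ModularForm.discriminant z ^ (d - 1))) ∧
      (∀ z : ℍ, Φ z * Φ' z = c * (ModularForm.discriminant z *
        Fermat.Agent.Lib.DeltaSlash.deltaN p z)) ∧
      c ^ d = C ^ 2 * (p : ℂ) ^ (-(12 : ℤ))

/-- Contract of `LowerS21/Root` (C4, Ogg): if all periods of `24 F` (`F` a primitive of `E`) are
divisible by `d`, then `d ∣ 12`.
[`RootFormStmt` + trace principle (`PairAPI.trace`) for `Φ`: `qExp Φ + p U_p(qExp Φ') = κ Δ`
(`SturmLow`); with `qExp Φ = a X^(1+m) Â`, `qExp Φ' = (c/a) X^(p-m) B̂`, `Â, B̂ ∈ 1 + X ℚ⟦X⟧`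
(`RootSeriesStmt`), the coefficients at `1` and `1+m` give `a² = p c ρ`, `ρ ∈ ℚ`, hence
`(p ρ)^d = p^12` and `d ∣ 12`.] -/
def RootStmt (p : ℕ) : Prop :=
  ∀ F : ℍ → ℂ, IsEisPrim p F → ∀ d : ℕ, 0 < d →
    (∀ (γ : Gamma0 p) (z : ℍ), ∃ m : ℤ,
      24 * (F ((γ : SL(2, ℤ)) • z) - F z) = (d : ℂ) * (m : ℂ)) →
    d ∣ 12

end Fermat.Agent.S16.LowerS21
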