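import Mathlib
import Fermat.Agent.S16.LowerS21.Plan
import Fermat.Agent.S22.Tower
import Fermat.Agent.S21.Primitive
import Fermat.Agent.Lib.DeltaLevelN

/-!
# S16 lower bound, leaves L3 + L4: the Eisenstein unit and the Eisenstein class

For `E = eisP p = (p E₂(p z) - E₂(z)) / 24` and a primitive `Φ` of `E` on the upper half plane:

* `exp(2πi · 24 Φ) = C · Δ(p z) / Δ(z)` (`eisUnit : EisUnitStmt p`): both sides have the same
  logarithmic derivative (Mathlib `logDeriv_eta_eq_E2`);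
* `Φ` is an equivariant primitive for `Γ₀(p)`, `k = 24 · period` is integer valued
  (invariance of `Δ(p z)/Δ(z)`), `k(T) = p - 1` (`Φ(z + 1) = Φ(z) + (p-1)/24`) and
  `k([1 0; p 1]) = p - 1` (`Φ(-1/(p z)) + Φ(z)` is constant) (`eisClass : EisClassStmt p`).
-/

set_option autoImplicit false

namespace Fermat.Agent.S16.LowerS21.EisB

open Complex Filter Topology
open UpperHalfPlane hiding I
open scoped MatrixGroups ModularForm Real Manifold
open CongruenceSubgroup ModularCurve ModularCurve.Period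
open Fermat.Agent.S23 (IsMF IsCF G0 Nice)
open Fermat.Agent.Lib.EisTwo
open EisensteinSeries

/-- A periodic holomorphic function on `ℍ` which is bounded at `i∞` tends to its value at
infinity. -/
theorem tendsto_valueAtInfty' {f : ℍ → ℂ} {h : ℝ} (hh : 0 < h)
    (hfper : Function.Periodic (f ∘ ofComplex) h) (hfhol : MDiff f)
    (hfbdd : IsBoundedAtImInfty f) : Tendsto f atImInfty (𝓝 (valueAtInfty f)) := by
  have han := analyticAt_cuspFunction_zero hh hfper hfhol hfbdd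
  rw [← cuspFunction_apply_zero hh han hfper]
  have : (cuspFunction h f ∘ fun τ : ℍ ↦ Function.Periodic.qParam h τ : ℍ → ℂ) = f := by
    funext τ
    simpa using eq_cuspFunction τ hh.ne' hfper
  simpa [this] using han.continuousAt.tendsto.comp (qParam_tendsto_atImInfty hh)

variable (p : ℕ) [NeZero p]

/-- The constant term of `E'`. -/
noncomputable def c0 : ℂ := ((p : ℂ) - 1) / 24

theorem nice_eisP : Nice (eisP p) := (isMF_eisP p).niceG0

theorem tendsto_eisP : Tendsto (eisP p) atImInfty (𝓝 (c0 p)) := by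
  have hn := nice_eisP p
  have h1 := tendsto_valueAtInfty' one_pos hn.per hn.holo hn.bdd
  have han := analyticAt_cuspFunction_zero one_pos hn.per hn.holo hn.bdd
  have h2 : valueAtInfty (eisP p) = c0 p := by
    rw [← cuspFunction_apply_zero one_pos han hn.per, c0, ← qExpansion_eisP_coeff_zero p]
    simp [qExpansion_coeff]
  rwa [h2] at h1

/-- A primitive of `E'` with `Φ(τ + 1) = Φ(τ) + (p-1)/24`. -/
theorem exists_eis_prim :
    ∃ Φ : ℍ → ℂ, (∀ τ : ℍ, HasDerivAt (Φ ∘ ofComplex) (eisP p τ) τ) ∧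
      ∀ τ : ℍ, Φ (ofComplex ((τ : ℂ) + 1)) = Φ τ + c0 p := by
  have hn := nice_eisP p
  have hper : Function.Periodic ((fun τ => eisP p τ - c0 p) ∘ ofComplex) (1 : ℝ) := by
    intro z
    have := hn.per z
    simp only [Function.comp_apply, Complex.ofReal_one] at this ⊢
    rw [this]
  have hhol : MDiff (fun τ => eisP p τ - c0 p) := hn.holo.sub mdifferentiable_const
  have hzero : IsZeroAtImInfty (fun τ => eisP p τ - c0 p) := by
    have := (tendsto_eisP p).sub_const (c0 p)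
    simpa [IsZeroAtImInfty, ZeroAtFilter] using this
  obtain ⟨Φ0, hΦper, -, -, hΦd⟩ :=
    Fermat.Agent.S22.Tower.exists_primitive one_pos hper hhol hzero
  refine ⟨fun τ => Φ0 τ + c0 p * (τ : ℂ), ?_, ?_⟩
  · intro τ
    have h1 : HasDerivAt (fun z : ℂ => c0 p * z) (c0 p) τ := by
      simpa using (hasDerivAt_id (τ : ℂ)).const_mul (c0 p)
    have h2 := (hΦd τ).add h1
    have h3 : eisP p τ - c0 p + c0 p = eisP p τ := by ring
    rw [h3] at h2
    refine h2.congr_of_eventuallyEq ?_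
    have : ∀ᶠ z in 𝓝 (τ : ℂ), 0 < z.im := isOpen_upperHalfPlaneSet.mem_nhds τ.im_pos
    filter_upwards [this] with z hz
    simp only [Function.comp_apply, Pi.add_apply]
    rw [ofComplex_apply_of_im_pos hz]
  · intro τ
    have him : 0 < ((τ : ℂ) + 1).im := by simpa using τ.im_pos
    have h1 := hΦper (τ : ℂ)
    simp only [Function.comp_apply, ofComplex_apply] at h1
    have h2 : ((ofComplex ((τ : ℂ) + 1) : ℍ) : ℂ) = (τ : ℂ) + 1 := by
      rw [ofComplex_apply_of_im_pos him]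
    have h1' : Φ0 (ofComplex ((τ : ℂ) + 1)) = Φ0 τ := by
      have : ((τ : ℂ) + ((1 : ℝ) : ℂ)) = (τ : ℂ) + 1 := by simp
      rw [← this]; exact h1
    simp only
    rw [h1', h2]
    ring

/-- `E'` is invariant of weight two under `Γ₀(p)`. -/
theorem eisP_slash_of_mem {γ : SL(2, ℤ)} (hγ : γ ∈ Gamma0 p) :
    eisP p ∣[(2 : ℤ)] γ = eisP p := by
  obtain ⟨G, hG⟩ := isMF_eisP p
  rw [← hG]
  exact SlashInvariantFormClass.slash_action_eq G (Matrix.SpecialLinearGroup.mapGL ℝ γ)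
    ⟨γ, hγ, rfl⟩

/-- Any primitive of `E'` is an equivariant primitive for `Γ₀(p)`. -/
theorem isEquivariantPrimitive_of_prim {Φ : ℍ → ℂ}
    (hΦ : ∀ τ : ℍ, HasDerivAt (Φ ∘ ofComplex) (eisP p τ) τ) :
    IsEquivariantPrimitive (Gamma0 p) Φ := by
  intro γ
  have hD : ∀ τ : ℍ, HasDerivAt
      ((fun σ : ℍ => Φ ((γ : SL(2, ℤ)) • σ)) ∘ ofComplex - Φ ∘ ofComplex) 0 τ := by
    intro τ
    have h1 := Fermat.Agent.S21.hasDerivAt_prim_smul hΦ (γ : SL(2, ℤ)) τ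
    rw [eisP_slash_of_mem p γ.2] at h1
    have h2 := h1.sub (hΦ τ)
    rwa [sub_self] at h2
  obtain ⟨a, ha⟩ := Fermat.Agent.S22.Tower.exists_const_of_hasDerivAt_zero hD
  refine ⟨a, fun z => ?_⟩
  have := ha z
  simpa using this

/-- `Φ(T τ) - Φ(τ) = (p-1)/24`. -/
theorem sub_T {Φ : ℍ → ℂ} (hper : ∀ τ : ℍ, Φ (ofComplex ((τ : ℂ) + 1)) = Φ τ + c0 p) (τ : ℍ) :
    Φ (ModularGroup.T • τ) - Φ τ = c0 p := by
  have h : ModularGroup.T • τ = ofComplex ((τ : ℂ) + 1) := by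
    apply UpperHalfPlane.ext
    rw [ofComplex_apply_of_im_pos (by simpa using τ.im_pos), modular_T_smul]
    simp [add_comm]
  rw [h, hper]
  ring

/-! ### Integrality: `exp(2πi · 24 Φ) = c · Δ(p z) / Δ(z)` -/

theorem hasDerivAt_eta (τ : ℍ) :
    HasDerivAt ModularForm.eta (ModularForm.eta τ * ((π * I / 12) * E2 τ)) τ := by
  have hmem : (τ : ℂ) ∈ upperHalfPlaneSet := τ.im_pos
  have hd := ModularForm.differentiableAt_eta_of_mem_upperHalfPlaneSet hmem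
  have hl := ModularForm.logDeriv_eta_eq_E2 τ
  have hne := ModularForm.eta_ne_zero hmem
  rw [logDeriv_apply] at hl
  have h2 : deriv ModularForm.eta τ = ModularForm.eta τ * ((π * I / 12) * E2 τ) := by
    rw [← hl]
    field_simp
  rw [← h2]
  exact hd.hasDerivAt

theorem im_mul_pos (τ : ℍ) : 0 < ((p : ℂ) * (τ : ℂ)).im := by
  have : ((p : ℂ) * (τ : ℂ)).im = p * τ.im := by simp
  rw [this]
  exact mul_pos (Nat.cast_pos.mpr (NeZero.pos p)) τ.im_pos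

theorem hasDerivAt_key {Φ : ℍ → ℂ}
    (hΦ : ∀ τ : ℍ, HasDerivAt (Φ ∘ ofComplex) (eisP p τ) τ) (τ : ℍ) :
    HasDerivAt (fun z : ℂ => cexp (2 * π * I * 24 * Φ (ofComplex z)) * ModularForm.eta z ^ 24 /
        ModularForm.eta ((p : ℂ) * z) ^ 24) 0 τ := by
  have hp0 : (p : ℂ) ≠ 0 := Nat.cast_ne_zero.mpr (NeZero.ne p)
  have him := im_mul_pos p τ
  set w : ℍ := ofComplex ((p : ℂ) * τ) with hw
  have hwc : (w : ℂ) = (p : ℂ) * τ := by rw [hw, ofComplex_apply_of_im_pos him]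
  have hA : HasDerivAt (fun z : ℂ => cexp (2 * π * I * 24 * Φ (ofComplex z)))
      (cexp (2 * π * I * 24 * Φ τ) * (2 * π * I * 24 * eisP p τ)) τ := by
    have h1 : HasDerivAt (fun z : ℂ => 2 * π * I * 24 * (Φ ∘ ofComplex) z)
        (2 * π * I * 24 * eisP p τ) τ := (hΦ τ).const_mul _
    have h2 := h1.cexp
    simpa [ofComplex_apply] using h2
  have hη := hasDerivAt_eta τ
  have hB : HasDerivAt (fun z : ℂ => ModularForm.eta z ^ 24)
      (24 * ModularForm.eta τ ^ 23 * (ModularForm.eta τ * ((π * I / 12) * E2 τ))) τ := by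
    have h := hη.pow 24
    simp only [Nat.cast_ofNat, Nat.add_one_sub_one] at h
    exact h
  have hηw : HasDerivAt ModularForm.eta
      (ModularForm.eta ((p : ℂ) * τ) * ((π * I / 12) * E2 w)) ((p : ℂ) * τ) := by
    have := hasDerivAt_eta w
    rwa [hwc] at this
  have hlin : HasDerivAt (fun z : ℂ => (p : ℂ) * z) (p : ℂ) τ := by
    simpa using (hasDerivAt_id (τ : ℂ)).const_mul (p : ℂ)
  have hCη : HasDerivAt (fun z : ℂ => ModularForm.eta ((p : ℂ) * z))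
      (ModularForm.eta ((p : ℂ) * τ) * ((π * I / 12) * E2 w) * p) τ :=
    HasDerivAt.comp (τ : ℂ) hηw hlin
  have hC : HasDerivAt (fun z : ℂ => ModularForm.eta ((p : ℂ) * z) ^ 24)
      (24 * ModularForm.eta ((p : ℂ) * τ) ^ 23 *
        (ModularForm.eta ((p : ℂ) * τ) * ((π * I / 12) * E2 w) * p)) τ := by
    have h := hCη.pow 24
    simp only [Nat.cast_ofNat, Nat.add_one_sub_one] at h
    exact h
  have hne : ModularForm.eta ((p : ℂ) * τ) ^ 24 ≠ 0 :=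
    pow_ne_zero _ (ModularForm.eta_ne_zero him)
  have hdiv := (hA.mul hB).div hC hne
  have heis : eisP p τ = ((p : ℂ) * E2 w - E2 τ) / 24 := rfl
  have hval : ((cexp (2 * π * I * 24 * Φ τ) * (2 * π * I * 24 * eisP p τ) * ModularForm.eta τ ^ 24 +
            cexp (2 * π * I * 24 * Φ (ofComplex τ)) *
              (24 * ModularForm.eta τ ^ 23 * (ModularForm.eta τ * ((π * I / 12) * E2 τ)))) *
          ModularForm.eta ((p : ℂ) * τ) ^ 24 -
        ((fun z : ℂ => cexp (2 * π * I * 24 * Φ (ofComplex z))) *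
            fun z : ℂ => ModularForm.eta z ^ 24) τ *
          (24 * ModularForm.eta ((p : ℂ) * τ) ^ 23 *
            (ModularForm.eta ((p : ℂ) * τ) * ((π * I / 12) * E2 w) * p))) /
      (ModularForm.eta ((p : ℂ) * τ) ^ 24) ^ 2 = 0 := by
    rw [heis]
    simp only [Pi.mul_apply, ofComplex_apply]
    field_simp
    ring
  rw [hval] at hdiv
  exact hdiv

/-- `exp(2πi · 24 Φ(z)) · Δ(z) / Δ(p z)` is constant. -/
theorem exists_exp_const {Φ : ℍ → ℂ}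
    (hΦ : ∀ τ : ℍ, HasDerivAt (Φ ∘ ofComplex) (eisP p τ) τ) :
    ∃ c : ℂ, ∀ τ : ℍ, cexp (2 * π * I * 24 * Φ τ) * ModularForm.eta τ ^ 24 /
        ModularForm.eta ((p : ℂ) * τ) ^ 24 = c := by
  obtain ⟨c, hc⟩ := Fermat.Agent.S22.Tower.exists_const_of_hasDerivAt_zero (hasDerivAt_key p hΦ)
  refine ⟨c, fun τ => ?_⟩
  have := hc τ
  simpa [ofComplex_apply] using this

/-- `Δ(γ z) / Δ(p γ z) = Δ(z) / Δ(p z)` for `γ ∈ Γ₀(p)`. -/
theorem eta_ratio_smul {γ : SL(2, ℤ)} (hγ : γ ∈ Gamma0 p) (τ : ℍ) :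
    ModularForm.eta ((γ • τ : ℍ) : ℂ) ^ 24 / ModularForm.eta ((p : ℂ) * ((γ • τ : ℍ) : ℂ)) ^ 24 =
      ModularForm.eta τ ^ 24 / ModularForm.eta ((p : ℂ) * τ) ^ 24 := by
  have hj := Fermat.Agent.Lib.DeltaSlash.sl_denom_ne_zero γ τ
  have h1 : ModularForm.eta ((γ • τ : ℍ) : ℂ) ^ 24 =
      ((γ 1 0 : ℂ) * τ + (γ 1 1 : ℂ)) ^ 12 * ModularForm.eta τ ^ 24 :=
    Fermat.Agent.Lib.DeltaSlash.discriminant_smul γ τ
  have e1 : ∀ σ : ℍ, Fermat.Agent.Lib.DeltaSlash.deltaN p σ =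
      ModularForm.eta ((p : ℂ) * (σ : ℂ)) ^ 24 := by
    intro σ
    show ModularForm.eta ((ofComplex ((p : ℂ) * σ) : ℍ) : ℂ) ^ 24 = _
    rw [ofComplex_apply_of_im_pos (im_mul_pos p σ)]
  have h2 : ModularForm.eta ((p : ℂ) * ((γ • τ : ℍ) : ℂ)) ^ 24 =
      ((γ 1 0 : ℂ) * τ + (γ 1 1 : ℂ)) ^ 12 * ModularForm.eta ((p : ℂ) * τ) ^ 24 := by
    have h := congrFun (Fermat.Agent.Lib.DeltaLevelN.deltaN_slash_of_mem p hγ) τ
    rw [ModularForm.SL_slash_apply, denom_sl, e1, e1] at h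
    rw [← h, zpow_neg, mul_comm (_ ^ 12), mul_assoc]
    have : (((γ 1 0 : ℂ) * τ + (γ 1 1 : ℂ)) ^ (12 : ℤ))⁻¹ * ((γ 1 0 : ℂ) * τ + (γ 1 1 : ℂ)) ^ 12
        = 1 := by
      rw [zpow_ofNat]
      exact inv_mul_cancel₀ (pow_ne_zero _ hj)
    rw [this, mul_one]
  have hB : ModularForm.eta τ ^ 24 ≠ 0 := pow_ne_zero _ (ModularForm.eta_ne_zero τ.im_pos)
  have hC : ModularForm.eta ((p : ℂ) * τ) ^ 24 ≠ 0 :=
    pow_ne_zero _ (ModularForm.eta_ne_zero (im_mul_pos p τ))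
  rw [h1, h2]
  field_simp

/-- Integrality of the periods: `24 (Φ(γ τ) - Φ(τ)) ∈ ℤ` for `γ ∈ Γ₀(p)`. -/
theorem exists_int_of_mem {Φ : ℍ → ℂ}
    (hΦ : ∀ τ : ℍ, HasDerivAt (Φ ∘ ofComplex) (eisP p τ) τ) {γ : SL(2, ℤ)} (hγ : γ ∈ Gamma0 p)
    (τ : ℍ) : ∃ n : ℤ, 24 * (Φ (γ • τ) - Φ τ) = n := by
  obtain ⟨c, hc⟩ := exists_exp_const p hΦ
  have h1 := hc (γ • τ)
  have h2 := hc τ
  have hr := eta_ratio_smul p hγ τ
  have hB : ModularForm.eta τ ^ 24 ≠ 0 := pow_ne_zero _ (ModularForm.eta_ne_zero τ.im_pos)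
  have hC : ModularForm.eta ((p : ℂ) * τ) ^ 24 ≠ 0 :=
    pow_ne_zero _ (ModularForm.eta_ne_zero (im_mul_pos p τ))
  have hexp : cexp (2 * π * I * 24 * Φ (γ • τ)) = cexp (2 * π * I * 24 * Φ τ) := by
    rw [mul_div_assoc, hr] at h1
    rw [mul_div_assoc] at h2
    have hne : ModularForm.eta τ ^ 24 / ModularForm.eta ((p : ℂ) * τ) ^ 24 ≠ 0 :=
      div_ne_zero hB hC
    exact mul_right_cancel₀ hne (h1.trans h2.symm)
  rw [Complex.exp_eq_exp_iff_exists_int] at hexp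
  obtain ⟨n, hn⟩ := hexp
  refine ⟨n, ?_⟩
  have hpi : (2 * π * I : ℂ) ≠ 0 := Complex.two_pi_I_ne_zero
  have : 2 * π * I * (24 * (Φ (γ • τ) - Φ τ)) = 2 * π * I * n := by linear_combination hn
  exact mul_left_cancel₀ hpi this

/-! ### The Fricke involution -/

theorem im_fricke_pos (τ : ℍ) : 0 < (-1 / ((p : ℂ) * (τ : ℂ))).im := by
  have him := im_mul_pos p τ
  have h : ((ModularGroup.S • (⟨(p : ℂ) * τ, him⟩ : ℍ) : ℍ) : ℂ) = -1 / ((p : ℂ) * τ) := by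
    rw [coe_S_smul]
  rw [← h]
  exact (ModularGroup.S • (⟨(p : ℂ) * τ, him⟩ : ℍ)).im_pos

theorem hasDerivAt_fricke {Φ : ℍ → ℂ}
    (hΦ : ∀ τ : ℍ, HasDerivAt (Φ ∘ ofComplex) (eisP p τ) τ) (τ : ℍ) :
    HasDerivAt (fun z : ℂ => Φ (ofComplex (-1 / ((p : ℂ) * z))) + Φ (ofComplex z)) 0 τ := by
  have hp0 : (p : ℂ) ≠ 0 := Nat.cast_ne_zero.mpr (NeZero.ne p)
  have hτ0 : (τ : ℂ) ≠ 0 := ne_zero τ
  have himW := im_fricke_pos p τ
  set w : ℍ := ofComplex (-1 / ((p : ℂ) * τ)) with hw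
  have hwc : (w : ℂ) = -1 / ((p : ℂ) * τ) := by rw [hw, ofComplex_apply_of_im_pos himW]
  have h1 : HasDerivAt (Φ ∘ ofComplex) (eisP p w) (-1 / ((p : ℂ) * τ)) := by
    have := hΦ w
    rwa [hwc] at this
  have hlin : HasDerivAt (fun z : ℂ => (p : ℂ) * z) (p : ℂ) τ := by
    simpa using (hasDerivAt_id (τ : ℂ)).const_mul (p : ℂ)
  have h2 : HasDerivAt (fun z : ℂ => -1 / ((p : ℂ) * z)) (1 / ((p : ℂ) * (τ : ℂ) ^ 2)) τ := by
    have h := (hasDerivAt_const (τ : ℂ) (-1 : ℂ)).div hlin (mul_ne_zero hp0 hτ0)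
    exact h.congr_deriv (by field_simp; ring)
  have h3 := HasDerivAt.comp (τ : ℂ) h1 h2
  have h4 := h3.add (hΦ τ)
  have hfr : eisP p w = -(p : ℂ) * (τ : ℂ) ^ 2 * eisP p τ := by
    have h := eisDiff_fricke p τ
    show eisDiff p w / 24 = -(p : ℂ) * (τ : ℂ) ^ 2 * (eisDiff p τ / 24)
    rw [hw, h]
    ring
  have hval : eisP p w * (1 / ((p : ℂ) * (τ : ℂ) ^ 2)) + eisP p τ = 0 := by
    rw [hfr]
    field_simp
    ring
  exact h4.congr_deriv hval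

/-- `Φ(-1/(p τ)) + Φ(τ)` is constant. -/
theorem exists_fricke_const {Φ : ℍ → ℂ}
    (hΦ : ∀ τ : ℍ, HasDerivAt (Φ ∘ ofComplex) (eisP p τ) τ) :
    ∃ κ : ℂ, ∀ τ : ℍ, Φ (ofComplex (-1 / ((p : ℂ) * τ))) + Φ τ = κ := by
  obtain ⟨κ, hκ⟩ :=
    Fermat.Agent.S22.Tower.exists_const_of_hasDerivAt_zero (hasDerivAt_fricke p hΦ)
  refine ⟨κ, fun τ => ?_⟩
  have := hκ τ
  simpa [ofComplex_apply] using this

/-- Conjugation by the Fricke involution, on points: if `γ' = W γ W⁻¹` (entrywise) then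
`γ' (W τ) = W (γ τ)`, `W τ = -1/(p τ)`. -/
theorem smul_fricke (γ γ' : SL(2, ℤ)) (h00 : γ' 0 0 = γ 1 1) (h01 : (p : ℤ) * γ' 0 1 = -γ 1 0)
    (h10 : γ' 1 0 = -(p : ℤ) * γ 0 1) (h11 : γ' 1 1 = γ 0 0) (τ : ℍ) :
    γ' • (ofComplex (-1 / ((p : ℂ) * τ)) : ℍ) =
      ofComplex (-1 / ((p : ℂ) * ((γ • τ : ℍ) : ℂ))) := by
  have hp0 : (p : ℂ) ≠ 0 := Nat.cast_ne_zero.mpr (NeZero.ne p)
  have hτ0 : (τ : ℂ) ≠ 0 := ne_zero τ
  have hden := Fermat.Agent.Lib.DeltaSlash.sl_denom_ne_zero γ τ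
  have hnum : (γ 0 0 : ℂ) * τ + (γ 0 1 : ℂ) ≠ 0 := by
    intro h0
    have h := ne_zero (γ • τ)
    rw [Fermat.Agent.Lib.DeltaSlash.coe_sl_smul, h0, zero_div] at h
    exact h rfl
  have e00 : (γ' 0 0 : ℂ) = (γ 1 1 : ℂ) := by exact_mod_cast congrArg (Int.cast : ℤ → ℂ) h00
  have e01 : (p : ℂ) * (γ' 0 1 : ℂ) = -(γ 1 0 : ℂ) := by
    exact_mod_cast congrArg (Int.cast : ℤ → ℂ) h01
  have e10 : (γ' 1 0 : ℂ) = -(p : ℂ) * (γ 0 1 : ℂ) := by
    exact_mod_cast congrArg (Int.cast : ℤ → ℂ) h10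
  have e11 : (γ' 1 1 : ℂ) = (γ 0 0 : ℂ) := by exact_mod_cast congrArg (Int.cast : ℤ → ℂ) h11
  have e01' : (γ' 0 1 : ℂ) = -(γ 1 0 : ℂ) / p := by
    field_simp
    linear_combination e01
  have hw1 : ((ofComplex (-1 / ((p : ℂ) * τ)) : ℍ) : ℂ) = -1 / ((p : ℂ) * τ) := by
    rw [ofComplex_apply_of_im_pos (im_fricke_pos p τ)]
  have hw2 : ((ofComplex (-1 / ((p : ℂ) * ((γ • τ : ℍ) : ℂ))) : ℍ) : ℂ) =
      -1 / ((p : ℂ) * ((γ • τ : ℍ) : ℂ)) := by
    rw [ofComplex_apply_of_im_pos (im_fricke_pos p (γ • τ))]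
  apply UpperHalfPlane.ext
  rw [Fermat.Agent.Lib.DeltaSlash.coe_sl_smul, hw1, hw2, Fermat.Agent.Lib.DeltaSlash.coe_sl_smul,
    e00, e01', e10, e11]
  have hN : (γ 1 1 : ℂ) * (-1 / ((p : ℂ) * τ)) + -(γ 1 0 : ℂ) / p =
      -((γ 1 0 : ℂ) * τ + (γ 1 1 : ℂ)) / ((p : ℂ) * τ) := by
    field_simp
    ring
  have hD : -(p : ℂ) * (γ 0 1 : ℂ) * (-1 / ((p : ℂ) * τ)) + (γ 0 0 : ℂ) =
      ((γ 0 0 : ℂ) * τ + (γ 0 1 : ℂ)) / τ := by
    field_simp
    ring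
  rw [hN, hD]
  field_simp

/-- The period of the Fricke conjugate is the negative of the period. -/
theorem sub_fricke {Φ : ℍ → ℂ} (hΦ : ∀ τ : ℍ, HasDerivAt (Φ ∘ ofComplex) (eisP p τ) τ)
    (γ γ' : SL(2, ℤ)) (h00 : γ' 0 0 = γ 1 1) (h01 : (p : ℤ) * γ' 0 1 = -γ 1 0)
    (h10 : γ' 1 0 = -(p : ℤ) * γ 0 1) (h11 : γ' 1 1 = γ 0 0) (τ : ℍ) :
    Φ (γ' • (ofComplex (-1 / ((p : ℂ) * τ)) : ℍ)) - Φ (ofComplex (-1 / ((p : ℂ) * τ))) =
      -(Φ (γ • τ) - Φ τ) := by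
  obtain ⟨κ, hκ⟩ := exists_fricke_const p hΦ
  rw [smul_fricke p γ γ' h00 h01 h10 h11 τ]
  have h1 := hκ (γ • τ)
  have h2 := hκ τ
  linear_combination h1 - h2

/-- (C2), core form: an equivariant primitive `Φ` of `E' = (p E₂(p z) - E₂(z))/24` on `Γ₀(p)`
whose period homomorphism `k/24` satisfies: `k` is integer valued, `k(T) = p - 1`,
`k ∘ Ad(W) = -k`. -/
theorem exists_eis_primitive_core :
    ∃ (Φ : ℍ → ℂ) (hΦ : IsEquivariantPrimitive (Gamma0 p) Φ),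
      (∀ τ : ℍ, HasDerivAt (Φ ∘ ofComplex) (eisP p τ) τ) ∧
      (∀ γ : Gamma0 p, ∃ n : ℤ, 24 * hΦ.period γ = n) ∧
      (∀ γ : Gamma0 p, (γ : SL(2, ℤ)) = ModularGroup.T → 24 * hΦ.period γ = (p : ℂ) - 1) ∧
      ∀ γ γ' : Gamma0 p, (γ' : SL(2, ℤ)) 0 0 = (γ : SL(2, ℤ)) 1 1 →
        (p : ℤ) * (γ' : SL(2, ℤ)) 0 1 = -(γ : SL(2, ℤ)) 1 0 →
        (γ' : SL(2, ℤ)) 1 0 = -(p : ℤ) * (γ : SL(2, ℤ)) 0 1 →
        (γ' : SL(2, ℤ)) 1 1 = (γ : SL(2, ℤ)) 0 0 → hΦ.period γ' = -hΦ.period γ := by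
  obtain ⟨Φ, hΦd, hΦper⟩ := exists_eis_prim p
  have hΦ := isEquivariantPrimitive_of_prim p hΦd
  refine ⟨Φ, hΦ, hΦd, ?_, ?_, ?_⟩
  · intro γ
    exact exists_int_of_mem p hΦd γ.2 UpperHalfPlane.I
  · intro γ hγ
    have h := sub_T p hΦper UpperHalfPlane.I
    have h2 : hΦ.period γ = c0 p := by
      rw [← h, ← hγ]
      rfl
    rw [h2, c0]
    ring
  · intro γ γ' h00 h01 h10 h11
    have h := sub_fricke p hΦd γ γ' h00 h01 h10 h11 UpperHalfPlane.I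
    rw [hΦ.sub_eq_period γ' _, hΦ.sub_eq_period γ _] at h
    exact h


/-! ### The two contracts -/

theorem eisUnit_of_neZero : EisUnitStmt p := by
  intro F hF
  obtain ⟨c, hc⟩ := exists_exp_const p hF
  have hB : ∀ z : ℍ, ModularForm.eta z ^ 24 ≠ 0 := fun z =>
    pow_ne_zero _ (ModularForm.eta_ne_zero z.im_pos)
  have hC : ∀ z : ℍ, ModularForm.eta ((p : ℂ) * z) ^ 24 ≠ 0 := fun z =>
    pow_ne_zero _ (ModularForm.eta_ne_zero (im_mul_pos p z))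
  refine ⟨c, ?_, fun z => ?_⟩
  · intro h0
    have h := hc UpperHalfPlane.I
    rw [h0] at h
    exact div_ne_zero (mul_ne_zero (Complex.exp_ne_zero _) (hB _)) (hC _) h
  · have h := hc z
    have e1 : Fermat.Agent.Lib.DeltaSlash.deltaN p z = ModularForm.eta ((p : ℂ) * (z : ℂ)) ^ 24 := by
      show ModularForm.eta ((ofComplex ((p : ℂ) * z) : ℍ) : ℂ) ^ 24 = _
      rw [ofComplex_apply_of_im_pos (im_mul_pos p z)]
    have e2 : ModularForm.discriminant z = ModularForm.eta z ^ 24 := rfl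
    rw [e1, e2, ← h]
    have h1 : ModularForm.eta (z : ℂ) ≠ 0 := ModularForm.eta_ne_zero z.im_pos
    have h2 : ModularForm.eta ((p : ℂ) * (z : ℂ)) ≠ 0 := ModularForm.eta_ne_zero (im_mul_pos p z)
    field_simp

theorem eisClass_of_neZero : EisClassStmt p := by
  obtain ⟨Φ, hΦ, hd, hint, hT, hW⟩ := exists_eis_primitive_core p
  choose n hn using hint
  have hinj : Function.Injective (Int.cast : ℤ → ℂ) := Int.cast_injective
  let k : Hm p ℤ :=
    { toFun := fun γ => n (Additive.toMul γ)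
      map_zero' := by
        apply hinj
        rw [← hn]
        simp
      map_add' := by
        intro a b
        apply hinj
        push_cast
        rw [← hn, ← hn, ← hn]
        show 24 * hΦ.period (Additive.toMul a * Additive.toMul b) = _
        rw [hΦ.period_mul]
        ring }
  have hk : ∀ γ : Gamma0 p, ((k (Additive.ofMul γ) : ℤ) : ℂ) = 24 * hΦ.period γ := fun γ =>
    (hn γ).symm
  have hTp : 24 * hΦ.period (tInf p) = (p : ℂ) - 1 := hT (tInf p) rfl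
  refine ⟨Φ, hΦ, k, hd, fun γ => (hk γ).symm, ?_, ?_⟩
  · apply hinj
    rw [hk, hTp]
    push_cast
    ring
  · apply hinj
    rw [hk]
    have h1 : hΦ.period (tZero p) = -hΦ.period (tInf p)⁻¹ := by
      apply hW (tInf p)⁻¹ (tZero p)
      · simp [tInf, tZero]
      · simp [tInf, tZero]
      · simp [tInf, tZero]
      · simp [tInf, tZero]
    have h2 := hΦ.period_mul (tInf p) (tInf p)⁻¹
    rw [mul_inv_cancel, hΦ.period_one] at h2
    have h3 : hΦ.period (tZero p) = hΦ.period (tInf p) := by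
      rw [h1]
      linear_combination h2
    rw [h3, hTp]
    push_cast
    ring

end Fermat.Agent.S16.LowerS21.EisB

namespace Fermat.Agent.S16.LowerS21.EisB

/-- Leaf L3 of the S16 lower bound: `exp(48πi F) = C · Δ(p z)/Δ(z)`. -/
theorem eisUnit (p : ℕ) [Fact p.Prime] : EisUnitStmt p :=
  haveI : NeZero p := ⟨(Fact.out : p.Prime).ne_zero⟩
  eisUnit_of_neZero p

/-- Leaf L4 of the S16 lower bound: the integral Eisenstein class. -/
theorem eisClass (p : ℕ) [Fact p.Prime] : EisClassStmt p :=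
  haveI : NeZero p := ⟨(Fact.out : p.Prime).ne_zero⟩
  eisClass_of_neZero p

end Fermat.Agent.S16.LowerS21.EisB
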