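import Mathlib
import Fermat.Agent.S16.LowerS21.Plan
import Fermat.Agent.S16.EisForm

/-!
# S16 lower bound, leaf L5: the Eisenstein series is a Hecke eigenfunction

`eisEigen : EisEigenStmt p`, from the bundled identities of `S16/EisForm.lean` (helper82).
-/

set_option autoImplicit false

noncomputable section

namespace Fermat.Agent.S16.LowerS21

open UpperHalfPlane CongruenceSubgroup
open scoped MatrixGroups ModularForm

/-- (L5) `T_ℓ E = (1 + ℓ) E` for `ℓ ≠ p`, `U_p E = E`, as functions on `ℍ`. -/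
theorem eisEigen (p : ℕ) [Fact p.Prime] : EisEigenStmt p := by
  have hp : p.Prime := Fact.out
  intro ℓ hℓ
  obtain ⟨E, hE, -, -, hT, hU⟩ := Fermat.Agent.S16.exists_eisForm_hecke p
  unfold heckeFun eisEig
  by_cases h : ℓ = p
  · subst h
    rw [if_pos rfl, if_pos rfl]
    have h1 := congrArg (fun G : ModularForm (Gamma0 ℓ) 2 => (⇑G : ℍ → ℂ)) hU
    simp only [ModularForm.coe_heckeULin_apply] at h1
    rw [hE] at h1
    rw [h1]
    simp
  · rw [if_neg h, if_neg h]
    have hℓp : ¬ ℓ ∣ p := fun hd => h ((Nat.prime_dvd_prime_iff_eq hℓ hp).mp hd)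
    have h1 := congrArg (fun G : ModularForm (Gamma0 p) 2 => (⇑G : ℍ → ℂ)) (hT ℓ hℓ hℓp)
    simp only [ModularForm.coe_heckeTLin_apply] at h1
    rw [hE] at h1
    rw [h1]
    funext z
    simp [hE]

end Fermat.Agent.S16.LowerS21
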