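import Mathlib
import Fermat.Agent.S16.LowerS21.Plan
import Fermat.Agent.Lib.HeckeHomReps

/-!
# S16 / L-main leaf L1: Hecke operators on `Hom(Γ₀(p), ℂ)` (contract `HeckeHomStmt p`)

Thin wrapper of the generic `Fermat.Agent.Lib.HeckeHom` / `HeckeHomGL` / `HeckeHomReps`
(transfer along the coset families of `T_ℓ` and `U_p`).

* `stmt_of_family` : any coset family `δ` whose sum of translates is `primHecke p ℓ` yields the
  three clauses of the contract, with the EXPLICIT operator `Θ = h.heckeHom`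
  (`(Θ φ)(γ) = ∑ i, φ (h.cof γ i)`, `δ i * γ = h.cof γ i * δ (h.nxt γ i)`);
* `heckeHom : HeckeHomStmt p`.
-/

set_option autoImplicit false

namespace Fermat.Agent.S16.LowerS21.HeckeHomC

open ModularCurve UpperHalfPlane CongruenceSubgroup ModularCurve.Period
open scoped MatrixGroups ModularForm
open Fermat.Agent.Lib.HeckeHom Fermat.Agent.Lib.HeckeHomGL Fermat.Agent.Lib.HeckePeriod
open Fermat.Agent.S16.LowerS21
open P2MW.S_ModularForm_heckeT_slash_eq_self_of_mem_Gamma0.ModularForm.HeckeSlashInvariance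

/-- The three clauses of `HeckeHomStmt` for the explicit operator `h.heckeHom` of a coset family
whose sum of translates is `primHecke p ℓ`. -/
theorem clauses_of_family {p ℓ : ℕ} {ι : Type*} [Fintype ι] {δ : ι → GL (Fin 2) ℝ}
    (h : IsCosetFamily (eG p) δ) (τ : ι → ι) (hτ : Function.Bijective τ)
    (hδ : ∀ i, ∃ u : Gamma0 p, epsG * δ i = eG p u * δ (τ i) * epsG)
    (hprim : ∀ (F : ℍ → ℂ) (z : ℍ), primHecke p ℓ F z = ∑ i, F (δ i • z)) :
    (∀ φ : Hm p ℤ, h.heckeHom (toC p φ) = toC p (h.heckeHom φ)) ∧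
    (∀ φ : Hm p ℂ, h.heckeHom (charInvolution p ℂ ℂ φ) = charInvolution p ℂ ℂ (h.heckeHom φ)) ∧
    (∀ (F : ℍ → ℂ) (hF : IsEquivariantPrimitive (Gamma0 p) F),
      ∃ hF' : IsEquivariantPrimitive (Gamma0 p) (primHecke p ℓ F),
        hF'.periodHom = h.heckeHom hF.periodHom) := by
  refine ⟨fun φ => h.heckeHom_comp (Int.castAddHom ℂ) φ,
    fun φ => heckeHom_charInvolution h τ hτ hδ ℂ φ, ?_⟩
  intro F hF
  have hper : ∀ (γ : Gamma0 p) (z : ℍ),
      F ((γ : SL(2, ℤ)) • z) - F z = hF.periodHom (Additive.ofMul γ) :=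
    fun γ z => hF.sub_eq_period γ z
  have key : ∀ (γ : Gamma0 p) (z : ℍ),
      primHecke p ℓ F ((γ : SL(2, ℤ)) • z) - primHecke p ℓ F z =
        h.heckeHom hF.periodHom (Additive.ofMul γ) := by
    intro γ z
    rw [hprim, hprim]
    exact sum_sub_eq_heckeHom h hF.periodHom hper γ z
  have hF' : IsEquivariantPrimitive (Gamma0 p) (primHecke p ℓ F) :=
    fun γ => ⟨_, fun z => key γ z⟩
  refine ⟨hF', AddMonoidHom.ext fun γa => ?_⟩
  obtain ⟨γ, rfl⟩ : ∃ γ : Gamma0 p, Additive.ofMul γ = γa := ⟨Additive.toMul γa, rfl⟩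
  rw [IsEquivariantPrimitive.periodHom_apply, ← hF'.sub_eq_period γ UpperHalfPlane.I, key]

/-- Packaging as the existential of the contract. -/
theorem stmt_of_family {p ℓ : ℕ} {ι : Type*} [Fintype ι] {δ : ι → GL (Fin 2) ℝ}
    (h : IsCosetFamily (eG p) δ) (τ : ι → ι) (hτ : Function.Bijective τ)
    (hδ : ∀ i, ∃ u : Gamma0 p, epsG * δ i = eG p u * δ (τ i) * epsG)
    (hprim : ∀ (F : ℍ → ℂ) (z : ℍ), primHecke p ℓ F z = ∑ i, F (δ i • z)) :
    ∃ Θ : Hm p ℂ →+ Hm p ℂ,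
      (∀ φ : Hm p ℤ, ∃ φ' : Hm p ℤ, Θ (toC p φ) = toC p φ') ∧
      (∀ φ : Hm p ℂ, Θ (charInvolution p ℂ ℂ φ) = charInvolution p ℂ ℂ (Θ φ)) ∧
      (∀ (F : ℍ → ℂ) (hF : IsEquivariantPrimitive (Gamma0 p) F),
        ∃ hF' : IsEquivariantPrimitive (Gamma0 p) (primHecke p ℓ F),
          hF'.periodHom = Θ hF.periodHom) := by
  obtain ⟨h1, h2, h3⟩ := clauses_of_family h τ hτ hδ hprim
  exact ⟨(h.heckeLin ℂ).toAddMonoidHom, fun φ => ⟨h.heckeHom φ, h1 φ⟩, h2, h3⟩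

/-- `primHecke p p` is the sum over the representatives of `U_p`. -/
theorem primHecke_self (p : ℕ) [NeZero p] (F : ℍ → ℂ) (z : ℍ) :
    primHecke p p F z = ∑ x : ZMod p, F (ModularForm.heckeMatrix p x.val • z) := by
  unfold primHecke
  rw [if_pos rfl, add_zero]
  exact sum_range_eq_sum_zmod _

/-- `primHecke p ℓ`, `ℓ ≠ p`, is the sum over the representatives of `T_ℓ`. -/
theorem primHecke_of_ne {p ℓ : ℕ} [NeZero ℓ] (hne : ℓ ≠ p) (F : ℍ → ℂ) (z : ℍ) :
    primHecke p ℓ F z = ∑ x : OnePoint (ZMod ℓ), F (heckeRep ℓ x • z) := by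
  unfold primHecke
  rw [if_neg hne, sum_range_eq_sum_zmod, add_comm]
  exact (Fintype.sum_option (fun x : OnePoint (ZMod ℓ) => F (heckeRep ℓ x • z))).symm

/-- **L1** (C1): Hecke operators on `Hom(Γ₀(p), ℂ)`. -/
theorem heckeHom (p : ℕ) [Fact p.Prime] : HeckeHomStmt p := by
  intro ℓ hℓ
  have : Fact ℓ.Prime := ⟨hℓ⟩
  have : NeZero ℓ := ⟨hℓ.ne_zero⟩
  by_cases hne : ℓ = p
  · subst hne
    exact stmt_of_family (isCosetFamily_heckeMatrix ℓ ℓ dvd_rfl) (fun x => -x)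
      neg_involutive.bijective (eps_heckeMatrix ℓ ℓ) (primHecke_self ℓ)
  · have hndvd : ¬ ℓ ∣ p := fun hd =>
      hne ((Nat.prime_dvd_prime_iff_eq hℓ (Fact.out : p.Prime)).mp hd)
    exact stmt_of_family (isCosetFamily_heckeRep p ℓ hndvd) (negOnePoint ℓ)
      (negOnePoint_involutive ℓ).bijective (eps_heckeRep p ℓ) (primHecke_of_ne hne)

end Fermat.Agent.S16.LowerS21.HeckeHomC
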