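import Mathlib
import Fermat.Agent.S16.LowerS21.Plan
import Fermat.Agent.S16.LowerS21.HeckeHomC

/-!
# S16 / L-main leaf L1 (canonical path): `heckeHom : HeckeHomStmt p`

The proof is in `LowerS21/HeckeHomC.lean` (on top of `Lib/HeckeHom`, `Lib/HeckeHomGL`,
`Lib/HeckeHomReps`); this file only re-exports it under the name fixed by the L-main roster.
-/

set_option autoImplicit false

namespace Fermat.Agent.S16.LowerS21

/-- **L1** (C1): for every prime `ℓ` the Hecke operator `Θ_ℓ` on `Hom(Γ₀(p), ℂ)` (transfer along
the coset representatives of `T_ℓ`, resp. `U_p`): integral, commuting with the involution induced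
by `diag(-1, 1)`, and computing the periods of `primHecke p ℓ F` from those of `F`. -/
theorem heckeHom (p : ℕ) [Fact p.Prime] : HeckeHomStmt p := HeckeHomC.heckeHom p

end Fermat.Agent.S16.LowerS21
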