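import Mathlib
import Fermat.Agent.S16.LowerS21.Plan
import Fermat.Agent.S22.Tower

/-!
# S16 lower bound (L-main), leaf L2: `primHecke` of a primitive is a primitive

For a weight-two function `f` with holomorphic primitive `F` on the upper half plane
(`IsPrim f F`), the function `primHecke p ℓ F = ∑_j F((z + j)/ℓ) (+ F(ℓ z))` is a primitive of
`heckeFun p ℓ f` (the weight-two `U_ℓ`, resp. `T_ℓ`), and it vanishes at `i∞` if `F` does.
-/

set_option autoImplicit false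

noncomputable section

namespace Fermat.Agent.S16.LowerS21

open UpperHalfPlane ModularForm Filter
open scoped MatrixGroups ModularForm

namespace PrimHeckeAux

theorem isPrim_comp_heckeMatrix {ℓ : ℕ} (hℓ : ℓ ≠ 0) (j : ℕ) (f F : ℍ → ℂ) (h : IsPrim f F) :
    IsPrim (f ∣[(2 : ℤ)] heckeMatrix ℓ j) (fun z => F (heckeMatrix ℓ j • z)) := by
  intro τ
  have h1 := Fermat.Agent.S22.Tower.hasDerivAt_comp_smul (heckeMatrix ℓ j)
    (det_heckeMatrix_pos ℓ j) τ (h (heckeMatrix ℓ j • τ))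
  have hℓ' : (ℓ : ℂ) ≠ 0 := by exact_mod_cast hℓ
  have h2 : f (heckeMatrix ℓ j • τ) *
      ((((heckeMatrix ℓ j).val.det : ℝ) : ℂ) / denom (heckeMatrix ℓ j) τ ^ 2)
      = (f ∣[(2 : ℤ)] heckeMatrix ℓ j) τ := by
    rw [slash_heckeMatrix_apply 2 hℓ, denom_heckeMatrix hℓ]
    have h3 : ((heckeMatrix ℓ j).val.det : ℝ) = ℓ := det_heckeMatrix hℓ j
    rw [h3]
    push_cast
    field_simp
  rw [h2] at h1
  exact h1

theorem isPrim_comp_heckeDiagMatrix {ℓ : ℕ} (hℓ : ℓ ≠ 0) (f F : ℍ → ℂ) (h : IsPrim f F) :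
    IsPrim (f ∣[(2 : ℤ)] heckeDiagMatrix ℓ) (fun z => F (heckeDiagMatrix ℓ • z)) := by
  intro τ
  have h1 := Fermat.Agent.S22.Tower.hasDerivAt_comp_smul (heckeDiagMatrix ℓ)
    (det_heckeDiagMatrix_pos ℓ) τ (h (heckeDiagMatrix ℓ • τ))
  have hℓ' : (ℓ : ℂ) ≠ 0 := by exact_mod_cast hℓ
  have h2 : f (heckeDiagMatrix ℓ • τ) *
      ((((heckeDiagMatrix ℓ).val.det : ℝ) : ℂ) / denom (heckeDiagMatrix ℓ) τ ^ 2)
      = (f ∣[(2 : ℤ)] heckeDiagMatrix ℓ) τ := by
    rw [slash_heckeDiagMatrix_apply 2 hℓ, denom_heckeDiagMatrix hℓ]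
    have h3 : ((heckeDiagMatrix ℓ).val.det : ℝ) = ℓ := det_heckeDiagMatrix hℓ
    rw [h3]
    push_cast
    norm_num
    ring
  rw [h2] at h1
  exact h1

theorem isPrim_add {f g F G : ℍ → ℂ} (hF : IsPrim f F) (hG : IsPrim g G) :
    IsPrim (f + g) (F + G) := by
  intro τ
  exact (hF τ).add (hG τ)

theorem isPrim_zero : IsPrim (0 : ℍ → ℂ) (0 : ℍ → ℂ) := by
  intro τ
  have h : HasDerivAt (fun _ : ℂ => (0 : ℂ)) 0 (τ : ℂ) := hasDerivAt_const _ _
  exact h

theorem isPrim_sum {ι : Type*} (s : Finset ι) (f F : ι → ℍ → ℂ)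
    (h : ∀ i ∈ s, IsPrim (f i) (F i)) : IsPrim (∑ i ∈ s, f i) (∑ i ∈ s, F i) := by
  classical
  induction s using Finset.induction_on with
  | empty => simpa using isPrim_zero
  | insert a s ha ih =>
    rw [Finset.sum_insert ha, Finset.sum_insert ha]
    exact isPrim_add (h a (Finset.mem_insert_self a s))
      (ih fun i hi => h i (Finset.mem_insert_of_mem hi))

theorem heckeMatrix_one_zero {ℓ : ℕ} (hℓ : ℓ ≠ 0) (j : ℕ) :
    (heckeMatrix ℓ j : GL (Fin 2) ℝ) 1 0 = 0 := by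
  have h := val_heckeMatrix hℓ j
  have h2 := congrFun (congrFun h 1) 0
  simpa using h2

theorem heckeDiagMatrix_one_zero {ℓ : ℕ} (hℓ : ℓ ≠ 0) :
    (heckeDiagMatrix ℓ : GL (Fin 2) ℝ) 1 0 = 0 := by
  have h := val_heckeDiagMatrix hℓ
  have h2 := congrFun (congrFun h 1) 0
  simpa using h2

theorem primHecke_eq_sum (p ℓ : ℕ) (F : ℍ → ℂ) :
    primHecke p ℓ F = (∑ j ∈ Finset.range ℓ, fun z : ℍ => F (heckeMatrix ℓ j • z)) +
      (if ℓ = p then 0 else fun z : ℍ => F (heckeDiagMatrix ℓ • z)) := by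
  funext z
  simp only [primHecke, Pi.add_apply, Finset.sum_apply]
  split_ifs <;> simp

end PrimHeckeAux

open PrimHeckeAux in
/-- **Leaf L2**: `primHecke p ℓ F` is a primitive of `heckeFun p ℓ f` when `F` is a primitive
of `f`, and vanishes at `i∞` when `F` does. -/
theorem primHecke_isPrim (p : ℕ) [Fact p.Prime] : PrimHeckeStmt p := by
  intro ℓ hℓ f F hF
  have hℓ0 : ℓ ≠ 0 := hℓ.ne_zero
  have hU : IsPrim (heckeU 2 ℓ f) (∑ j ∈ Finset.range ℓ, fun z : ℍ => F (heckeMatrix ℓ j • z)) := by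
    rw [heckeU_def]
    exact isPrim_sum _ _ _ fun j _ => isPrim_comp_heckeMatrix hℓ0 j f F hF
  refine ⟨?_, ?_⟩
  · rw [primHecke_eq_sum]
    unfold heckeFun
    by_cases h : ℓ = p
    · rw [if_pos h, if_pos h]
      simpa using hU
    · rw [if_neg h, if_neg h, heckeT_eq_heckeU_add]
      exact isPrim_add hU (isPrim_comp_heckeDiagMatrix hℓ0 f F hF)
  · intro hz
    have h1 : ∀ j : ℕ, Tendsto (fun z : ℍ => F (heckeMatrix ℓ j • z)) atImInfty (nhds 0) :=
      fun j => hz.comp (tendsto_smul_atImInfty (heckeMatrix_one_zero hℓ0 j))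
    have h2 : Tendsto (fun z : ℍ => F (heckeDiagMatrix ℓ • z)) atImInfty (nhds 0) :=
      hz.comp (tendsto_smul_atImInfty (heckeDiagMatrix_one_zero hℓ0))
    have h3 : Tendsto (fun z : ℍ => ∑ j ∈ Finset.range ℓ, F (heckeMatrix ℓ j • z)) atImInfty
        (nhds (∑ _j ∈ Finset.range ℓ, (0 : ℂ))) :=
      tendsto_finsetSum _ fun j _ => h1 j
    have h4 : Tendsto (fun z : ℍ => if ℓ = p then (0 : ℂ) else F (heckeDiagMatrix ℓ • z))
        atImInfty (nhds 0) := by
      by_cases h : ℓ = p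
      · simp only [if_pos h]
        exact tendsto_const_nhds
      · simp only [if_neg h]
        exact h2
    have h5 := h3.add h4
    simp only [Finset.sum_const_zero, add_zero] at h5
    exact h5

end Fermat.Agent.S16.LowerS21
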