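import Mathlib
import Fermat.Agent.S16.LowerS21.Plan

/-!
# S16 / LowerS21, leaf L3: the Eisenstein unit

For every primitive `F` of `E = eisP p = (p E₂(p z) - E₂(z))/24` one has
`exp(2 π i · 24 · F) = C · Δ(p z)/Δ(z)`: both sides have the same logarithmic derivative.
-/

set_option autoImplicit false

noncomputable section

namespace Fermat.Agent.S16.LowerS21

open Complex Filter Topology
open UpperHalfPlane hiding I
open scoped MatrixGroups ModularForm Real Manifold

namespace EisUnit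

/-- The derivative of the Dedekind eta function at a point of the upper half plane. -/
theorem hasDerivAt_eta (z : ℍ) :
    HasDerivAt ModularForm.eta (ModularForm.eta z * ((π * I / 12) * EisensteinSeries.E2 z)) z := by
  have hd : DifferentiableAt ℂ ModularForm.eta (z : ℂ) :=
    ModularForm.differentiableAt_eta_of_mem_upperHalfPlaneSet z.2
  have hne : ModularForm.eta (z : ℂ) ≠ 0 := ModularForm.eta_ne_zero z.2
  have hl := ModularForm.logDeriv_eta_eq_E2 z
  rw [logDeriv_apply] at hl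
  have : deriv ModularForm.eta (z : ℂ) =
      ModularForm.eta z * ((π * I / 12) * EisensteinSeries.E2 z) := by
    rw [← hl]; field_simp
  rw [← this]
  exact hd.hasDerivAt

/-- The derivative of `η ^ 24` at a point of the upper half plane. -/
theorem hasDerivAt_eta_pow (z : ℍ) :
    HasDerivAt (fun w : ℂ => ModularForm.eta w ^ 24)
      (ModularForm.eta z ^ 24 * (2 * π * I * EisensteinSeries.E2 z)) z := by
  have h := (hasDerivAt_eta z).pow 24
  refine h.congr_deriv ?_
  ring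

/-- The derivative of `w ↦ η(d w) ^ 24` at a point of the upper half plane. -/
theorem hasDerivAt_eta_pow_scale (d : ℕ) (hd : d ≠ 0) (z : ℍ) :
    HasDerivAt (fun w : ℂ => ModularForm.eta ((d : ℂ) * w) ^ 24)
      (ModularForm.eta ((d : ℂ) * z) ^ 24 *
        (2 * π * I * ((d : ℂ) * EisensteinSeries.E2 (ofComplex ((d : ℂ) * z))))) z := by
  have him : 0 < ((d : ℂ) * (z : ℂ)).im := by
    have : ((d : ℂ) * (z : ℂ)).im = (d : ℝ) * z.im := by simp
    rw [this]
    exact mul_pos (Nat.cast_pos.mpr (Nat.pos_of_ne_zero hd)) z.im_pos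
  have hz' : ((ofComplex ((d : ℂ) * z) : ℍ) : ℂ) = (d : ℂ) * z := by
    rw [ofComplex_apply_of_im_pos him]
  have h1 := hasDerivAt_eta_pow (ofComplex ((d : ℂ) * z))
  rw [hz'] at h1
  have h2 : HasDerivAt (fun w : ℂ => (d : ℂ) * w) (d : ℂ) (z : ℂ) := by
    simpa using (hasDerivAt_id (z : ℂ)).const_mul (d : ℂ)
  have h3 := HasDerivAt.comp (z : ℂ) h1 h2
  refine h3.congr_deriv ?_
  ring

theorem discriminant_eq_eta (z : ℍ) : ModularForm.discriminant z = ModularForm.eta z ^ 24 := rfl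

theorem deltaN_eq_eta (d : ℕ) (hd : d ≠ 0) (z : ℍ) :
    Fermat.Agent.Lib.DeltaSlash.deltaN d z = ModularForm.eta ((d : ℂ) * z) ^ 24 := by
  have him : 0 < ((d : ℂ) * (z : ℂ)).im := by
    have : ((d : ℂ) * (z : ℂ)).im = (d : ℝ) * z.im := by simp
    rw [this]
    exact mul_pos (Nat.cast_pos.mpr (Nat.pos_of_ne_zero hd)) z.im_pos
  have hz' : ((ofComplex ((d : ℂ) * z) : ℍ) : ℂ) = (d : ℂ) * z := by
    rw [ofComplex_apply_of_im_pos him]
  unfold Fermat.Agent.Lib.DeltaSlash.deltaN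
  rw [discriminant_eq_eta, hz']

theorem eta_scale_ne_zero (d : ℕ) (hd : d ≠ 0) (z : ℍ) :
    ModularForm.eta ((d : ℂ) * z) ≠ 0 := by
  have him : 0 < ((d : ℂ) * (z : ℂ)).im := by
    have : ((d : ℂ) * (z : ℂ)).im = (d : ℝ) * z.im := by simp
    rw [this]
    exact mul_pos (Nat.cast_pos.mpr (Nat.pos_of_ne_zero hd)) z.im_pos
  exact ModularForm.eta_ne_zero him

theorem exists_const_of_hasDerivAt_zero {D : ℂ → ℂ} (h : ∀ τ : ℍ, HasDerivAt D 0 τ) :
    ∃ a, ∀ τ : ℍ, D τ = a := by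
  have hd : DifferentiableOn ℂ D {z : ℂ | 0 < z.im} := fun z hz =>
    (h ⟨z, hz⟩).differentiableAt.differentiableWithinAt
  have hd' : Set.EqOn (deriv D) 0 {z : ℂ | 0 < z.im} := fun z hz => (h ⟨z, hz⟩).deriv
  obtain ⟨a, ha⟩ := isOpen_upperHalfPlaneSet.exists_is_const_of_deriv_eq_zero
    (convex_halfSpace_im_gt 0).isPreconnected hd hd'
  exact ⟨a, fun τ => ha τ τ.im_pos⟩

/-- The general statement: for `d ≠ 0` and a primitive `F` of `eisDiff d / 24`. -/
theorem exists_unit (d : ℕ) (hd : d ≠ 0) (F : ℍ → ℂ)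
    (hF : ∀ τ : ℍ, HasDerivAt (F ∘ ofComplex) (Fermat.Agent.Lib.EisTwo.eisDiff d τ / 24) τ) :
    ∃ C : ℂ, C ≠ 0 ∧ ∀ z : ℍ,
      Complex.exp (2 * π * I * 24 * F z) =
        C * (Fermat.Agent.Lib.DeltaSlash.deltaN d z / ModularForm.discriminant z) := by
  set h : ℂ → ℂ := fun w =>
    Complex.exp (2 * π * I * 24 * (F ∘ ofComplex) w) * ModularForm.eta w ^ 24 /
      ModularForm.eta ((d : ℂ) * w) ^ 24 with hh
  have hder : ∀ τ : ℍ, HasDerivAt h 0 τ := by
    intro τ
    have h1 : HasDerivAt (fun w : ℂ => Complex.exp (2 * π * I * 24 * (F ∘ ofComplex) w))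
        (Complex.exp (2 * π * I * 24 * (F ∘ ofComplex) τ) *
          (2 * π * I * 24 * (Fermat.Agent.Lib.EisTwo.eisDiff d τ / 24))) τ :=
      ((hF τ).const_mul (2 * π * I * 24)).cexp
    have h2 := hasDerivAt_eta_pow τ
    have h3 := hasDerivAt_eta_pow_scale d hd τ
    have hne : ModularForm.eta ((d : ℂ) * τ) ^ 24 ≠ 0 := pow_ne_zero _ (eta_scale_ne_zero d hd τ)
    have h4 := (h1.mul h2).div h3 hne
    refine h4.congr_deriv ?_
    simp only [Pi.mul_apply]
    rw [Fermat.Agent.Lib.EisTwo.eisDiff_apply]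
    have hne' : ModularForm.eta ((d : ℂ) * τ) ≠ 0 := eta_scale_ne_zero d hd τ
    field_simp
    ring
  obtain ⟨a, ha⟩ := exists_const_of_hasDerivAt_zero hder
  have hval : ∀ z : ℍ, Complex.exp (2 * π * I * 24 * F z) * ModularForm.eta z ^ 24 /
      ModularForm.eta ((d : ℂ) * z) ^ 24 = a := by
    intro z
    have := ha z
    simp only [hh, Function.comp_apply, ofComplex_apply] at this
    exact this
  have ha0 : a ≠ 0 := by
    rw [← hval UpperHalfPlane.I]
    exact div_ne_zero (mul_ne_zero (Complex.exp_ne_zero _)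
      (pow_ne_zero _ (ModularForm.eta_ne_zero UpperHalfPlane.I.2)))
      (pow_ne_zero _ (eta_scale_ne_zero d hd _))
  refine ⟨a, ha0, fun z => ?_⟩
  rw [deltaN_eq_eta d hd, discriminant_eq_eta, ← hval z]
  have h1 : ModularForm.eta (z : ℂ) ≠ 0 := ModularForm.eta_ne_zero z.2
  have h2 : ModularForm.eta ((d : ℂ) * z) ≠ 0 := eta_scale_ne_zero d hd z
  field_simp

end EisUnit

/-- Leaf L3: `exp(2 π i · 24 · F) = C · Δ(p z)/Δ(z)` for every primitive `F` of `eisP p`. -/
theorem eisUnit (p : ℕ) [Fact p.Prime] : EisUnitStmt p := by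
  intro F hF
  exact EisUnit.exists_unit p (Fact.out : p.Prime).ne_zero F hF

end Fermat.Agent.S16.LowerS21
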