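import Mathlib
import Fermat.Agent.S16.LowerS21.Plan
import Fermat.Agent.S16.LowerS21.EisUnit
import Fermat.Agent.Lib.DeltaRoot

/-!
# S16 lower bound, leaf L8 (`RootStmt`): Ogg's argument

If all periods of `24 F` (`F` a primitive of the Eisenstein series `eisP p`) are divisible by
`d > 0`, then `v := exp(2πi · 24 F / d)` is a holomorphic `Γ₀(p)`-invariant function with
`v^d = C · Δ(pz)/Δ(z)` (`EisUnit.eisUnit`), hence `d ∣ 12` by `Lib/DeltaRoot.dvd_twelve_of_root`
(weight-zero trace to level one; no `PairAPI`).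
-/

set_option autoImplicit false

noncomputable section

namespace Fermat.Agent.S16.LowerS21

open Complex
open UpperHalfPlane hiding I
open scoped MatrixGroups ModularForm Real Manifold

/-- Leaf L8 (Ogg): if all periods of `24 F` are divisible by `d > 0`, then `d ∣ 12`. -/
theorem root (p : ℕ) [Fact p.Prime] : RootStmt p := by
  intro F hF d hd hper
  obtain ⟨C, hC, hexp⟩ := eisUnit p F hF
  have hdC : (d : ℂ) ≠ 0 := by exact_mod_cast hd.ne'
  refine Fermat.Agent.Lib.DeltaRoot.dvd_twelve_of_root p d hd
    (fun z => Complex.exp (2 * π * I * 24 * F z / d)) ?_ ?_ C hC ?_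
  · rw [UpperHalfPlane.mdifferentiable_iff]
    have hFd : DifferentiableOn ℂ (F ∘ ofComplex) {z | 0 < z.im} := by
      intro w hw
      exact (hF ⟨w, hw⟩).differentiableAt.differentiableWithinAt
    have e : ((fun z : ℍ => Complex.exp (2 * π * I * 24 * F z / d)) ∘ ofComplex) =
        fun w => Complex.exp (2 * π * I * 24 * (F ∘ ofComplex) w / d) := rfl
    rw [e]
    exact ((hFd.const_mul (2 * π * I * 24)).div_const (d : ℂ)).cexp
  · intro γ hγ z
    obtain ⟨m, hm⟩ := hper ⟨γ, hγ⟩ z
    have h1 : 2 * π * I * 24 * F (γ • z) / d = 2 * π * I * 24 * F z / d + m * (2 * π * I) := by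
      have h2 : 24 * F (γ • z) = 24 * F z + d * m := by linear_combination hm
      rw [div_add' _ _ _ hdC, div_left_inj' hdC]
      linear_combination (2 * π * I) * h2
    show Complex.exp (2 * π * I * 24 * F (γ • z) / d) = Complex.exp (2 * π * I * 24 * F z / d)
    rw [h1, Complex.exp_add, Complex.exp_int_mul_two_pi_mul_I, mul_one]
  · intro z
    show Complex.exp (2 * π * I * 24 * F z / d) ^ d = _
    rw [← Complex.exp_nat_mul, ← hexp z]
    congr 1
    field_simp

end Fermat.Agent.S16.LowerS21
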