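import Fermat.Agent.S16.LowerS21.Plan
import Fermat.Agent.S21.ParabolicConj

/-!
# S16, L-main leaf L7: the two cusps of `Γ₀(p)`

`twoCusp : TwoCuspStmt p`: an integral class on `Γ₀(p)` (`p` prime) vanishing on the two parabolic
generators `T = [1 1; 0 1]` and `[1 0; p 1]` vanishes on every element of trace `±2`.

Proof: such an element is `± δ T^m δ⁻¹` with `δ ∈ SL₂(ℤ)` (`S21/ParabolicConj`).  If `p ∣ δ₁₀` then
`δ ∈ Γ₀(p)`.  Otherwise choose `j` with `p ∣ j δ₁₀ - δ₁₁`; then `g = δ T^(-j) S⁻¹ ∈ Γ₀(p)` and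
`δ T^m δ⁻¹ = g (S T^m S⁻¹) g⁻¹` with `S T^m S⁻¹ = [1 0; -m 1] ∈ Γ₀(p)`, so `p ∣ m` and
`S T^m S⁻¹` is a power of `[1 0; p 1] = S T^(-p) S⁻¹`.
-/

set_option autoImplicit false

namespace Fermat.Agent.S16.LowerS21

open ModularCurve CongruenceSubgroup ModularCurve.Period Matrix
open scoped MatrixGroups

namespace TwoCuspAux

/-- `S T^m S⁻¹ = [1 0; -m 1]`. -/
theorem coe_S_T_zpow_S_inv (m : ℤ) :
    ((ModularGroup.S * ModularGroup.T ^ m * ModularGroup.S⁻¹ : SL(2, ℤ)) :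
      Matrix (Fin 2) (Fin 2) ℤ) = !![1, 0; -m, 1] := by
  rw [Matrix.SpecialLinearGroup.coe_mul, Matrix.SpecialLinearGroup.coe_mul,
    ModularGroup.coe_T_zpow, Matrix.SpecialLinearGroup.coe_inv, ModularGroup.coe_S,
    Matrix.adjugate_fin_two_of, Matrix.mul_fin_two, Matrix.mul_fin_two]
  ext i j
  fin_cases i <;> fin_cases j <;> simp

/-- the `(1,0)` entry of `δ T^(-j) S⁻¹`. -/
theorem conj_entry (δ : SL(2, ℤ)) (j : ℤ) :
    ((δ * ModularGroup.T ^ (-j) * ModularGroup.S⁻¹ : SL(2, ℤ)) :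
      Matrix (Fin 2) (Fin 2) ℤ) 1 0 = j * δ 1 0 - δ 1 1 := by
  rw [Matrix.SpecialLinearGroup.coe_mul, Matrix.SpecialLinearGroup.coe_mul,
    ModularGroup.coe_T_zpow, Matrix.SpecialLinearGroup.coe_inv, ModularGroup.coe_S,
    Matrix.adjugate_fin_two_of]
  simp [Matrix.mul_apply, Fin.sum_univ_two]
  ring

variable {p : ℕ}

theorem psi_conj (ψ : Hm p ℤ) (g x : Gamma0 p) :
    ψ (Additive.ofMul (g * x * g⁻¹)) = ψ (Additive.ofMul x) := by
  rw [ofMul_mul, ofMul_mul, ofMul_inv, map_add, map_add, map_neg]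
  ring

theorem psi_zpow (ψ : Hm p ℤ) (x : Gamma0 p) (k : ℤ) :
    ψ (Additive.ofMul (x ^ k)) = k * ψ (Additive.ofMul x) := by
  rw [ofMul_zpow, map_zsmul, smul_eq_mul]

theorem mem_Gamma0_of_dvd {δ : SL(2, ℤ)} (h : (p : ℤ) ∣ δ 1 0) : δ ∈ Gamma0 p := by
  rw [Gamma0_mem]
  exact (ZMod.intCast_zmod_eq_zero_iff_dvd _ _).mpr h

theorem dvd_of_mem_Gamma0 {δ : SL(2, ℤ)} (h : δ ∈ Gamma0 p) : (p : ℤ) ∣ δ 1 0 := by
  rw [Gamma0_mem] at h
  exact (ZMod.intCast_zmod_eq_zero_iff_dvd _ _).mp h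

/-- `[1 0; p 1] = S T^(-p) S⁻¹`. -/
theorem tZero_eq (p : ℕ) :
    ((tZero p : Gamma0 p) : SL(2, ℤ)) =
      ModularGroup.S * ModularGroup.T ^ (-(p : ℤ)) * ModularGroup.S⁻¹ := by
  apply Subtype.ext
  rw [coe_S_T_zpow_S_inv, neg_neg]
  rfl

/-- The core: a class vanishing on the two parabolic generators vanishes on every conjugate
(in `SL₂(ℤ)`) of a power of `T` that lies in `Γ₀(p)`. -/
theorem core [Fact p.Prime] (ψ : Hm p ℤ) (hT : ψ (Additive.ofMul (tInf p)) = 0)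
    (hZ : ψ (Additive.ofMul (tZero p)) = 0) (δ : SL(2, ℤ)) (m : ℤ)
    (hx : δ * ModularGroup.T ^ m * δ⁻¹ ∈ Gamma0 p) :
    ψ (Additive.ofMul (⟨δ * ModularGroup.T ^ m * δ⁻¹, hx⟩ : Gamma0 p)) = 0 := by
  have hp : p.Prime := Fact.out
  by_cases hc : (p : ℤ) ∣ δ 1 0
  · have hδ : δ ∈ Gamma0 p := mem_Gamma0_of_dvd hc
    have e : (⟨δ * ModularGroup.T ^ m * δ⁻¹, hx⟩ : Gamma0 p) =
        ⟨δ, hδ⟩ * (tInf p) ^ m * (⟨δ, hδ⟩ : Gamma0 p)⁻¹ := by
      apply Subtype.ext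
      rw [Subgroup.coe_mul, Subgroup.coe_mul, Subgroup.coe_inv, Subgroup.coe_zpow]
      rfl
    rw [e, psi_conj, psi_zpow, hT, mul_zero]
  · -- `δ₁₀` is invertible mod `p`
    have hcop : IsCoprime (p : ℤ) (δ 1 0) :=
      (Nat.prime_iff_prime_int.mp hp).irreducible.coprime_iff_not_dvd.mpr hc
    obtain ⟨u, v, huv⟩ := hcop
    set j : ℤ := v * δ 1 1 with hj
    set h : SL(2, ℤ) := δ * ModularGroup.T ^ (-j) * ModularGroup.S⁻¹ with hh
    have hhmem : h ∈ Gamma0 p := by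
      apply mem_Gamma0_of_dvd
      rw [hh, conj_entry]
      exact ⟨-(u * δ 1 1), by rw [hj]; linear_combination (δ 1 1) * huv⟩
    set y : SL(2, ℤ) := ModularGroup.S * ModularGroup.T ^ m * ModularGroup.S⁻¹ with hy
    have hxy : δ * ModularGroup.T ^ m * δ⁻¹ = h * y * h⁻¹ := by
      rw [hh, hy]
      group
    have hymem : y ∈ Gamma0 p := by
      have : y = h⁻¹ * (δ * ModularGroup.T ^ m * δ⁻¹) * h := by
        rw [hxy]
        group
      rw [this]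
      exact Subgroup.mul_mem _ (Subgroup.mul_mem _ (Subgroup.inv_mem _ hhmem) hx) hhmem
    have hpm : (p : ℤ) ∣ m := by
      have h1 := dvd_of_mem_Gamma0 hymem
      rw [hy, coe_S_T_zpow_S_inv] at h1
      simpa using h1
    obtain ⟨m', hm'⟩ := hpm
    have hyz : y = ((tZero p : Gamma0 p) : SL(2, ℤ)) ^ (-m') := by
      rw [tZero_eq, conj_zpow, ← _root_.zpow_mul, hy, hm']
      congr 3
      ring
    have e : (⟨δ * ModularGroup.T ^ m * δ⁻¹, hx⟩ : Gamma0 p) =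
        ⟨h, hhmem⟩ * (tZero p) ^ (-m') * (⟨h, hhmem⟩ : Gamma0 p)⁻¹ := by
      apply Subtype.ext
      rw [Subgroup.coe_mul, Subgroup.coe_mul, Subgroup.coe_inv, Subgroup.coe_zpow, ← hyz]
      exact hxy
    rw [e, psi_conj, psi_zpow, hZ, mul_zero]

end TwoCuspAux

open TwoCuspAux in
/-- **Contract L7** (`TwoCuspStmt`) of `S16/LowerS21/Plan`. -/
theorem twoCusp (p : ℕ) [Fact p.Prime] : TwoCuspStmt p := by
  intro ψ hT hZ
  rw [mem_parabolicHoms_iff]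
  -- `ψ(-1) = 0`
  have hnegmem : (-1 : SL(2, ℤ)) ∈ Gamma0 p := by
    rw [Gamma0_mem]
    simp
  have hneg : ψ (Additive.ofMul (⟨-1, hnegmem⟩ : Gamma0 p)) = 0 := by
    have h1 : (⟨-1, hnegmem⟩ : Gamma0 p) * ⟨-1, hnegmem⟩ = 1 := by
      apply Subtype.ext
      rw [Subgroup.coe_mul, Subgroup.coe_one]
      simp
    have h2 := congrArg (fun x => ψ (Additive.ofMul x)) h1
    simp only [ofMul_mul, map_add, ofMul_one, map_zero] at h2
    omega
  intro γ hγ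
  have key : ψ (Additive.ofMul γ) = 0 := by
    obtain ⟨δ, m, h | h⟩ := Fermat.Agent.S21.exists_conj_T_zpow (γ : SL(2, ℤ)) hγ
    · have hx : δ * ModularGroup.T ^ m * δ⁻¹ ∈ Gamma0 p := h ▸ γ.2
      have e : γ = ⟨δ * ModularGroup.T ^ m * δ⁻¹, hx⟩ := Subtype.ext h
      rw [e]
      exact core ψ hT hZ δ m hx
    · have hx : δ * ModularGroup.T ^ m * δ⁻¹ ∈ Gamma0 p := by
        have : δ * ModularGroup.T ^ m * δ⁻¹ = (-1 : SL(2, ℤ)) * (γ : SL(2, ℤ)) := by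
          rw [h]
          simp
        rw [this]
        exact Subgroup.mul_mem _ hnegmem γ.2
      have e : γ = ⟨-1, hnegmem⟩ * ⟨δ * ModularGroup.T ^ m * δ⁻¹, hx⟩ := by
        apply Subtype.ext
        rw [Subgroup.coe_mul, h]
        simp
      rw [e, ofMul_mul, map_add, hneg, core ψ hT hZ δ m hx, add_zero]
  show toC p ψ (Additive.ofMul γ) = 0
  rw [toC_apply, key]
  simp

end Fermat.Agent.S16.LowerS21
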