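import Mathlib
import Fermat.Agent.S16.LowerS21.Plan
import Fermat.Agent.S21.Bounds
import Fermat.Agent.S21.LowerBound
import Fermat.Agent.S21.Primitive
import Fermat.Agent.S22.Tower

/-!
# S16 lower bound through Eichler–Shimura: assembly of the leaf contracts

`lowerBound_of_contracts` proves `Fermat.Agent.S16.LowerBound p` from the contracts of
`LowerS21/Plan.lean` and the landed Eichler–Shimura theorem (S21).
-/

set_option autoImplicit false

noncomputable section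

namespace Fermat.Agent.S16.LowerS21

open ModularCurve CuspForm UpperHalfPlane CongruenceSubgroup ModularCurve.Period
open scoped MatrixGroups ModularForm Real
open Fermat.Agent.S16

variable (p : ℕ) [Fact p.Prime]

/-- Eichler–Shimura (landed S21): the parabolic classes are the periods of cusp forms. -/
theorem es_range : LinearMap.range (periodHomPair p) = parabolicHoms ℂ (Gamma0 p) ℂ :=
  (Fermat.Agent.S21.eichlerShimura_of_genus_le p
    (Fermat.Agent.S21.genusFormula_le_finrank_cuspForm p)).2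

/-- The period map of a cusp form through a primitive vanishing at `i∞`. -/
theorem periodMap_eq_periodHom (f : CuspForm (Gamma0 p) 2) {F : ℍ → ℂ}
    (h0 : Filter.Tendsto F atImInfty (nhds 0)) (hF : IsPrim f F)
    (hE : IsEquivariantPrimitive (Gamma0 p) F) : periodMap p f = hE.periodHom := by
  have h := Fermat.Agent.S21.hasEquivariantPrimitive_of_prim p f h0 hF
  refine AddMonoidHom.ext fun γ => ?_
  obtain ⟨γ, rfl⟩ := Additive.ofMul.surjective γ
  rw [Fermat.Agent.S21.periodMap_apply p h γ]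
  rfl

/-- The Hecke generator at `ℓ` acts on cusp forms by `heckeFun p ℓ`. -/
theorem coe_heckeFormsGen (ℓ : Nat.Primes) (f : CuspForm (Gamma0 p) 2) :
    ⇑(((heckeFormsGen p 2 ℓ : heckeAlgebra p 2 ∅) :
        Module.End ℂ (CuspForm (Gamma0 p) 2)) f) = heckeFun p (ℓ : ℕ) ⇑f := by
  have hp : p.Prime := Fact.out
  by_cases h : (ℓ : ℕ) ∣ p
  · have hℓp : (ℓ : ℕ) = p := (Nat.prime_dvd_prime_iff_eq ℓ.2 hp).mp h
    rw [heckeFormsGen_of_dvd h, heckeAlgebra.coe_U, heckeFun, if_pos hℓp]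
    rfl
  · have hℓp : (ℓ : ℕ) ≠ p := fun e => h (e ▸ dvd_rfl)
    rw [heckeFormsGen_of_not_dvd h, heckeAlgebra.coe_T, heckeFun, if_neg hℓp]
    rfl

/-- The value of the Eisenstein character on a generator. -/
theorem chiE_X (ℓ : Nat.Primes) : chiE p (MvPolynomial.X ℓ) = eisEig p (ℓ : ℕ) := by
  have hp : p.Prime := Fact.out
  show MvPolynomial.aeval (eisensteinSystem p) (MvPolynomial.X ℓ) = _
  rw [MvPolynomial.aeval_X, eisEig]
  by_cases h : (ℓ : ℕ) ∣ p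
  · have hℓp : (ℓ : ℕ) = p := (Nat.prime_dvd_prime_iff_eq ℓ.2 hp).mp h
    rw [eisensteinSystem_of_dvd h, if_pos hℓp]
  · have hℓp : (ℓ : ℕ) ≠ p := fun e => h (e ▸ dvd_rfl)
    rw [eisensteinSystem_of_not_dvd h, if_neg hℓp]

/-- Single prime, cusp forms: `Θ_ℓ (period of f) = period of T_ℓ f`. -/
theorem theta_periodMap (hP : PrimHeckeStmt p) (ℓ : Nat.Primes) {Θ : Hm p ℂ →+ Hm p ℂ}
    (hΘ : ∀ (F : ℍ → ℂ) (hF : IsEquivariantPrimitive (Gamma0 p) F),
      ∃ hF' : IsEquivariantPrimitive (Gamma0 p) (primHecke p ℓ F),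
        hF'.periodHom = Θ hF.periodHom)
    (f : CuspForm (Gamma0 p) 2) :
    Θ (periodMap p f) = periodMap p (((heckeFormsGen p 2 ℓ : heckeAlgebra p 2 ∅) :
        Module.End ℂ (CuspForm (Gamma0 p) 2)) f) := by
  obtain ⟨F, -, h0, hF⟩ := Fermat.Agent.S21.exists_prim p f
  have hE := Fermat.Agent.S21.isEquivariantPrimitive_of_prim p f hF
  obtain ⟨hE', hper⟩ := hΘ F hE
  obtain ⟨hF', h0'⟩ := hP ℓ ℓ.2 f F hF
  rw [periodMap_eq_periodHom p f h0 hF hE, ← hper]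
  symm
  refine periodMap_eq_periodHom p _ (h0' h0) ?_ hE'
  intro τ
  rw [coe_heckeFormsGen]
  exact hF' τ

/-- Single prime, Eisenstein class: `Θ_ℓ (period of F_E) = eisEig · period of F_E`. -/
theorem theta_eis (hP : PrimHeckeStmt p) (hEe : EisEigenStmt p) {ℓ : ℕ} (hℓ : ℓ.Prime)
    {Θ : Hm p ℂ →+ Hm p ℂ}
    (hΘ : ∀ (F : ℍ → ℂ) (hF : IsEquivariantPrimitive (Gamma0 p) F),
      ∃ hF' : IsEquivariantPrimitive (Gamma0 p) (primHecke p ℓ F),
        hF'.periodHom = Θ hF.periodHom)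
    (F : ℍ → ℂ) (hF : IsEquivariantPrimitive (Gamma0 p) F) (hFE : IsEisPrim p F) :
    Θ hF.periodHom = eisEig p ℓ • hF.periodHom := by
  obtain ⟨hE', hper⟩ := hΘ F hF
  obtain ⟨hF', -⟩ := hP ℓ hℓ _ F hFE
  rw [hEe ℓ hℓ] at hF'
  have hD : ∀ τ : ℍ, HasDerivAt
      (primHecke p ℓ F ∘ ofComplex - fun z => ((eisEig p ℓ : ℤ) : ℂ) * (F ∘ ofComplex) z) 0 τ := by
    intro τ
    have h1 := (hF' τ).sub ((hFE τ).const_mul ((eisEig p ℓ : ℤ) : ℂ))
    have e : (((eisEig p ℓ : ℤ) : ℂ) • Fermat.Agent.Lib.EisTwo.eisP p) τ -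
        ((eisEig p ℓ : ℤ) : ℂ) * Fermat.Agent.Lib.EisTwo.eisP p τ = 0 := by
      simp
    rwa [e] at h1
  obtain ⟨c, hc⟩ := Fermat.Agent.S22.Tower.exists_const_of_hasDerivAt_zero hD
  have hc' : ∀ τ : ℍ, primHecke p ℓ F τ = ((eisEig p ℓ : ℤ) : ℂ) * F τ + c := by
    intro τ
    have := hc τ
    simp only [Pi.sub_apply, Function.comp_apply, ofComplex_apply] at this
    linear_combination this
  rw [← hper]
  refine AddMonoidHom.ext fun γ => ?_
  obtain ⟨γ, rfl⟩ := Additive.ofMul.surjective γ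
  show primHecke p ℓ F ((γ : SL(2, ℤ)) • UpperHalfPlane.I) - primHecke p ℓ F UpperHalfPlane.I =
    eisEig p ℓ • (F ((γ : SL(2, ℤ)) • UpperHalfPlane.I) - F UpperHalfPlane.I)
  rw [hc', hc', zsmul_eq_mul]
  ring

/-- The properties of the operator on `Hom(Γ₀(p), ℂ)` attached to a Hecke polynomial. -/
structure GoodOp (P : HeckeAlg) (Θ : Hm p ℂ →+ Hm p ℂ) : Prop where
  int : ∀ φ : Hm p ℤ, ∃ φ' : Hm p ℤ, Θ (toC p φ) = toC p φ'
  inv : ∀ φ : Hm p ℂ, Θ (charInvolution p ℂ ℂ φ) = charInvolution p ℂ ℂ (Θ φ)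
  cusp : ∀ f : CuspForm (Gamma0 p) 2, Θ (periodMap p f) =
    periodMap p (((heckeEvalForms p 2 P : heckeAlgebra p 2 ∅) :
      Module.End ℂ (CuspForm (Gamma0 p) 2)) f)
  eis : ∀ (F : ℍ → ℂ) (hF : IsEquivariantPrimitive (Gamma0 p) F), IsEisPrim p F →
    Θ hF.periodHom = chiE p P • hF.periodHom

theorem periodMap_zsmul (a : ℤ) (f : CuspForm (Gamma0 p) 2) :
    periodMap p (a • f) = a • periodMap p f :=
  map_zsmul (Fermat.Agent.S21.periodMapLin p) a f

theorem toC_zsmul (a : ℤ) (φ : Hm p ℤ) : toC p (a • φ) = a • toC p φ := by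
  refine AddMonoidHom.ext fun γ => ?_
  simp [toC]

theorem toC_add (φ ψ : Hm p ℤ) : toC p (φ + ψ) = toC p φ + toC p ψ := by
  refine AddMonoidHom.ext fun γ => ?_
  simp [toC]

theorem exists_goodOp (hH : HeckeHomStmt p) (hP : PrimHeckeStmt p) (hEe : EisEigenStmt p)
    (P : HeckeAlg) : ∃ Θ : Hm p ℂ →+ Hm p ℂ, GoodOp p P Θ := by
  induction P using MvPolynomial.induction_on with
  | C a =>
    refine ⟨a • AddMonoidHom.id _, ⟨?_, ?_, ?_, ?_⟩⟩
    · intro φ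
      exact ⟨a • φ, by rw [toC_zsmul]; rfl⟩
    · intro φ
      show a • charInvolution p ℂ ℂ φ = charInvolution p ℂ ℂ (a • φ)
      rw [map_zsmul]
    · intro f
      show a • periodMap p f = _
      rw [heckeEvalForms_C, ← periodMap_zsmul]
      congr 1
    · intro F hF _
      show a • hF.periodHom = _
      congr 1
      show a = MvPolynomial.aeval (eisensteinSystem p) (MvPolynomial.C a)
      rw [MvPolynomial.aeval_C]
      rfl
  | add P Q hP' hQ' =>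
    obtain ⟨Θ₁, h₁⟩ := hP'
    obtain ⟨Θ₂, h₂⟩ := hQ'
    refine ⟨Θ₁ + Θ₂, ⟨?_, ?_, ?_, ?_⟩⟩
    · intro φ
      obtain ⟨φ₁, e₁⟩ := h₁.int φ
      obtain ⟨φ₂, e₂⟩ := h₂.int φ
      exact ⟨φ₁ + φ₂, by rw [AddMonoidHom.add_apply, e₁, e₂, toC_add]⟩
    · intro φ
      rw [AddMonoidHom.add_apply, AddMonoidHom.add_apply, h₁.inv, h₂.inv, map_add]
    · intro f
      rw [AddMonoidHom.add_apply, h₁.cusp, h₂.cusp, map_add,
        ← Fermat.Agent.S21.periodMap_add]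
      rfl
    · intro F hF hFE
      rw [AddMonoidHom.add_apply, h₁.eis F hF hFE, h₂.eis F hF hFE, map_add, add_smul]
  | mul_X P ℓ hP' =>
    obtain ⟨Θ₁, h₁⟩ := hP'
    obtain ⟨Θ, hΘint, hΘinv, hΘper⟩ := hH ℓ ℓ.2
    refine ⟨Θ₁.comp Θ, ⟨?_, ?_, ?_, ?_⟩⟩
    · intro φ
      obtain ⟨φ₁, e₁⟩ := hΘint φ
      obtain ⟨φ₂, e₂⟩ := h₁.int φ₁
      exact ⟨φ₂, by rw [AddMonoidHom.comp_apply, e₁, e₂]⟩
    · intro φ
      rw [AddMonoidHom.comp_apply, AddMonoidHom.comp_apply, hΘinv, h₁.inv]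
    · intro f
      have e : heckeEvalForms p 2 (MvPolynomial.X ℓ) = heckeFormsGen p 2 ℓ :=
        MvPolynomial.aeval_X _ ℓ
      rw [AddMonoidHom.comp_apply, theta_periodMap p hP ℓ hΘper f, h₁.cusp, map_mul, e]
      rfl
    · intro F hF hFE
      rw [AddMonoidHom.comp_apply, theta_eis p hP hEe ℓ.2 hΘper F hF hFE, map_zsmul,
        h₁.eis F hF hFE, map_mul, chiE_X, smul_smul, mul_comm]

theorem toC_sub (φ ψ : Hm p ℤ) : toC p (φ - ψ) = toC p φ - toC p ψ := by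
  refine AddMonoidHom.ext fun γ => ?_
  simp [toC]

/-- `Θ_P` kills the parabolic classes when `P` kills `S₂(Γ₀(p))` (Eichler–Shimura). -/
theorem goodOp_parabolic {P : HeckeAlg} {Θ : Hm p ℂ →+ Hm p ℂ} (hΘ : GoodOp p P Θ)
    (h0 : ((heckeEvalForms p 2 P : heckeAlgebra p 2 ∅) :
      Module.End ℂ (CuspForm (Gamma0 p) 2)) = 0)
    {ψ : Hm p ℂ} (hψ : ψ ∈ parabolicHoms ℂ (Gamma0 p) ℂ) : Θ ψ = 0 := by
  rw [← es_range p] at hψ
  obtain ⟨⟨f, g⟩, rfl⟩ := hψ
  have key : ∀ f : CuspForm (Gamma0 p) 2, Θ (periodMap p f) = 0 := by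
    intro f
    rw [hΘ.cusp, h0]
    exact map_zero (Fermat.Agent.S21.periodMapLin p)
  rw [Fermat.Agent.S21.periodHomPair_eq]
  simp only [LinearMap.coprod_apply, LinearMap.comp_apply, LinearMap.add_apply,
    LinearMap.sub_apply, LinearMap.id_apply, Fermat.Agent.S21.periodMapLin_apply]
  rw [map_add, map_add, map_sub, hΘ.inv, hΘ.inv, key, key]
  simp

/-- **Lower bound of S16 from the leaf contracts** (and the landed S21). -/
theorem lowerBound_of_contracts (hEv : EvZeroStmt p) (hH : HeckeHomStmt p)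
    (hP : PrimHeckeStmt p) (hEc : EisClassStmt p) (hEe : EisEigenStmt p) (hR : RootStmt p)
    (hC : CrossingStmt p) (hT : TwoCuspStmt p) : LowerBound p := by
  have hp : p.Prime := Fact.out
  intro P hPz
  have h0 := (hEv P).mp hPz
  obtain ⟨Θ, hΘ⟩ := exists_goodOp p hH hP hEe P
  obtain ⟨F, hF, k, hFE, hk, hkT, hkZ⟩ := hEc
  obtain ⟨φ₁, h1T, h1Z⟩ := hC
  -- `(p - 1) φ₁ - k` is parabolic
  have hpar : toC p (((p : ℤ) - 1) • φ₁ - k) ∈ parabolicHoms ℂ (Gamma0 p) ℂ := by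
    apply hT
    · rw [AddMonoidHom.sub_apply, AddMonoidHom.smul_apply, h1T, hkT]; simp
    · rw [AddMonoidHom.sub_apply, AddMonoidHom.smul_apply, h1Z, hkZ]; simp
  have hkill := goodOp_parabolic p hΘ h0 hpar
  have hkC : toC p k = (24 : ℤ) • hF.periodHom := by
    refine AddMonoidHom.ext fun γ => ?_
    obtain ⟨γ, rfl⟩ := Additive.ofMul.surjective γ
    rw [toC_apply, ← hk γ]
    simp
  have hΘk : Θ (toC p k) = chiE p P • toC p k := by
    rw [hkC, map_zsmul, hΘ.eis F hF hFE, smul_comm]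
  obtain ⟨φ', hφ'⟩ := hΘ.int φ₁
  have hrel : ∀ γ : Gamma0 p,
      ((p : ℤ) - 1) * φ' (Additive.ofMul γ) = chiE p P * k (Additive.ofMul γ) := by
    intro γ
    rw [toC_sub, toC_zsmul, map_sub, map_zsmul, hφ', hΘk] at hkill
    have h := congrArg (fun ψ : Hm p ℂ => ψ (Additive.ofMul γ)) hkill
    simp only [AddMonoidHom.sub_apply, AddMonoidHom.smul_apply, toC_apply, zsmul_eq_mul,
      AddMonoidHom.zero_apply] at h
    have h' := sub_eq_zero.mp h
    exact_mod_cast h'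
  -- arithmetic
  set χ : ℤ := chiE p P with hχ
  have hp1 : 0 < p - 1 := Nat.sub_pos_of_lt hp.one_lt
  have hcast : ((p - 1 : ℕ) : ℤ) = (p : ℤ) - 1 := by
    rw [Nat.cast_sub hp.one_le]; simp
  set g : ℕ := Int.gcd ((p - 1 : ℕ) : ℤ) χ with hg
  have hg_dvd : g ∣ p - 1 := by
    have := Int.gcd_dvd_left ((p - 1 : ℕ) : ℤ) χ
    exact_mod_cast this
  have hg_pos : 0 < g := Nat.pos_of_dvd_of_pos hg_dvd hp1
  have hg_dvd_χ : (g : ℤ) ∣ χ := Int.gcd_dvd_right _ _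
  set d : ℕ := (p - 1) / g with hd
  have hd_pos : 0 < d := Nat.div_pos (Nat.le_of_dvd hp1 hg_dvd) hg_pos
  have hgd : g * d = p - 1 := Nat.mul_div_cancel' hg_dvd
  obtain ⟨χ', hχ'⟩ := hg_dvd_χ
  have hcop : IsCoprime (d : ℤ) χ' := by
    have h1 : Int.gcd ((p - 1 : ℕ) : ℤ) χ = g := rfl
    have h2 : ((p - 1 : ℕ) : ℤ) = (g : ℤ) * (d : ℤ) := by exact_mod_cast hgd.symm
    rw [h2, hχ', Int.gcd_mul_left, Int.natAbs_natCast] at h1
    have h3 : Int.gcd (d : ℤ) χ' = 1 := by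
      have := Nat.eq_of_mul_eq_mul_left hg_pos (h1.trans (mul_one g).symm)
      exact this
    exact Int.isCoprime_iff_gcd_eq_one.mpr h3
  have hdk : ∀ γ : Gamma0 p, (d : ℤ) ∣ k (Additive.ofMul γ) := by
    intro γ
    have h := hrel γ
    rw [← hcast, hχ'] at h
    have h2 : ((p - 1 : ℕ) : ℤ) = (g : ℤ) * (d : ℤ) := by exact_mod_cast hgd.symm
    rw [h2, mul_assoc, mul_assoc] at h
    have hg0 : (g : ℤ) ≠ 0 := by exact_mod_cast hg_pos.ne'
    have h3 : (d : ℤ) * φ' (Additive.ofMul γ) = χ' * k (Additive.ofMul γ) :=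
      mul_left_cancel₀ hg0 h
    exact hcop.dvd_of_dvd_mul_left ⟨_, h3.symm⟩
  have hd12 : d ∣ 12 := by
    refine hR F hFE d hd_pos fun γ z => ?_
    obtain ⟨m, hm⟩ := hdk γ
    refine ⟨m, ?_⟩
    rw [hF.sub_eq_period γ z, hk γ, hm]
    push_cast
    ring
  have hd_dvd : d ∣ p - 1 := ⟨g, by rw [mul_comm]; exact hgd.symm⟩
  have hdG : d ∣ Nat.gcd (p - 1) 12 := Nat.dvd_gcd hd_dvd hd12
  have hn : eisensteinNumerator p ∣ g := by
    have h1 : (p - 1) / Nat.gcd (p - 1) 12 ∣ (p - 1) / d :=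
      Nat.div_dvd_div_left (Nat.gcd_dvd_left _ _) hdG
    have h2 : (p - 1) / d = g := by
      rw [hd]; exact Nat.div_div_self hg_dvd hp1.ne'
    rw [h2] at h1
    exact h1
  have hn' : (eisensteinNumerator p : ℤ) ∣ (g : ℤ) := by exact_mod_cast hn
  exact hn'.trans ⟨χ', hχ'⟩

end Fermat.Agent.S16.LowerS21
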