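import Mathlib
import Fermat.Agent.S16.LowerS21.Plan
import Fermat.Agent.S16.LowerS21.HeckeHomC
import Fermat.Agent.Lib.HeckeHomInt
import Fermat.Agent.Lib.ShimuraChar

/-!
# S16: the explicit transfer form of the Hecke operators on `Hom(Γ₀(p), ℂ)`

For the `χ`-route (Shimura character) of the lower bound.

* `transfer` : the contract `HeckeHomStmt p` with the EXPLICIT transfer formula
  `(Θ φ)(γ) = ∑ i, φ (κ i)`, `δ i * γ = κ i * δ (σ i)` over integral upper triangular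
  representatives `δ i` (`(δ i)₀₀ ∈ {1, ℓ}`, `#ι = ℓ + 1` resp. `p`);
* `heckeHomChi` : the contract with the extra clause "an integral class `≡ u·χ mod n` is mapped to
  an integral class `≡ eisEig · u · χ mod n`" (`χ` = `Lib.ShimuraChar.chi p`).
-/

set_option autoImplicit false

namespace Fermat.Agent.S16.LowerS21.HeckeTransfer

open ModularCurve UpperHalfPlane CongruenceSubgroup ModularCurve.Period
open scoped MatrixGroups ModularForm
open Fermat.Agent.Lib.HeckeHom Fermat.Agent.Lib.HeckeHomGL Fermat.Agent.Lib.HeckePeriod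
open Fermat.Agent.S16.LowerS21 Fermat.Agent.S16.LowerS21.HeckeHomC
open P2MW.S_ModularForm_heckeT_slash_eq_self_of_mem_Gamma0.ModularForm.HeckeSlashInvariance

/-- `p ≡ 1` modulo `n = (p - 1)/gcd(p - 1, 12)`. -/
theorem natCast_self_eq_one (p : ℕ) (hp : 0 < p) :
    ((p : ℕ) : ZMod ((p - 1) / Nat.gcd (p - 1) 12)) = 1 := by
  have hdvd : (p - 1) / Nat.gcd (p - 1) 12 ∣ p - 1 := Nat.div_dvd_of_dvd (Nat.gcd_dvd_left _ _)
  have h0 : ((p - 1 : ℕ) : ZMod ((p - 1) / Nat.gcd (p - 1) 12)) = 0 :=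
    (ZMod.natCast_eq_zero_iff _ _).mpr hdvd
  have hp1 : p = (p - 1) + 1 := by omega
  rw [hp1]
  push_cast
  rw [h0, zero_add]

/-- The Hecke operator at `ℓ` on `Hom(Γ₀(p), ℂ)` with its explicit transfer formula over integral
upper triangular representatives. -/
theorem transfer (p : ℕ) [Fact p.Prime] (ℓ : ℕ) (hℓ : ℓ.Prime) :
    ∃ Θ : Hm p ℂ →+ Hm p ℂ,
      (∀ φ : Hm p ℤ, ∃ φ' : Hm p ℤ, Θ (toC p φ) = toC p φ') ∧
      (∀ φ : Hm p ℂ, Θ (charInvolution p ℂ ℂ φ) = charInvolution p ℂ ℂ (Θ φ)) ∧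
      (∀ (F : ℍ → ℂ) (hF : IsEquivariantPrimitive (Gamma0 p) F),
        ∃ hF' : IsEquivariantPrimitive (Gamma0 p) (primHecke p ℓ F),
          hF'.periodHom = Θ hF.periodHom) ∧
      ∃ (ι : Type) (_ : Fintype ι) (δ : ι → Matrix (Fin 2) (Fin 2) ℤ),
        (∀ i, δ i 1 0 = 0) ∧ (∀ i, ¬ (p : ℤ) ∣ δ i 0 0) ∧
        ((Fintype.card ι : ℤ) : ZMod ((p - 1) / Nat.gcd (p - 1) 12)) =
          ((eisEig p ℓ : ℤ) : ZMod ((p - 1) / Nat.gcd (p - 1) 12)) ∧
        ∀ γ : Gamma0 p, ∃ (σ : Equiv.Perm ι) (κ : ι → Gamma0 p),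
          (∀ i, δ i * ((γ : SL(2, ℤ)) : Matrix (Fin 2) (Fin 2) ℤ) =
            ((κ i : SL(2, ℤ)) : Matrix (Fin 2) (Fin 2) ℤ) * δ (σ i)) ∧
          (∀ φ : Hm p ℂ, Θ φ (Additive.ofMul γ) = ∑ i, φ (Additive.ofMul (κ i))) ∧
          ∀ φ : Hm p ℤ, ∀ φ' : Hm p ℤ, Θ (toC p φ) = toC p φ' →
            φ' (Additive.ofMul γ) = ∑ i, φ (Additive.ofMul (κ i)) := by
  have hp : p.Prime := Fact.out
  have : Fact ℓ.Prime := ⟨hℓ⟩
  have : NeZero ℓ := ⟨hℓ.ne_zero⟩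
  have hp1 : ¬ (p : ℤ) ∣ 1 := by
    intro h
    have := Int.natCast_dvd_natCast.mp (by simpa using h : ((p : ℕ) : ℤ) ∣ ((1 : ℕ) : ℤ))
    exact hp.one_lt.ne' (Nat.dvd_one.mp this)
  -- the integral clause, common to both cases
  have hint : ∀ {ι : Type} [Fintype ι] {δ : ι → GL (Fin 2) ℝ} (h : IsCosetFamily (eG p) δ)
      (γ : Gamma0 p) (φ φ' : Hm p ℤ), h.heckeHom (toC p φ) = toC p φ' →
        φ' (Additive.ofMul γ) = ∑ i, φ (Additive.ofMul (h.cof γ i)) := by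
    intro ι _ δ h γ φ φ' hφ
    have h1 : toC p φ' = toC p (h.heckeHom φ) := by
      rw [← hφ]; exact h.heckeHom_comp (Int.castAddHom ℂ) φ
    have h2 := DFunLike.congr_fun h1 (Additive.ofMul γ)
    simp only [toC_apply] at h2
    exact_mod_cast h2
  by_cases hne : ℓ = p
  · subst hne
    set h := isCosetFamily_heckeMatrix ℓ ℓ dvd_rfl with hh
    obtain ⟨h1, h2, h3⟩ := clauses_of_family h (fun x => -x) neg_involutive.bijective
      (eps_heckeMatrix ℓ ℓ) (primHecke_self ℓ)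
    refine ⟨(h.heckeLin ℂ).toAddMonoidHom, fun φ => ⟨h.heckeHom φ, h1 φ⟩, h2, h3,
      ZMod ℓ, inferInstance, repU ℓ, repU_one_zero ℓ, fun i => ?_, ?_, fun γ => ?_⟩
    · rw [repU_zero_zero]; exact hp1
    · rw [ZMod.card, eisEig, if_pos rfl]
      push_cast
      exact natCast_self_eq_one ℓ hp.pos
    · exact ⟨h.nxtPerm γ, h.cof γ, fun i => spec_int_U ℓ ℓ dvd_rfl γ i, fun φ => rfl,
        fun φ φ' hφ => hint h γ φ φ' hφ⟩
  · have hndvd : ¬ ℓ ∣ p := fun hd => hne ((Nat.prime_dvd_prime_iff_eq hℓ hp).mp hd)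
    set h := isCosetFamily_heckeRep p ℓ hndvd with hh
    obtain ⟨h1, h2, h3⟩ := clauses_of_family h (negOnePoint ℓ)
      (negOnePoint_involutive ℓ).bijective (eps_heckeRep p ℓ) (primHecke_of_ne hne)
    refine ⟨(h.heckeLin ℂ).toAddMonoidHom, fun φ => ⟨h.heckeHom φ, h1 φ⟩, h2, h3,
      OnePoint (ZMod ℓ), inferInstance, repT ℓ, repT_one_zero ℓ, fun i => ?_, ?_, fun γ => ?_⟩
    · rcases repT_zero_zero ℓ i with h0 | h0
      · rw [h0]; exact hp1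
      · rw [h0]
        intro hd
        have := Int.natCast_dvd_natCast.mp hd
        exact hne ((Nat.prime_dvd_prime_iff_eq hp hℓ).mp this).symm
    · rw [card_onePoint_zmod, eisEig, if_neg hne]
      push_cast
      ring
    · exact ⟨h.nxtPerm γ, h.cof γ, fun i => spec_int_T p ℓ hndvd γ i, fun φ => rfl,
        fun φ φ' hφ => hint h γ φ φ' hφ⟩

/-- The contract `HeckeHomStmt p` with the extra clause: an integral class `≡ u · χ mod n` is
mapped to an integral class `≡ eisEig · u · χ mod n` (`χ` the Shimura character). -/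
theorem heckeHomChi (p : ℕ) [Fact p.Prime] (ℓ : ℕ) (hℓ : ℓ.Prime) :
    ∃ Θ : Hm p ℂ →+ Hm p ℂ,
      (∀ φ : Hm p ℤ, ∃ φ' : Hm p ℤ, Θ (toC p φ) = toC p φ' ∧
        ∀ u : ZMod ((p - 1) / Nat.gcd (p - 1) 12),
          (∀ γ, ((φ γ : ℤ) : ZMod ((p - 1) / Nat.gcd (p - 1) 12)) =
            u * Fermat.Agent.Lib.ShimuraChar.chi p γ) →
          ∀ γ, ((φ' γ : ℤ) : ZMod ((p - 1) / Nat.gcd (p - 1) 12)) =
            ((eisEig p ℓ : ℤ) : ZMod ((p - 1) / Nat.gcd (p - 1) 12)) * u *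
              Fermat.Agent.Lib.ShimuraChar.chi p γ) ∧
      (∀ φ : Hm p ℂ, Θ (charInvolution p ℂ ℂ φ) = charInvolution p ℂ ℂ (Θ φ)) ∧
      (∀ (F : ℍ → ℂ) (hF : IsEquivariantPrimitive (Gamma0 p) F),
        ∃ hF' : IsEquivariantPrimitive (Gamma0 p) (primHecke p ℓ F),
          hF'.periodHom = Θ hF.periodHom) := by
  obtain ⟨Θ, ha, hb, hc, ι, _, δ, h10, h00, hcard, hγ⟩ := transfer p ℓ hℓ
  refine ⟨Θ, fun φ => ?_, hb, hc⟩
  obtain ⟨φ', hφ'⟩ := ha φ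
  refine ⟨φ', hφ', fun u hu γa => ?_⟩
  obtain ⟨γ, rfl⟩ : ∃ γ : Gamma0 p, Additive.ofMul γ = γa := ⟨Additive.toMul γa, rfl⟩
  obtain ⟨σ, κ, hrel, -, hint⟩ := hγ γ
  rw [hint φ φ' hφ']
  push_cast
  simp only [hu]
  rw [← Finset.mul_sum, Fermat.Agent.Lib.ShimuraChar.sum_chi_eq_of_matrix p δ h10 h00 σ γ κ hrel,
    nsmul_eq_mul, ← hcard]
  push_cast
  ring

end Fermat.Agent.S16.LowerS21.HeckeTransfer
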