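import Mathlib
import Fermat.Agent.S16.LowerS21.Plan
import Fermat.Agent.S21.Primitive

/-!
# S16 / LowerS21, leaf L4: the Eisenstein class

A primitive `F` of `E = eisP p` which is `Γ₀(p)`-equivariant, with `24 · period` integral and
equal to `p - 1` on the two parabolic generators `T` and `[1 0; p 1]`.
-/

set_option autoImplicit false

noncomputable section

namespace Fermat.Agent.S16.LowerS21

open Complex Filter Topology
open UpperHalfPlane hiding I
open scoped MatrixGroups ModularForm Real Manifold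
open CongruenceSubgroup ModularCurve ModularCurve.Period
open Fermat.Agent.Lib.EisTwo (eisP eisDiff)
open Fermat.Agent.Lib.DeltaSlash (deltaN coe_sl_smul sl_denom_ne_zero discriminant_smul)

namespace EisClass

/-- The constant term of `eisP p`. -/
def a0 (p : ℕ) : ℂ := ((p : ℂ) - 1) / 24

theorem tendsto_eisP (p : ℕ) [NeZero p] :
    Tendsto (eisP p) atImInfty (𝓝 (a0 p)) := by
  have hn := (Fermat.Agent.Lib.EisTwo.isMF_eisP p).niceG0
  have han := analyticAt_cuspFunction_zero one_pos hn.per hn.holo hn.bdd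
  have h0 : cuspFunction 1 (eisP p) 0 = a0 p := by
    rw [a0, ← Fermat.Agent.Lib.EisTwo.qExpansion_eisP_coeff_zero p, qExpansion_coeff]
    simp
  have h1 := han.continuousAt.tendsto.comp (qParam_tendsto_atImInfty one_pos)
  rw [h0] at h1
  refine h1.congr (fun τ => ?_)
  simpa using eq_cuspFunction τ one_ne_zero hn.per

/-- A `1`-periodic primitive of `eisP p - a0 p`. -/
theorem exists_prim_sub (p : ℕ) [NeZero p] :
    ∃ Φ : ℍ → ℂ, Function.Periodic (Φ ∘ ofComplex) (1 : ℝ) ∧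
      ∀ τ : ℍ, HasDerivAt (Φ ∘ ofComplex) (eisP p τ - a0 p) τ := by
  have hn := (Fermat.Agent.Lib.EisTwo.isMF_eisP p).niceG0
  have hper : Function.Periodic ((fun z => eisP p z - a0 p) ∘ ofComplex) (1 : ℝ) := by
    intro w
    have := hn.per w
    simp only [Function.comp_apply, Complex.ofReal_one] at this ⊢
    rw [this]
  have hhol : MDiff (fun z => eisP p z - a0 p) := hn.holo.sub mdifferentiable_const
  have hzero : IsZeroAtImInfty (fun z => eisP p z - a0 p) := by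
    have := (tendsto_eisP p).sub_const (a0 p)
    rw [sub_self] at this
    exact this
  obtain ⟨Φ, h1, -, -, h4⟩ := Fermat.Agent.S22.Tower.exists_primitive one_pos hper hhol hzero
  exact ⟨Φ, h1, h4⟩

theorem coe_T_smul (z : ℍ) : ((ModularGroup.T • z : ℍ) : ℂ) = (z : ℂ) + 1 := by
  rw [UpperHalfPlane.modular_T_smul, UpperHalfPlane.coe_vadd]
  push_cast; ring

/-- A primitive `F` of `eisP p` with `F(z + 1) = F(z) + a0`. -/
theorem exists_prim (p : ℕ) [NeZero p] :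
    ∃ F : ℍ → ℂ, IsEisPrim p F ∧ ∀ z : ℍ, F (ModularGroup.T • z) = F z + a0 p := by
  obtain ⟨Φ, hper, hΦ⟩ := exists_prim_sub p
  refine ⟨fun z => a0 p * (z : ℂ) + Φ z, ?_, ?_⟩
  · intro τ
    have h1 : HasDerivAt (fun w : ℂ => a0 p * w + (Φ ∘ ofComplex) w) (eisP p τ) τ := by
      have := ((hasDerivAt_id (τ : ℂ)).const_mul (a0 p)).add (hΦ τ)
      refine this.congr_deriv ?_
      ring
    refine h1.congr_of_eventuallyEq ?_
    filter_upwards [eventuallyEq_coe_comp_ofComplex τ.im_pos] with w hw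
    simp only [Function.comp_apply, id] at hw ⊢
    rw [hw]
  · intro z
    have hz : ofComplex ((z : ℂ) + ((1 : ℝ) : ℂ)) = ModularGroup.T • z := by
      have him : 0 < ((z : ℂ) + ((1 : ℝ) : ℂ)).im := by simpa using z.im_pos
      apply UpperHalfPlane.ext
      rw [ofComplex_apply_of_im_pos him, coe_T_smul]
      simp
    have h2 := hper (z : ℂ)
    simp only [Function.comp_apply, ofComplex_apply] at h2
    rw [hz] at h2
    show a0 p * ((ModularGroup.T • z : ℍ) : ℂ) + Φ (ModularGroup.T • z) = _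
    rw [h2, coe_T_smul]
    ring

/-- `eisP p` is invariant under `Γ₀(p)`. -/
theorem eisP_slash (p : ℕ) [NeZero p] {γ : SL(2, ℤ)} (hγ : γ ∈ Gamma0 p) :
    eisP p ∣[(2 : ℤ)] γ = eisP p := by
  obtain ⟨E, hE⟩ := Fermat.Agent.Lib.EisTwo.isMF_eisP p
  rw [← hE]
  exact SlashInvariantFormClass.slash_action_eq E (Matrix.SpecialLinearGroup.mapGL ℝ γ)
    ⟨γ, hγ, rfl⟩

/-- Equivariance of any primitive of a `Γ₀(N)`-invariant function of weight two. -/
theorem isEquivariantPrimitive_of_prim (N : ℕ) {f F : ℍ → ℂ}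
    (hf : ∀ γ : SL(2, ℤ), γ ∈ Gamma0 N → f ∣[(2 : ℤ)] γ = f)
    (hF : ∀ τ : ℍ, HasDerivAt (F ∘ ofComplex) (f τ) τ) :
    IsEquivariantPrimitive (Gamma0 N) F := by
  intro γ
  have hD : ∀ τ : ℍ, HasDerivAt
      ((fun σ : ℍ => F ((γ : SL(2, ℤ)) • σ)) ∘ ofComplex - F ∘ ofComplex) 0 τ := by
    intro τ
    have h1 := Fermat.Agent.S21.hasDerivAt_prim_smul hF (γ : SL(2, ℤ)) τ
    rw [hf γ γ.2] at h1
    have h2 := h1.sub (hF τ)
    rwa [sub_self] at h2
  obtain ⟨a, ha⟩ := Fermat.Agent.S22.Tower.exists_const_of_hasDerivAt_zero hD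
  refine ⟨a, fun z => ?_⟩
  have := ha z
  simpa using this

/-- The modular unit `Δ(p z)/Δ(z)` is `Γ₀(p)`-invariant. -/
theorem unit_smul (p : ℕ) [NeZero p] {γ : SL(2, ℤ)} (hγ : γ ∈ Gamma0 p) (z : ℍ) :
    deltaN p (γ • z) / ModularForm.discriminant (γ • z) =
      deltaN p z / ModularForm.discriminant z := by
  have h1 := congrFun (Fermat.Agent.Lib.DeltaLevelN.deltaN_slash_of_mem p hγ) z
  rw [ModularForm.SL_slash_apply, Fermat.Agent.Lib.EisTwo.denom_sl] at h1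
  have hne := sl_denom_ne_zero γ z
  have h2 := discriminant_smul γ z
  have h3 : deltaN p (γ • z) =
      deltaN p z * ((γ 1 0 : ℂ) * z + (γ 1 1 : ℂ)) ^ 12 := by
    rw [← h1, zpow_neg, mul_assoc]
    have : ((((γ 1 0 : ℤ) : ℂ) * (z : ℂ) + ((γ 1 1 : ℤ) : ℂ)) ^ (12 : ℤ))⁻¹ *
        (((γ 1 0 : ℤ) : ℂ) * (z : ℂ) + ((γ 1 1 : ℤ) : ℂ)) ^ 12 = 1 := by
      rw [show (((γ 1 0 : ℤ) : ℂ) * (z : ℂ) + ((γ 1 1 : ℤ) : ℂ)) ^ (12 : ℤ) =
        (((γ 1 0 : ℤ) : ℂ) * (z : ℂ) + ((γ 1 1 : ℤ) : ℂ)) ^ 12 from by norm_cast]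
      exact inv_mul_cancel₀ (pow_ne_zero _ hne)
    rw [this, mul_one]
  rw [h3, h2]
  have hΔ := ModularForm.discriminant_ne_zero z
  field_simp

/-- Integrality of `24 ·` the periods. -/
theorem exists_int_period (p : ℕ) [NeZero p] (hU : EisUnitStmt p) {F : ℍ → ℂ}
    (hF : IsEisPrim p F) (γ : Gamma0 p) (z : ℍ) :
    ∃ n : ℤ, 24 * (F ((γ : SL(2, ℤ)) • z) - F z) = (n : ℂ) := by
  obtain ⟨C, hC, hCz⟩ := hU F hF
  have h1 := hCz ((γ : SL(2, ℤ)) • z)
  rw [unit_smul p γ.2 z, ← hCz z] at h1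
  have h2 : Complex.exp (2 * π * I * 24 * F ((γ : SL(2, ℤ)) • z) - 2 * π * I * 24 * F z) = 1 := by
    rw [Complex.exp_sub, h1]
    exact div_self (Complex.exp_ne_zero _)
  obtain ⟨n, hn⟩ := Complex.exp_eq_one_iff.mp h2
  refine ⟨n, ?_⟩
  have hpi : (2 * π * I : ℂ) ≠ 0 := Complex.two_pi_I_ne_zero
  have : (2 * π * I : ℂ) * (24 * (F ((γ : SL(2, ℤ)) • z) - F z)) = (2 * π * I) * (n : ℂ) := by
    linear_combination hn
  exact mul_left_cancel₀ hpi this

theorem frickePt_eq_ofComplex (p : ℕ) [NeZero p] (z : ℍ) :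
    frickePt p z = ofComplex (-1 / ((p : ℂ) * z)) := by
  apply UpperHalfPlane.ext
  have him : 0 < (-1 / ((p : ℂ) * (z : ℂ))).im := (frickePt p z).2
  rw [ofComplex_apply_of_im_pos him]
  rfl

/-- `eisP p (-1/(p z)) = -p z² eisP p z`. -/
theorem eisP_fricke (p : ℕ) [NeZero p] (z : ℍ) :
    eisP p (frickePt p z) = -(p : ℂ) * (z : ℂ) ^ 2 * eisP p z := by
  have h := Fermat.Agent.Lib.EisTwo.eisDiff_fricke p z
  rw [← frickePt_eq_ofComplex] at h
  show eisDiff p (frickePt p z) / 24 = -(p : ℂ) * (z : ℂ) ^ 2 * (eisDiff p z / 24)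
  rw [h]; ring

/-- `F(-1/(p z)) + F(z)` is constant for a primitive `F` of `eisP p`. -/
theorem exists_fricke_const (p : ℕ) [NeZero p] {F : ℍ → ℂ} (hF : IsEisPrim p F) :
    ∃ κ : ℂ, ∀ z : ℍ, F (frickePt p z) + F z = κ := by
  have hp0 : (p : ℂ) ≠ 0 := Nat.cast_ne_zero.mpr (NeZero.ne p)
  have hD : ∀ τ : ℍ, HasDerivAt
      ((fun σ : ℍ => F (frickePt p σ)) ∘ ofComplex + F ∘ ofComplex) 0 τ := by
    intro τ
    have hτ0 : (τ : ℂ) ≠ 0 := ne_zero τ
    have hinner : HasDerivAt (fun w : ℂ => -1 / ((p : ℂ) * w))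
        (1 / ((p : ℂ) * (τ : ℂ) ^ 2)) (τ : ℂ) := by
      have h1 : HasDerivAt (fun w : ℂ => (p : ℂ) * w) (p : ℂ) (τ : ℂ) := by
        simpa using (hasDerivAt_id (τ : ℂ)).const_mul (p : ℂ)
      have h2 := (hasDerivAt_const (τ : ℂ) (-1 : ℂ)).div h1 (mul_ne_zero hp0 hτ0)
      refine h2.congr_deriv ?_
      field_simp
      ring
    have hout : HasDerivAt (F ∘ ofComplex) (eisP p (frickePt p τ)) (-1 / ((p : ℂ) * (τ : ℂ))) :=
      hF (frickePt p τ)
    have hcomp := HasDerivAt.comp (τ : ℂ) hout hinner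
    have h3 : HasDerivAt ((fun σ : ℍ => F (frickePt p σ)) ∘ ofComplex) (-(eisP p τ)) τ := by
      have h4 : HasDerivAt ((F ∘ ofComplex) ∘ fun w : ℂ => -1 / ((p : ℂ) * w)) (-(eisP p τ)) τ := by
        refine hcomp.congr_deriv ?_
        rw [eisP_fricke]
        field_simp
      refine h4.congr_of_eventuallyEq ?_
      filter_upwards [isOpen_upperHalfPlaneSet.mem_nhds τ.im_pos] with w hw
      simp only [Function.comp_apply]
      rw [frickePt_eq_ofComplex, ofComplex_apply_of_im_pos hw]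
    have h5 := h3.add (hF τ)
    rwa [neg_add_cancel] at h5
  obtain ⟨a, ha⟩ := Fermat.Agent.S22.Tower.exists_const_of_hasDerivAt_zero hD
  refine ⟨a, fun z => ?_⟩
  have := ha z
  simpa using this

/-- `[1 0; p 1] z = W(W z - 1)` with `W z = -1/(p z)`. -/
theorem tZero_smul (p : ℕ) [NeZero p] (z : ℍ) :
    ((tZero p : SL(2, ℤ)) • z) = frickePt p (ModularGroup.T⁻¹ • frickePt p z) := by
  have hp0 : (p : ℂ) ≠ 0 := Nat.cast_ne_zero.mpr (NeZero.ne p)
  have hz0 : (z : ℂ) ≠ 0 := ne_zero z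
  apply UpperHalfPlane.ext
  rw [coe_sl_smul, coe_frickePt, coe_sl_smul, coe_frickePt]
  have hden := sl_denom_ne_zero (tZero p : SL(2, ℤ)) z
  have e00 : ((tZero p : SL(2, ℤ)) 0 0 : ℤ) = 1 := by simp [tZero]
  have e01 : ((tZero p : SL(2, ℤ)) 0 1 : ℤ) = 0 := by simp [tZero]
  have e10 : ((tZero p : SL(2, ℤ)) 1 0 : ℤ) = (p : ℤ) := by simp [tZero]
  have e11 : ((tZero p : SL(2, ℤ)) 1 1 : ℤ) = 1 := by simp [tZero]
  have f00 : ((ModularGroup.T⁻¹ : SL(2, ℤ)) 0 0 : ℤ) = 1 := by simp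
  have f01 : ((ModularGroup.T⁻¹ : SL(2, ℤ)) 0 1 : ℤ) = -1 := by simp
  have f10 : ((ModularGroup.T⁻¹ : SL(2, ℤ)) 1 0 : ℤ) = 0 := by simp
  have f11 : ((ModularGroup.T⁻¹ : SL(2, ℤ)) 1 1 : ℤ) = 1 := by simp
  rw [e10, e11] at hden
  rw [e00, e01, e10, e11, f00, f01, f10, f11]
  push_cast at hden ⊢
  have hden' : (p : ℂ) * (z : ℂ) + 1 ≠ 0 := hden
  have key : (p : ℂ) * ((1 * (-1 / ((p : ℂ) * (z : ℂ))) + -1) /
      (0 * (-1 / ((p : ℂ) * (z : ℂ))) + 1)) = -((p : ℂ) * (z : ℂ) + 1) / (z : ℂ) := by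
    field_simp
    ring
  rw [key]
  field_simp
  rw [add_zero]

/-- The period of `F` along `[1 0; p 1]`. -/
theorem prim_tZero (p : ℕ) [NeZero p] {F : ℍ → ℂ} (hF : IsEisPrim p F) (a : ℂ)
    (hT : ∀ z : ℍ, F (ModularGroup.T • z) = F z + a) (z : ℍ) :
    F ((tZero p : SL(2, ℤ)) • z) = F z + a := by
  obtain ⟨κ, hκ⟩ := exists_fricke_const p hF
  rw [tZero_smul]
  have h1 := hκ (ModularGroup.T⁻¹ • frickePt p z)
  have h2 := hT (ModularGroup.T⁻¹ • frickePt p z)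
  rw [smul_inv_smul] at h2
  have h3 := hκ z
  linear_combination h1 + h2 - h3

end EisClass

/-- Leaf L4: the Eisenstein class. -/
theorem eisClass (p : ℕ) [Fact p.Prime] (hU : EisUnitStmt p) : EisClassStmt p := by
  have : NeZero p := ⟨(Fact.out : p.Prime).ne_zero⟩
  obtain ⟨F, hF, hT⟩ := EisClass.exists_prim p
  have hEq : IsEquivariantPrimitive (Gamma0 p) F :=
    EisClass.isEquivariantPrimitive_of_prim p (fun γ hγ => EisClass.eisP_slash p hγ) hF
  have hint : ∀ γ : Gamma0 p, ∃ n : ℤ, 24 * hEq.period γ = (n : ℂ) := fun γ =>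
    EisClass.exists_int_period p hU hF γ UpperHalfPlane.I
  choose kf hkf using hint
  have hadd : ∀ γ δ : Additive (Gamma0 p),
      kf (Additive.toMul (γ + δ)) = kf (Additive.toMul γ) + kf (Additive.toMul δ) := by
    intro γ δ
    apply Int.cast_injective (α := ℂ)
    push_cast
    rw [← hkf, ← hkf, ← hkf]
    have : Additive.toMul (γ + δ) = Additive.toMul γ * Additive.toMul δ := rfl
    rw [this, hEq.period_mul]
    ring
  let k : Hm p ℤ := AddMonoidHom.mk' (fun γ => kf (Additive.toMul γ)) hadd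
  have hk : ∀ γ : Gamma0 p, k (Additive.ofMul γ) = kf γ := fun γ => rfl
  have hp24 : (24 : ℂ) * EisClass.a0 p = (p : ℂ) - 1 := by
    rw [EisClass.a0]; ring
  refine ⟨F, hEq, k, hF, fun γ => by rw [hk]; exact hkf γ, ?_, ?_⟩
  · apply Int.cast_injective (α := ℂ)
    rw [hk, ← hkf, ← hEq.sub_eq_period (tInf p) UpperHalfPlane.I]
    have h1 : F (((tInf p : Gamma0 p) : SL(2, ℤ)) • UpperHalfPlane.I) =
        F UpperHalfPlane.I + EisClass.a0 p := hT UpperHalfPlane.I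
    rw [h1]
    push_cast
    rw [← hp24]; ring
  · apply Int.cast_injective (α := ℂ)
    rw [hk, ← hkf, ← hEq.sub_eq_period (tZero p) UpperHalfPlane.I]
    have h1 : F (((tZero p : Gamma0 p) : SL(2, ℤ)) • UpperHalfPlane.I) =
        F UpperHalfPlane.I + EisClass.a0 p :=
      EisClass.prim_tZero p hF (EisClass.a0 p) hT UpperHalfPlane.I
    rw [h1]
    push_cast
    rw [← hp24]; ring

end Fermat.Agent.S16.LowerS21
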