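import Mathlib
import Fermat.Agent.S16.LowerChi
import Fermat.Agent.S16.LowerS21.HeckeTransfer

/-!
# S16, `χ`-route: the contracts `HeckeTransferStmt p` and `HeckeHomChiStmt p` of `S16/LowerChi`

Verbatim instances of the two Hecke contracts of `Fermat.Agent.S16.LowerChi`, from the explicit
transfer `Fermat.Agent.S16.LowerS21.HeckeTransfer.transfer`.
-/

set_option autoImplicit false

namespace Fermat.Agent.S16.LowerS21.HeckeTransfer

open Fermat.Agent.S16.LowerS21 Fermat.Agent.S16.LowerChi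

/-- The contract `HeckeTransferStmt p` of `S16/LowerChi`. -/
theorem heckeTransferStmt (p : ℕ) [Fact p.Prime] : HeckeTransferStmt p := by
  intro ℓ hℓ
  obtain ⟨Θ, ha, hb, hc, ι, inst, δ, h10, h00, hcard, hγ⟩ := transfer p ℓ hℓ
  refine ⟨Θ, ha, hb, hc, ι, inst, δ, h10, h00, ?_, fun γ => ?_⟩
  · rw [← hcard, Int.cast_natCast]
  · obtain ⟨σ, κ, hrel, hsum, -⟩ := hγ γ
    exact ⟨σ, κ, hrel, hsum⟩

/-- The contract `HeckeHomChiStmt p` of `S16/LowerChi`. -/
theorem heckeHomChiStmt (p : ℕ) [Fact p.Prime] : HeckeHomChiStmt p :=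
  heckeHomChi_of_transfer p (heckeTransferStmt p)

end Fermat.Agent.S16.LowerS21.HeckeTransfer
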