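import Mathlib
import Fermat.Agent.S16.LowerS21.Assembly
import Fermat.Agent.S16.LowerS21.HeckeHom
import Fermat.Agent.S16.LowerS21.PrimHecke
import Fermat.Agent.S16.LowerS21.EisUnit
import Fermat.Agent.S16.LowerS21.EisClass
import Fermat.Agent.S16.LowerS21.EisEigen
import Fermat.Agent.S16.LowerS21.Root
import Fermat.Agent.S16.LowerS21.CrossingViaLib
import Fermat.Agent.S16.LowerS21.TwoCusp
import Fermat.Agent.S16.EvZero

/-!
# S16: the lower bound `LowerBound p` through Eichler–Shimura (route "L-main"), final wiring

`LowerBound p` : every Hecke polynomial `P` killing `S₂(Γ₀(p))` has Eisenstein eigenvalue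
`χ(P)` divisible by `n = (p - 1)/gcd(p - 1, 12)`.

All nine leaves of the route are landed; this file plugs them into
`LowerS21/Assembly.lowerBound_of_contracts`:

* `evZero` (S16/EvZero), `heckeHom` (L1), `primHecke_isPrim` (L2), `eisUnit` (L3), `eisClass` (L4),
  `eisEigen` (L5), `crossingStmt_of_crossingHom` (L6), `twoCusp` (L7), `root` (L8).
-/

set_option autoImplicit false

namespace Fermat.Agent.S16.LowerS21

open Fermat.Agent.S16

/-- **The lower bound of S16**: `n ∣ χ(P)` for every Hecke polynomial `P` killing
`S₂(Γ₀(p))`. -/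
theorem lowerBound (p : ℕ) [Fact p.Prime] : LowerBound p :=
  lowerBound_of_contracts p (evZero p) (heckeHom p) (primHecke_isPrim p)
    (eisClass p (eisUnit p)) (eisEigen p) (root p) (crossingStmt_of_crossingHom p) (twoCusp p)

end Fermat.Agent.S16.LowerS21
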