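import Mathlib
import Fermat.Agent.S16.LowerS21.Plan
import Fermat.Agent.S16.LowerS21.EisUnit
import Fermat.Agent.S16.PairFricke
import Fermat.Agent.S20.Defs
import Fermat.Agent.Lib.DeltaLevelN

/-!
# S16 / LowerS21, leaf L8b: roots of the modular unit `Δ(p z)/Δ(z)` as modular forms

If all periods of `24 F` (`F` a primitive of `E = eisP p`) are divisible by `d`, then
`v := exp(2 π i · 24 F / d)` is `Γ₀(p)`-invariant, `v^d = C Δ(p z)/Δ(z)`, and `Φ := v Δ` is a
modular form of weight 12 on `Γ₀(p)` (its `d`-th power is the modular form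
`C Δ(p z) Δ^(d-1)`, which gives the boundedness at the cusps).  Its Fricke image is
`Φ♭ = v(-1/(p z)) Δ(p z)` and `Φ Φ♭ = c Δ Δ(p z)` with `c^d = C² p^(-12)`.
-/

set_option autoImplicit false

noncomputable section

namespace Fermat.Agent.S16.LowerS21

open Complex Filter Topology
open UpperHalfPlane hiding I
open CongruenceSubgroup
open scoped MatrixGroups ModularForm Real Manifold

open Fermat.Agent.S23 (G0 IsMF IsCF)

namespace RootForm

local notation "Δ" => ModularForm.discriminant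

/-- A holomorphic `Γ₀(N)`-invariant function of weight `k` whose `d`-th power is a modular form
of weight `k d` is a modular form. -/
theorem isMF_root {N : ℕ} [NeZero N] {k : ℤ} {f G : ℍ → ℂ} {d : ℕ} (hd : 0 < d)
    (hinv : Fermat.Agent.S20.SlInv N k f) (hol : MDiff f) (hG : IsMF (G0 N) (k * d) G)
    (hpow : ∀ z, f z ^ d = G z) : IsMF (G0 N) k f := by
  refine Fermat.Agent.S20.isMF_of hinv hol (fun γ => ?_)
  have hb := Fermat.Agent.S20.isBoundedAtImInfty_slash hG γ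
  have hpow' : ∀ z, (f ∣[k] γ) z ^ d = (G ∣[k * d] γ) z := by
    intro z
    rw [ModularForm.SL_slash_apply, ModularForm.SL_slash_apply, mul_pow, hpow, ← zpow_natCast,
      ← zpow_mul]
    congr 2
    ring
  rw [UpperHalfPlane.isBoundedAtImInfty_iff] at hb ⊢
  obtain ⟨M, A, hMA⟩ := hb
  refine ⟨max 1 M, A, fun z hz => ?_⟩
  have h1 := hMA z hz
  rw [← hpow' z, norm_pow] at h1
  by_contra hcon
  push Not at hcon
  have hx1 : 1 < ‖(f ∣[k] γ) z‖ := lt_of_le_of_lt (le_max_left _ _) hcon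
  have h2 : ‖(f ∣[k] γ) z‖ ≤ ‖(f ∣[k] γ) z‖ ^ d :=
    le_self_pow₀ hx1.le (Nat.pos_iff_ne_zero.mp hd)
  have h3 := le_max_right 1 M
  linarith

/-- `Δ(-1/(p z)) = (p z)^12 Δ(p z)`. -/
theorem discriminant_frickePt (p : ℕ) [NeZero p] (z : ℍ) :
    Δ (frickePt p z) = ((p : ℂ) * z) ^ 12 * Fermat.Agent.Lib.DeltaSlash.deltaN p z := by
  have him : 0 < ((p : ℂ) * (z : ℂ)).im := by
    have : ((p : ℂ) * (z : ℂ)).im = (p : ℝ) * z.im := by simp
    rw [this]
    exact mul_pos (Nat.cast_pos.mpr (NeZero.pos p)) z.im_pos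
  obtain ⟨z', hz'⟩ : ∃ z' : ℍ, (z' : ℂ) = (p : ℂ) * z := ⟨⟨_, him⟩, rfl⟩
  have h1 : frickePt p z = ModularGroup.S • z' :=
    UpperHalfPlane.ext (by rw [coe_frickePt, Fermat.Agent.Lib.EisTwo.coe_S_smul, hz'])
  have h2 : ofComplex ((p : ℂ) * z) = z' := by
    rw [← hz', ofComplex_apply]
  rw [h1, Fermat.Agent.Lib.DeltaSlash.discriminant_smul, Fermat.Agent.Lib.DeltaSlash.deltaN, h2,
    ← hz']
  simp [ModularGroup.S]

/-- `Δ(p · (-1/(p z))) = z^12 Δ(z)`. -/
theorem deltaN_frickePt (p : ℕ) [NeZero p] (z : ℍ) :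
    Fermat.Agent.Lib.DeltaSlash.deltaN p (frickePt p z) = (z : ℂ) ^ 12 * Δ z := by
  unfold Fermat.Agent.Lib.DeltaSlash.deltaN
  rw [PairFricke.natCast_mul_frickePt, ← Fermat.Agent.Lib.EisTwo.coe_S_smul, ofComplex_apply,
    Fermat.Agent.Lib.DeltaSlash.discriminant_smul]
  simp [ModularGroup.S]

/-- `exp(c F)` is holomorphic for a primitive `F`. -/
theorem mdiff_cexp_mul {f F : ℍ → ℂ} (hF : IsPrim f F) (c : ℂ) :
    MDiff (fun z : ℍ => cexp (c * F z)) := by
  rw [UpperHalfPlane.mdifferentiable_iff]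
  intro w hw
  have h := ((hF ⟨w, hw⟩).const_mul c).cexp
  exact h.differentiableAt.differentiableWithinAt

/-- `F(z) + F(-1/(p z))` is constant for a primitive `F` of the Eisenstein series. -/
theorem exists_fricke_const (p : ℕ) [NeZero p] {F : ℍ → ℂ} (hF : IsEisPrim p F) :
    ∃ K : ℂ, ∀ z : ℍ, F z + F (frickePt p z) = K := by
  have hp0 : (p : ℂ) ≠ 0 := Nat.cast_ne_zero.mpr (NeZero.ne p)
  let D : ℂ → ℂ := fun w => (F ∘ ofComplex) w + (F ∘ ofComplex) (-1 / ((p : ℂ) * w))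
  have hD : ∀ τ : ℍ, HasDerivAt D 0 τ := by
    intro τ
    have hτ0 : (τ : ℂ) ≠ 0 := τ.ne_zero
    have h1 := hF τ
    have hg : HasDerivAt (fun w : ℂ => -1 / ((p : ℂ) * w)) (1 / ((p : ℂ) * (τ : ℂ) ^ 2)) τ := by
      have h := (hasDerivAt_inv hτ0).const_mul (-1 / (p : ℂ))
      have hfun : (fun w : ℂ => -1 / ((p : ℂ) * w)) = fun w : ℂ => -1 / (p : ℂ) * w⁻¹ := by
        funext w
        rw [div_eq_mul_inv, mul_inv, div_eq_mul_inv]
        ring
      rw [hfun]
      refine h.congr_deriv ?_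
      field_simp
    have h2 := HasDerivAt.comp (τ : ℂ) (hF (frickePt p τ)) hg
    have h3 := h1.add h2
    refine h3.congr_deriv ?_
    have hfr := Fermat.Agent.Lib.EisTwo.eisDiff_fricke p τ
    have hpt : ofComplex (-1 / ((p : ℂ) * τ)) = frickePt p τ := by
      rw [← coe_frickePt, ofComplex_apply]
    rw [hpt] at hfr
    simp only [Fermat.Agent.Lib.EisTwo.eisP]
    rw [hfr]
    field_simp
    ring
  obtain ⟨a, ha⟩ := EisUnit.exists_const_of_hasDerivAt_zero hD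
  refine ⟨a, fun z => ?_⟩
  have h := ha z
  simp only [D, Function.comp_apply, ofComplex_apply] at h
  rw [← coe_frickePt, ofComplex_apply] at h
  exact h

end RootForm

open RootForm in
/-- Leaf L8b: the `d`-th root `Φ = exp(48 π i F / d) Δ` of `C Δ(p z) Δ^(d-1)` and its Fricke
image. -/
theorem rootForm (p : ℕ) [Fact p.Prime] (hU : EisUnitStmt p) : RootFormStmt p := by
  intro F hF d hd hper
  have hp0 : (p : ℂ) ≠ 0 := Nat.cast_ne_zero.mpr (NeZero.ne p)
  have hdC : (d : ℂ) ≠ 0 := Nat.cast_ne_zero.mpr hd.ne'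
  obtain ⟨C, hC0, hC⟩ := hU F hF
  obtain ⟨K, hK⟩ := exists_fricke_const p hF
  obtain ⟨a, ha⟩ : ∃ a : ℂ, a = 2 * π * I * 24 / d := ⟨_, rfl⟩
  have had : (d : ℂ) * a = 2 * π * I * 24 := by rw [ha]; field_simp
  obtain ⟨v, hv⟩ : ∃ v : ℍ → ℂ, v = fun z => cexp (a * F z) := ⟨_, rfl⟩
  have hΔne : ∀ z : ℍ, ModularForm.discriminant z ≠ 0 := ModularForm.discriminant_ne_zero
  have hδne : ∀ z : ℍ, Fermat.Agent.Lib.DeltaSlash.deltaN p z ≠ 0 :=
    Fermat.Agent.Lib.DeltaLevelN.deltaN_ne_zero p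
  have hexp : ∀ z : ℍ, cexp (a * F z) ^ d = cexp (2 * π * I * 24 * F z) := by
    intro z
    rw [← Complex.exp_nat_mul, ← mul_assoc, had]
  have hvd : ∀ z : ℍ, v z ^ d =
      C * (Fermat.Agent.Lib.DeltaSlash.deltaN p z / ModularForm.discriminant z) := by
    intro z
    rw [← hC z, hv]
    exact hexp z
  have hvinv : ∀ γ ∈ Gamma0 p, ∀ z : ℍ, v (γ • z) = v z := by
    intro γ hγ z
    obtain ⟨m, hm⟩ := hper ⟨γ, hγ⟩ z
    have hm' : a * F (γ • z) = a * F z + (m : ℂ) * (2 * π * I) := by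
      have h1 : (d : ℂ) * (a * F (γ • z)) = (d : ℂ) * (a * F z + (m : ℂ) * (2 * π * I)) := by
        have hm2 : (24 : ℂ) * (F (γ • z) - F z) = (d : ℂ) * (m : ℂ) := hm
        linear_combination (F (γ • z) - F z) * had + (2 * π * I) * hm2
      exact mul_left_cancel₀ hdC h1
    rw [hv]
    simp only
    rw [hm', Complex.exp_add, Complex.exp_int_mul_two_pi_mul_I, mul_one]
  have hvhol : MDiff v := by
    rw [hv]
    exact mdiff_cexp_mul hF a
  have hΔhol : MDiff (ModularForm.discriminant : ℍ → ℂ) := CuspForm.discriminant.holo'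
  have hinv : Fermat.Agent.S20.SlInv p 12 (fun z => v z * ModularForm.discriminant z) := by
    intro γ hγ
    ext z
    rw [ModularForm.SL_slash_apply, hvinv γ hγ z, Fermat.Agent.Lib.EisTwo.denom_sl,
      Fermat.Agent.Lib.DeltaSlash.discriminant_smul]
    have hne := Fermat.Agent.Lib.DeltaSlash.sl_denom_ne_zero γ z
    rw [zpow_neg]
    field_simp
  obtain ⟨e, rfl⟩ : ∃ e, d = e + 1 := Nat.exists_eq_succ_of_ne_zero hd.ne'
  have hδ : IsMF (G0 p) 12 (Fermat.Agent.Lib.DeltaSlash.deltaN p) :=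
    (IsCF.coe (Fermat.Agent.Lib.DeltaLevelN.deltaNForm p)).isMF
  have hΔ1 : IsMF 𝒮ℒ 12 (ModularForm.discriminant : ℍ → ℂ) :=
    (IsCF.coe CuspForm.discriminant).isMF
  have hG : IsMF (G0 p) (12 * ((e + 1 : ℕ) : ℤ))
      (C • (Fermat.Agent.Lib.DeltaSlash.deltaN p * ModularForm.discriminant ^ e)) :=
    (IsMF.smul C (hδ.mul ((hΔ1.toG0 p).pow e))).weight_congr (by push_cast; ring)
  have hΦ : IsMF (G0 p) 12 (fun z => v z * ModularForm.discriminant z) := by
    refine isMF_root hd hinv (hvhol.mul hΔhol) hG (fun z => ?_)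
    rw [mul_pow, hvd z]
    simp only [Pi.smul_apply, Pi.mul_apply, Pi.pow_apply, smul_eq_mul]
    have := hΔne z
    field_simp
    ring
  obtain ⟨Φ, hΦe⟩ := hΦ
  obtain ⟨Φ', hΦ'⟩ := PairFricke.exists_flat p Φ
  have hΦz : ∀ z : ℍ, Φ z = v z * ModularForm.discriminant z := fun z => congrFun hΦe z
  have hvv : ∀ z : ℍ, v z * v (frickePt p z) = cexp (a * K) := by
    intro z
    rw [hv]
    simp only
    rw [← Complex.exp_add, ← mul_add, hK]
  refine ⟨Φ, Φ', C, cexp (a * K), hC0, Complex.exp_ne_zero _, hΦ', ?_, ?_, ?_⟩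
  · intro z
    rw [hΦz, mul_pow, hvd z]
    have := hΔne z
    simp only [Nat.add_sub_cancel]
    field_simp
    ring
  · intro z
    have hz0 : (z : ℂ) ≠ 0 := z.ne_zero
    rw [hΦ' z, hΦz, hΦz, discriminant_frickePt, ← hvv z, zpow_neg]
    have h12 : ((p : ℂ) * (z : ℂ)) ^ (12 : ℤ) = ((p : ℂ) * (z : ℂ)) ^ (12 : ℕ) := by
      norm_cast
    rw [h12]
    field_simp
  · have hz := hvv UpperHalfPlane.I
    set z : ℍ := UpperHalfPlane.I with hzI
    have hpz : (p : ℂ) * (z : ℂ) ≠ 0 := mul_ne_zero hp0 z.ne_zero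
    have hz0 : (z : ℂ) ≠ 0 := z.ne_zero
    rw [← hz, mul_pow, hvd z, hvd (frickePt p z), deltaN_frickePt, discriminant_frickePt]
    have h1 := hΔne z
    have h2 := hδne z
    rw [zpow_neg]
    have h12 : (p : ℂ) ^ (12 : ℤ) = (p : ℂ) ^ (12 : ℕ) := by norm_cast
    rw [h12]
    field_simp

end Fermat.Agent.S16.LowerS21
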