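/-
S16 / L-main leaf L8b, SECOND IMPLEMENTATION (helper15): the contract `RootFormStmt p`.

If all periods of `24 F` (`F` a primitive of the Eisenstein series `E = eisP p`) are divisible by
`d`, then `v := exp(2πi·24 F / d)` is `Γ₀(p)`-invariant, and `Φ := v Δ`, `Φ' := c v⁻¹ Δ(p·)`
are modular forms of weight 12 on `Γ₀(p)` with `Φ' = Φ♭`, `Φ^d = C Δ(p·) Δ^(d-1)`,
`Φ Φ' = c Δ Δ(p·)`, `c^d = C² p^(-12)`.

Everything lives in the namespace `Fermat.Agent.S16.LowerS21.RootFormB`.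
-/
import Mathlib
import Fermat.Agent.S16.LowerS21.Plan
import Fermat.Agent.Lib.DeltaLevelN
import Fermat.Agent.Lib.VVAnalytic

set_option autoImplicit false

noncomputable section

namespace Fermat.Agent.S16.LowerS21.RootFormB

open Complex Filter Topology
open UpperHalfPlane hiding I
open CongruenceSubgroup
open scoped MatrixGroups ModularForm Real Manifold
open Fermat.Agent.Lib.DeltaSlash (deltaN)
open Fermat.Agent.S16 (frickePt coe_frickePt)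

local notation "Δ" => ModularForm.discriminant

/-! ### Exponentials of a primitive -/

/-- `z ↦ exp(κ · F z)`. -/
def expF (κ : ℂ) (F : ℍ → ℂ) (z : ℍ) : ℂ := cexp (κ * F z)

theorem expF_ne_zero (κ : ℂ) (F : ℍ → ℂ) (z : ℍ) : expF κ F z ≠ 0 := Complex.exp_ne_zero _

theorem expF_mul_neg (κ : ℂ) (F : ℍ → ℂ) (z : ℍ) : expF κ F z * expF (-κ) F z = 1 := by
  rw [expF, expF, ← Complex.exp_add]
  have : κ * F z + -κ * F z = 0 := by ring
  rw [this, Complex.exp_zero]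

theorem mdiff_expF (κ : ℂ) {f F : ℍ → ℂ} (hF : IsPrim f F) : MDiff (expF κ F) := by
  rw [UpperHalfPlane.mdifferentiable_iff]
  intro w hw
  have h1 : DifferentiableAt ℂ (F ∘ ofComplex) w := (hF ⟨w, hw⟩).differentiableAt
  have h2 : DifferentiableAt ℂ (fun u => cexp (κ * (F ∘ ofComplex) u)) w :=
    (h1.const_mul κ).cexp
  exact h2.differentiableWithinAt

/-- The exponent `2πi · 24 / d`. -/
def kap (d : ℕ) : ℂ := 2 * π * I * 24 / d

theorem expF_kap_pow {d : ℕ} (hd : 0 < d) (F : ℍ → ℂ) (z : ℍ) :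
    expF (kap d) F z ^ d = cexp (2 * π * I * 24 * F z) := by
  rw [expF, ← Complex.exp_nat_mul]
  congr 1
  have hd0 : (d : ℂ) ≠ 0 := by exact_mod_cast hd.ne'
  rw [kap]
  field_simp

theorem expF_neg_kap_pow {d : ℕ} (hd : 0 < d) (F : ℍ → ℂ) (z : ℍ) :
    expF (-kap d) F z ^ d = (cexp (2 * π * I * 24 * F z))⁻¹ := by
  have h := congrArg (fun x => x ^ d) (expF_mul_neg (kap d) F z)
  simp only [mul_pow, one_pow] at h
  rw [expF_kap_pow hd] at h
  exact eq_inv_of_mul_eq_one_right h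

theorem expF_kap_smul {p d : ℕ} (hd : 0 < d) {F : ℍ → ℂ}
    (hper : ∀ (γ : Gamma0 p) (z : ℍ), ∃ m : ℤ,
      24 * (F ((γ : SL(2, ℤ)) • z) - F z) = (d : ℂ) * (m : ℂ))
    (γ : Gamma0 p) (z : ℍ) :
    expF (kap d) F ((γ : SL(2, ℤ)) • z) = expF (kap d) F z := by
  obtain ⟨m, hm⟩ := hper γ z
  have hd0 : (d : ℂ) ≠ 0 := by exact_mod_cast hd.ne'
  have h1 : kap d * F ((γ : SL(2, ℤ)) • z) = kap d * F z + (m : ℂ) * (2 * π * I) := by
    have e : kap d * (d : ℂ) = 2 * π * I * 24 := by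
      rw [kap]
      field_simp
    have h2 : kap d * (24 * (F ((γ : SL(2, ℤ)) • z) - F z)) = kap d * ((d : ℂ) * (m : ℂ)) := by
      rw [hm]
    have h24 : (24 : ℂ) ≠ 0 := by norm_num
    apply mul_left_cancel₀ h24
    linear_combination h2 + (m : ℂ) * e
  rw [expF, expF, h1, Complex.exp_add, Complex.exp_int_mul_two_pi_mul_I, mul_one]

theorem expF_neg_kap_smul {p d : ℕ} (hd : 0 < d) {F : ℍ → ℂ}
    (hper : ∀ (γ : Gamma0 p) (z : ℍ), ∃ m : ℤ,
      24 * (F ((γ : SL(2, ℤ)) • z) - F z) = (d : ℂ) * (m : ℂ))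
    (γ : Gamma0 p) (z : ℍ) :
    expF (-kap d) F ((γ : SL(2, ℤ)) • z) = expF (-kap d) F z := by
  have h1 := expF_mul_neg (kap d) F ((γ : SL(2, ℤ)) • z)
  have h2 := expF_mul_neg (kap d) F z
  rw [expF_kap_smul hd hper γ z] at h1
  exact mul_left_cancel₀ (expF_ne_zero (kap d) F z) (h1.trans h2.symm)

/-! ### A function on `ℍ` with vanishing derivative is constant -/

theorem exists_const_of_hasDerivAt_zero {D : ℂ → ℂ} (h : ∀ τ : ℍ, HasDerivAt D 0 τ) :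
    ∃ a, ∀ τ : ℍ, D τ = a := by
  have hd : DifferentiableOn ℂ D {z : ℂ | 0 < z.im} := fun z hz =>
    (h ⟨z, hz⟩).differentiableAt.differentiableWithinAt
  have hd' : Set.EqOn (deriv D) 0 {z : ℂ | 0 < z.im} := fun z hz => (h ⟨z, hz⟩).deriv
  obtain ⟨a, ha⟩ := isOpen_upperHalfPlaneSet.exists_is_const_of_deriv_eq_zero
    (convex_halfSpace_im_gt 0).isPreconnected hd hd'
  exact ⟨a, fun τ => ha τ τ.im_pos⟩

/-! ### The Fricke point -/

theorem ofComplex_fricke (p : ℕ) [NeZero p] (z : ℍ) :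
    ofComplex (-1 / ((p : ℂ) * z)) = frickePt p z := by
  have him : 0 < (-1 / ((p : ℂ) * (z : ℂ))).im := by
    rw [← coe_frickePt]
    exact (frickePt p z).im_pos
  rw [ofComplex_apply_of_im_pos him]
  exact UpperHalfPlane.ext rfl

/-- the point `p z` of the upper half plane. -/
def scalePt (p : ℕ) [NeZero p] (z : ℍ) : ℍ :=
  ⟨(p : ℂ) * z, by
    have h1 : ((p : ℂ) * (z : ℂ)).im = p * z.im := by simp
    rw [h1]
    have hp : (0 : ℝ) < p := Nat.cast_pos.mpr (NeZero.pos p)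
    exact mul_pos hp z.im_pos⟩

@[simp] theorem coe_scalePt (p : ℕ) [NeZero p] (z : ℍ) :
    ((scalePt p z : ℍ) : ℂ) = (p : ℂ) * z := rfl

theorem deltaN_eq (p : ℕ) [NeZero p] (z : ℍ) : deltaN p z = Δ (scalePt p z) := by
  have him : 0 < ((p : ℂ) * (z : ℂ)).im := (scalePt p z).im_pos
  show Δ (ofComplex ((p : ℂ) * z)) = _
  rw [ofComplex_apply_of_im_pos him]
  rfl

theorem coe_S_smul (z : ℍ) : ((ModularGroup.S • z : ℍ) : ℂ) = -1 / (z : ℂ) := by
  rw [Fermat.Agent.Lib.DeltaSlash.coe_sl_smul]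
  simp [ModularGroup.S]

theorem discriminant_S_smul (w : ℍ) : Δ (ModularGroup.S • w) = (w : ℂ) ^ 12 * Δ w := by
  rw [Fermat.Agent.Lib.DeltaSlash.discriminant_smul]
  simp [ModularGroup.S]

theorem frickePt_eq_S_smul (p : ℕ) [NeZero p] (z : ℍ) :
    frickePt p z = ModularGroup.S • scalePt p z := by
  apply UpperHalfPlane.ext
  rw [coe_S_smul, coe_frickePt, coe_scalePt]

theorem discriminant_frickePt (p : ℕ) [NeZero p] (z : ℍ) :
    Δ (frickePt p z) = ((p : ℂ) * z) ^ 12 * deltaN p z := by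
  rw [frickePt_eq_S_smul, discriminant_S_smul, coe_scalePt, deltaN_eq]

theorem scalePt_frickePt (p : ℕ) [NeZero p] (z : ℍ) :
    scalePt p (frickePt p z) = ModularGroup.S • z := by
  apply UpperHalfPlane.ext
  rw [coe_S_smul, coe_scalePt, coe_frickePt]
  have hp0 : (p : ℂ) ≠ 0 := Nat.cast_ne_zero.mpr (NeZero.ne p)
  have hz0 : (z : ℂ) ≠ 0 := ne_zero z
  field_simp

theorem deltaN_frickePt (p : ℕ) [NeZero p] (z : ℍ) :
    deltaN p (frickePt p z) = (z : ℂ) ^ 12 * Δ z := by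
  rw [deltaN_eq, scalePt_frickePt, discriminant_S_smul]

/-! ### The Fricke constant of a primitive of `E` -/

theorem eisP_frickePt (p : ℕ) [NeZero p] (τ : ℍ) :
    Fermat.Agent.Lib.EisTwo.eisP p (frickePt p τ) =
      -(p : ℂ) * (τ : ℂ) ^ 2 * Fermat.Agent.Lib.EisTwo.eisP p τ := by
  have h := Fermat.Agent.Lib.EisTwo.eisDiff_fricke p τ
  rw [ofComplex_fricke] at h
  simp only [Fermat.Agent.Lib.EisTwo.eisP]
  rw [h]
  ring

theorem exists_fricke_const (p : ℕ) [NeZero p] {F : ℍ → ℂ} (hF : IsEisPrim p F) :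
    ∃ a : ℂ, ∀ z : ℍ, F z + F (frickePt p z) = a := by
  have key : ∀ τ : ℍ, HasDerivAt
      (fun w : ℂ => (F ∘ ofComplex) w + (F ∘ ofComplex) (-1 / ((p : ℂ) * w))) 0 τ := by
    intro τ
    have hp0 : (p : ℂ) ≠ 0 := Nat.cast_ne_zero.mpr (NeZero.ne p)
    have hτ0 : (τ : ℂ) ≠ 0 := ne_zero τ
    have h1 := hF τ
    have h2 := hF (frickePt p τ)
    rw [coe_frickePt] at h2
    have h4 : HasDerivAt (fun w : ℂ => (p : ℂ) * w) (p : ℂ) τ := by
      simpa using (hasDerivAt_id (τ : ℂ)).const_mul (p : ℂ)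
    have h5 : HasDerivAt (fun w : ℂ => (-1 : ℂ) / ((p : ℂ) * w))
        ((0 * ((p : ℂ) * (τ : ℂ)) - (-1) * (p : ℂ)) / ((p : ℂ) * (τ : ℂ)) ^ 2) τ :=
      (hasDerivAt_const (τ : ℂ) (-1 : ℂ)).div h4 (mul_ne_zero hp0 hτ0)
    have h6 := h2.comp (τ : ℂ) h5
    have h7 : HasDerivAt
        (fun w : ℂ => (F ∘ ofComplex) w + (F ∘ ofComplex) (-1 / ((p : ℂ) * w)))
        (Fermat.Agent.Lib.EisTwo.eisP p τ + Fermat.Agent.Lib.EisTwo.eisP p (frickePt p τ) *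
          ((0 * ((p : ℂ) * (τ : ℂ)) - (-1) * (p : ℂ)) / ((p : ℂ) * (τ : ℂ)) ^ 2)) τ :=
      h1.add h6
    have h8 : Fermat.Agent.Lib.EisTwo.eisP p τ + Fermat.Agent.Lib.EisTwo.eisP p (frickePt p τ) *
        ((0 * ((p : ℂ) * (τ : ℂ)) - (-1) * (p : ℂ)) / ((p : ℂ) * (τ : ℂ)) ^ 2) = 0 := by
      rw [eisP_frickePt]
      field_simp
      ring
    exact h7.congr_deriv h8
  obtain ⟨a, ha⟩ := exists_const_of_hasDerivAt_zero key
  refine ⟨a, fun z => ?_⟩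
  have h := ha z
  simp only [Function.comp_apply, ofComplex_apply, ofComplex_fricke] at h
  exact h

/-! ### Boundedness from a power identity -/

theorem isBounded_of_pow_eq {f g h : ℍ → ℂ} {C : ℂ} {d : ℕ} (hd : 0 < d)
    (hg : IsBoundedAtImInfty g) (hh : IsBoundedAtImInfty h)
    (heq : ∀ z, f z ^ d = C * g z * h z ^ (d - 1)) : IsBoundedAtImInfty f := by
  obtain ⟨M₁, A₁, h₁⟩ := isBoundedAtImInfty_iff.mp hg
  obtain ⟨M₂, A₂, h₂⟩ := isBoundedAtImInfty_iff.mp hh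
  refine isBoundedAtImInfty_iff.mpr ⟨max (‖C‖ * |M₁| * |M₂| ^ (d - 1)) 1, max A₁ A₂, fun z hz => ?_⟩
  have hz1 : A₁ ≤ z.im := le_trans (le_max_left _ _) hz
  have hz2 : A₂ ≤ z.im := le_trans (le_max_right _ _) hz
  have hb : ‖f z‖ ^ d ≤ ‖C‖ * |M₁| * |M₂| ^ (d - 1) := by
    rw [← norm_pow, heq z, norm_mul, norm_mul, norm_pow]
    have e1 : ‖g z‖ ≤ |M₁| := le_trans (h₁ z hz1) (le_abs_self _)
    have e2 : ‖h z‖ ≤ |M₂| := le_trans (h₂ z hz2) (le_abs_self _)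
    have e3 : ‖h z‖ ^ (d - 1) ≤ |M₂| ^ (d - 1) := pow_le_pow_left₀ (norm_nonneg _) e2 _
    have e4 : ‖C‖ * ‖g z‖ ≤ ‖C‖ * |M₁| := mul_le_mul_of_nonneg_left e1 (norm_nonneg _)
    exact mul_le_mul e4 e3 (pow_nonneg (norm_nonneg _) _) (mul_nonneg (norm_nonneg _) (abs_nonneg _))
  rcases le_or_gt ‖f z‖ 1 with h1 | h1
  · exact le_trans h1 (le_max_right _ _)
  · have h2 : ‖f z‖ ≤ ‖f z‖ ^ d := le_self_pow₀ h1.le hd.ne'
    exact le_trans (le_trans h2 hb) (le_max_left _ _)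

/-! ### Slash computations -/

theorem discriminant_slash (γ : SL(2, ℤ)) : Δ ∣[(12 : ℤ)] γ = Δ :=
  CuspForm.discriminant.slash_action_eq' _ ⟨γ, rfl⟩

theorem discriminant_slash_apply (γ : SL(2, ℤ)) (z : ℍ) :
    Δ (γ • z) * denom γ z ^ (-(12 : ℤ)) = Δ z := by
  have h := congrFun (discriminant_slash γ) z
  rwa [ModularForm.SL_slash_apply] at h

/-- `Φ = v · Δ`. -/
def phiFun (d : ℕ) (F : ℍ → ℂ) : ℍ → ℂ := fun z => expF (kap d) F z * Δ z

/-- `Φ' = c · v⁻¹ · Δ(p ·)`. -/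
def phiFun' (p d : ℕ) (c : ℂ) (F : ℍ → ℂ) : ℍ → ℂ :=
  fun z => c * expF (-kap d) F z * deltaN p z

theorem mdiff_phiFun (d : ℕ) {f F : ℍ → ℂ} (hF : IsPrim f F) : MDiff (phiFun d F) :=
  (mdiff_expF (kap d) hF).mul CuspForm.discriminant.holo'

theorem mdiff_phiFun' (p : ℕ) [NeZero p] (d : ℕ) (c : ℂ) {f F : ℍ → ℂ} (hF : IsPrim f F) :
    MDiff (phiFun' p d c F) :=
  (mdifferentiable_const.mul (mdiff_expF (-kap d) hF)).mul
    (Fermat.Agent.Lib.DeltaLevelN.mdifferentiable_deltaN p)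

theorem phiFun_slash {p d : ℕ} (hd : 0 < d) {F : ℍ → ℂ}
    (hper : ∀ (γ : Gamma0 p) (z : ℍ), ∃ m : ℤ,
      24 * (F ((γ : SL(2, ℤ)) • z) - F z) = (d : ℂ) * (m : ℂ))
    (γ : SL(2, ℤ)) (hγ : γ ∈ Gamma0 p) : phiFun d F ∣[(12 : ℤ)] γ = phiFun d F := by
  ext z
  rw [ModularForm.SL_slash_apply]
  have h1 := expF_kap_smul hd hper ⟨γ, hγ⟩ z
  have h2 := discriminant_slash_apply γ z
  show expF (kap d) F (γ • z) * Δ (γ • z) * denom γ z ^ (-(12 : ℤ)) = expF (kap d) F z * Δ z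
  rw [show expF (kap d) F (γ • z) = expF (kap d) F z from h1, mul_assoc, h2]

theorem phiFun'_slash {p : ℕ} [NeZero p] {d : ℕ} (hd : 0 < d) (c : ℂ) {F : ℍ → ℂ}
    (hper : ∀ (γ : Gamma0 p) (z : ℍ), ∃ m : ℤ,
      24 * (F ((γ : SL(2, ℤ)) • z) - F z) = (d : ℂ) * (m : ℂ))
    (γ : SL(2, ℤ)) (hγ : γ ∈ Gamma0 p) : phiFun' p d c F ∣[(12 : ℤ)] γ = phiFun' p d c F := by
  ext z
  rw [ModularForm.SL_slash_apply]
  have h1 := expF_neg_kap_smul hd hper ⟨γ, hγ⟩ z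
  have h2 := congrFun (Fermat.Agent.Lib.DeltaLevelN.deltaN_slash_of_mem p hγ) z
  rw [ModularForm.SL_slash_apply] at h2
  show c * expF (-kap d) F (γ • z) * deltaN p (γ • z) * denom γ z ^ (-(12 : ℤ)) =
    c * expF (-kap d) F z * deltaN p z
  rw [show expF (-kap d) F (γ • z) = expF (-kap d) F z from h1, mul_assoc, h2]

theorem pow_eq_mul_pow_pred (x : ℂ) {d : ℕ} (hd : 0 < d) : x ^ d = x * x ^ (d - 1) := by
  obtain ⟨e, rfl⟩ := Nat.exists_eq_succ_of_ne_zero hd.ne'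
  rw [Nat.succ_sub_one, pow_succ]
  ring

theorem phiFun_slash_pow {p : ℕ} [NeZero p] {d : ℕ} (hd : 0 < d) {F : ℍ → ℂ} {C : ℂ}
    (hC : ∀ z : ℍ, cexp (2 * π * I * 24 * F z) = C * (deltaN p z / Δ z))
    (γ : SL(2, ℤ)) (z : ℍ) :
    (phiFun d F ∣[(12 : ℤ)] γ) z ^ d = C * (deltaN p ∣[(12 : ℤ)] γ) z * Δ z ^ (d - 1) := by
  rw [ModularForm.SL_slash_apply, ModularForm.SL_slash_apply, ← discriminant_slash_apply γ z]
  show (expF (kap d) F (γ • z) * Δ (γ • z) * denom γ z ^ (-(12 : ℤ))) ^ d = _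
  have hΔ : Δ (γ • z) ≠ 0 := ModularForm.discriminant_ne_zero _
  generalize denom γ z ^ (-(12 : ℤ)) = D
  rw [mul_pow, mul_pow, expF_kap_pow hd, hC (γ • z), pow_eq_mul_pow_pred (Δ (γ • z)) hd,
    pow_eq_mul_pow_pred D hd, mul_pow]
  field_simp

theorem phiFun'_slash_pow {p : ℕ} [NeZero p] {d : ℕ} (hd : 0 < d) (c : ℂ) {F : ℍ → ℂ} {C : ℂ}
    (hC0 : C ≠ 0) (hC : ∀ z : ℍ, cexp (2 * π * I * 24 * F z) = C * (deltaN p z / Δ z))
    (γ : SL(2, ℤ)) (z : ℍ) :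
    (phiFun' p d c F ∣[(12 : ℤ)] γ) z ^ d =
      (c ^ d / C) * Δ z * (deltaN p ∣[(12 : ℤ)] γ) z ^ (d - 1) := by
  rw [ModularForm.SL_slash_apply, ModularForm.SL_slash_apply, ← discriminant_slash_apply γ z]
  show (c * expF (-kap d) F (γ • z) * deltaN p (γ • z) * denom γ z ^ (-(12 : ℤ))) ^ d = _
  have hΔ : Δ (γ • z) ≠ 0 := ModularForm.discriminant_ne_zero _
  have hδ : deltaN p (γ • z) ≠ 0 := Fermat.Agent.Lib.DeltaLevelN.deltaN_ne_zero p _
  generalize denom γ z ^ (-(12 : ℤ)) = D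
  rw [mul_pow, mul_pow, mul_pow, expF_neg_kap_pow hd, hC (γ • z),
    pow_eq_mul_pow_pred (deltaN p (γ • z)) hd, pow_eq_mul_pow_pred D hd, mul_pow]
  field_simp

theorem isBounded_phiFun_slash {p : ℕ} [NeZero p] {d : ℕ} (hd : 0 < d) {F : ℍ → ℂ} {C : ℂ}
    (hC : ∀ z : ℍ, cexp (2 * π * I * 24 * F z) = C * (deltaN p z / Δ z))
    (γ : SL(2, ℤ)) : IsBoundedAtImInfty (phiFun d F ∣[(12 : ℤ)] γ) :=
  isBounded_of_pow_eq hd
    (Fermat.Agent.Lib.DeltaLevelN.isZeroAtImInfty_deltaN_slash p γ).isBoundedAtImInfty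
    ModularForm.discriminant_isZeroAtImInfty.isBoundedAtImInfty
    (phiFun_slash_pow hd hC γ)

theorem isBounded_phiFun'_slash {p : ℕ} [NeZero p] {d : ℕ} (hd : 0 < d) (c : ℂ) {F : ℍ → ℂ}
    {C : ℂ} (hC0 : C ≠ 0)
    (hC : ∀ z : ℍ, cexp (2 * π * I * 24 * F z) = C * (deltaN p z / Δ z))
    (γ : SL(2, ℤ)) : IsBoundedAtImInfty (phiFun' p d c F ∣[(12 : ℤ)] γ) :=
  isBounded_of_pow_eq hd
    ModularForm.discriminant_isZeroAtImInfty.isBoundedAtImInfty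
    (Fermat.Agent.Lib.DeltaLevelN.isZeroAtImInfty_deltaN_slash p γ).isBoundedAtImInfty
    (phiFun'_slash_pow hd c hC0 hC γ)

/-! ### The contract -/

/-- **L8b** (second implementation): the contract `RootFormStmt p`. -/
theorem rootFormB (p : ℕ) [Fact p.Prime] (hU : EisUnitStmt p) : RootFormStmt p := by
  intro F hF d hd hper
  obtain ⟨C, hC0, hC⟩ := hU F hF
  obtain ⟨a, ha⟩ := exists_fricke_const p hF
  have hp0 : (p : ℂ) ≠ 0 := Nat.cast_ne_zero.mpr (NeZero.ne p)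
  set c : ℂ := cexp (kap d * a) with hc
  -- `v(z) · v(W z) = c`
  have hvv : ∀ z : ℍ, expF (kap d) F z * expF (kap d) F (frickePt p z) = c := by
    intro z
    rw [expF, expF, ← Complex.exp_add, ← mul_add, ha z]
  have hvW : ∀ z : ℍ, expF (kap d) F (frickePt p z) = c * expF (-kap d) F z := by
    intro z
    have h1 := hvv z
    have h2 := expF_mul_neg (kap d) F z
    have h3 := expF_ne_zero (kap d) F z
    calc expF (kap d) F (frickePt p z)
        = (expF (kap d) F z * expF (-kap d) F z) * expF (kap d) F (frickePt p z) := by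
          rw [h2, one_mul]
      _ = (expF (kap d) F z * expF (kap d) F (frickePt p z)) * expF (-kap d) F z := by ring
      _ = c * expF (-kap d) F z := by rw [h1]
  obtain ⟨Φ, hΦ⟩ := Fermat.Agent.Lib.VVAnalytic.isMF_G0_of p 12 (phiFun d F)
    (mdiff_phiFun d hF) (phiFun_slash hd hper) (isBounded_phiFun_slash hd hC)
  obtain ⟨Φ', hΦ'⟩ := Fermat.Agent.Lib.VVAnalytic.isMF_G0_of p 12 (phiFun' p d c F)
    (mdiff_phiFun' p d c hF) (phiFun'_slash hd c hper) (isBounded_phiFun'_slash hd c hC0 hC)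
  have eΦ : ∀ z : ℍ, Φ z = expF (kap d) F z * Δ z := fun z => congrFun hΦ z
  have eΦ' : ∀ z : ℍ, Φ' z = c * expF (-kap d) F z * deltaN p z := fun z => congrFun hΦ' z
  refine ⟨Φ, Φ', C, c, hC0, Complex.exp_ne_zero _, ?_, ?_, ?_, ?_⟩
  · intro z
    have hz0 : (z : ℂ) ≠ 0 := ne_zero z
    have hpz : (p : ℂ) * (z : ℂ) ≠ 0 := mul_ne_zero hp0 hz0
    rw [eΦ', eΦ, hvW, discriminant_frickePt, zpow_neg, zpow_ofNat]
    field_simp
  · intro z
    have hΔ : Δ z ≠ 0 := ModularForm.discriminant_ne_zero _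
    rw [eΦ, mul_pow, expF_kap_pow hd, hC z, pow_eq_mul_pow_pred (Δ z) hd]
    field_simp
  · intro z
    rw [eΦ, eΦ']
    have h2 := expF_mul_neg (kap d) F z
    calc expF (kap d) F z * Δ z * (c * expF (-kap d) F z * deltaN p z)
        = (expF (kap d) F z * expF (-kap d) F z) * (c * (Δ z * deltaN p z)) := by ring
      _ = c * (Δ z * deltaN p z) := by rw [h2, one_mul]
  · have z : ℍ := UpperHalfPlane.I
    have hz0 : (z : ℂ) ≠ 0 := ne_zero z
    have hΔ : Δ z ≠ 0 := ModularForm.discriminant_ne_zero _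
    have hδ : deltaN p z ≠ 0 := Fermat.Agent.Lib.DeltaLevelN.deltaN_ne_zero p _
    have h1 := congrArg (fun x => x ^ d) (hvv z)
    simp only [mul_pow] at h1
    rw [expF_kap_pow hd, expF_kap_pow hd, hC z, hC (frickePt p z), deltaN_frickePt,
      discriminant_frickePt] at h1
    rw [← h1, zpow_neg, zpow_ofNat]
    field_simp

end Fermat.Agent.S16.LowerS21.RootFormB
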