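import Mathlib
import Fermat.Agent.S16.LowerS21.Plan

/-!
# S16 lower bound, leaf L8a `RootSeries` (helper83)

`rootSeries : RootSeriesStmt` — a `d`-th root in `ℂ⟦X⟧` of `C · X^s · U`, `U ∈ 1 + X ℚ⟦X⟧`, is a
constant times `X^r · A₀` with `A₀ ∈ 1 + X ℚ⟦X⟧`.

Proof.  Write `A = X^r · B` with `B(0) = a ≠ 0` and `B₁ = a⁻¹ B`.  Comparing the lowest coefficients
gives `r d = s`, `a^d = C` and `B₁^d = U`.  Differentiating, `d · U · B₁' = U' · B₁`, which is a
linear recursion with rational coefficients for the coefficients of `B₁`.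
-/

set_option autoImplicit false

noncomputable section

namespace Fermat.Agent.S16.LowerS21

namespace RootSeries

open PowerSeries

/-- The differential equation of a `d`-th root. -/
theorem deriv_identity {d : ℕ} (hd : 0 < d) (B V : PowerSeries ℂ) (h : B ^ d = V) :
    (d : ℂ) • (V * derivative ℂ B) = derivative ℂ V * B := by
  have h1 : derivative ℂ V = (d : PowerSeries ℂ) * B ^ (d - 1) * derivative ℂ B := by
    rw [← h, derivative_pow]
  have h2 : B ^ (d - 1) * B = V := by
    rw [← h, pow_sub_one_mul hd.ne']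
  have h3 : ((d : ℂ) • (V * derivative ℂ B) : PowerSeries ℂ) =
      (d : PowerSeries ℂ) * (V * derivative ℂ B) := by
    rw [← map_natCast (C (R := ℂ)) d, ← smul_eq_C_mul]
  rw [h3, h1, ← h2]
  ring

/-- Rationality of the coefficients of a `d`-th root with constant term `1`. -/
theorem coeff_mem_fieldRange {d : ℕ} (hd : 0 < d) (B : PowerSeries ℂ) (U : PowerSeries ℚ)
    (hB0 : constantCoeff B = 1) (hU0 : constantCoeff U = 1)
    (h : B ^ d = PowerSeries.map (algebraMap ℚ ℂ) U) :
    ∀ n : ℕ, coeff n B ∈ (algebraMap ℚ ℂ).fieldRange := by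
  set K : Subfield ℂ := (algebraMap ℚ ℂ).fieldRange with hK
  set V : PowerSeries ℂ := PowerSeries.map (algebraMap ℚ ℂ) U with hV
  have hVK : ∀ n, coeff n V ∈ K := by
    intro n
    rw [hV, coeff_map]
    exact ⟨_, rfl⟩
  have hV0 : coeff 0 V = 1 := by
    rw [hV, coeff_map, coeff_zero_eq_constantCoeff_apply, hU0, map_one]
  have key := deriv_identity hd B V h
  intro n
  induction n using Nat.strong_induction_on with
  | _ n ih =>
    rcases Nat.eq_zero_or_pos n with h0 | h0
    · rw [h0, coeff_zero_eq_constantCoeff_apply, hB0]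
      exact K.one_mem
    · obtain ⟨m, rfl⟩ : ∃ m, n = m + 1 := ⟨n - 1, by omega⟩
      -- the identity at the coefficient `m`
      have hm := congrArg (coeff m) key
      rw [coeff_smul, coeff_mul, coeff_mul] at hm
      have hmem : ((0 : ℕ), m) ∈ Finset.HasAntidiagonal.antidiagonal m := by simp
      rw [← Finset.add_sum_erase _ _ hmem] at hm
      simp only [coeff_derivative] at hm
      rw [hV0, one_mul] at hm
      -- the two remainders lie in `K`
      have hR1 : (∑ x ∈ (Finset.HasAntidiagonal.antidiagonal m).erase (0, m),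
          coeff x.1 V * (coeff (x.2 + 1) B * ((x.2 : ℂ) + 1))) ∈ K := by
        refine K.sum_mem fun x hx => ?_
        have hx1 := Finset.ne_of_mem_erase hx
        have hx2 := Finset.HasAntidiagonal.mem_antidiagonal.mp (Finset.mem_of_mem_erase hx)
        have hlt : x.2 + 1 < m + 1 := by
          have : x.1 ≠ 0 := by
            intro h0'
            apply hx1
            ext
            · exact h0'
            · simp only
              omega
          omega
        refine K.mul_mem (hVK _) (K.mul_mem (ih _ hlt) ?_)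
        exact K.add_mem (natCast_mem K _) K.one_mem
      have hR2 : (∑ x ∈ Finset.HasAntidiagonal.antidiagonal m,
          coeff (x.1 + 1) V * ((x.1 : ℂ) + 1) * coeff x.2 B) ∈ K := by
        refine K.sum_mem fun x hx => ?_
        have hx2 := Finset.HasAntidiagonal.mem_antidiagonal.mp hx
        have hlt : x.2 < m + 1 := by omega
        exact K.mul_mem (K.mul_mem (hVK _) (K.add_mem (natCast_mem K _) K.one_mem)) (ih _ hlt)
      set R1 := ∑ x ∈ (Finset.HasAntidiagonal.antidiagonal m).erase (0, m),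
          coeff x.1 V * (coeff (x.2 + 1) B * ((x.2 : ℂ) + 1)) with hR1def
      set R2 := ∑ x ∈ Finset.HasAntidiagonal.antidiagonal m,
          coeff (x.1 + 1) V * ((x.1 : ℂ) + 1) * coeff x.2 B with hR2def
      have hd0 : (d : ℂ) ≠ 0 := Nat.cast_ne_zero.mpr hd.ne'
      have hm0 : ((m : ℂ) + 1) ≠ 0 := by exact_mod_cast Nat.succ_ne_zero m
      have hsolve : coeff (m + 1) B = (R2 / (d : ℂ) - R1) / ((m : ℂ) + 1) := by
        field_simp
        linear_combination hm
      rw [hsolve]
      exact K.div_mem (K.sub_mem (K.div_mem hR2 (natCast_mem K _)) hR1)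
        (K.add_mem (natCast_mem K _) K.one_mem)

/-- A power series over `ℂ` with rational coefficients comes from `ℚ⟦X⟧`. -/
theorem exists_map_eq (B : PowerSeries ℂ) (hB : ∀ n : ℕ, coeff n B ∈ (algebraMap ℚ ℂ).fieldRange) :
    ∃ A₀ : PowerSeries ℚ, PowerSeries.map (algebraMap ℚ ℂ) A₀ = B := by
  choose q hq using hB
  refine ⟨PowerSeries.mk q, ?_⟩
  ext n
  rw [coeff_map, coeff_mk, hq]

end RootSeries

open PowerSeries in
/-- Leaf L8a: the contract `RootSeriesStmt`. -/
theorem rootSeries : RootSeriesStmt := by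
  intro d hd A U s C hC hU0 hA
  set V : PowerSeries ℂ := PowerSeries.map (algebraMap ℚ ℂ) U with hV
  have hV0 : constantCoeff V = 1 := by
    rw [hV, ← coeff_zero_eq_constantCoeff_apply, coeff_map, coeff_zero_eq_constantCoeff_apply,
      hU0, map_one]
  -- `A ≠ 0`
  have hA0 : A ≠ 0 := by
    intro h0
    rw [h0, zero_pow hd.ne'] at hA
    have h1 := congrArg (coeff s) hA
    rw [coeff_smul, coeff_X_pow_mul', if_pos le_rfl, Nat.sub_self,
      coeff_zero_eq_constantCoeff_apply, hV0, smul_eq_mul, mul_one, map_zero] at h1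
    exact hC h1.symm
  -- split off the order
  obtain ⟨r, B, hAB, hB0⟩ : ∃ (r : ℕ) (B : PowerSeries ℂ), X ^ r * B = A ∧ constantCoeff B ≠ 0 :=
    ⟨A.order.toNat, divXPowOrder A, X_pow_order_mul_divXPowOrder,
      fun h0 => hA0 (constantCoeff_divXPowOrder_eq_zero_iff.mp h0)⟩
  obtain ⟨a, ha⟩ : ∃ a : ℂ, a = constantCoeff B := ⟨_, rfl⟩
  have ha0 : a ≠ 0 := ha ▸ hB0
  obtain ⟨B₁, hB₁⟩ : ∃ B₁ : PowerSeries ℂ, B₁ = a⁻¹ • B := ⟨_, rfl⟩
  have hB₁0 : constantCoeff B₁ = 1 := by
    rw [hB₁, ← coeff_zero_eq_constantCoeff_apply, coeff_smul, coeff_zero_eq_constantCoeff_apply,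
      ← ha, smul_eq_mul, inv_mul_cancel₀ ha0]
  have hBB₁ : B = a • B₁ := by
    rw [hB₁, smul_smul, mul_inv_cancel₀ ha0, one_smul]
  have hAB₁ : A = a • (X ^ r * B₁) := by
    rw [← hAB, hBB₁, mul_smul_comm]
  -- compare the two sides of `A ^ d = C • (X ^ s * V)`
  have hpow : (a ^ d) • (X ^ (r * d) * B₁ ^ d) = C • (X ^ s * V) := by
    rw [← hA, hAB₁, smul_pow, mul_pow, ← pow_mul]
  have hB₁d0 : constantCoeff (B₁ ^ d) = 1 := by
    rw [map_pow, hB₁0, one_pow]
  have had0 : a ^ d ≠ 0 := pow_ne_zero _ ha0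
  have hrs : r * d = s := by
    rcases lt_trichotomy (r * d) s with hlt | heq | hgt
    · exfalso
      have h1 := congrArg (coeff (r * d)) hpow
      rw [coeff_smul, coeff_smul, coeff_X_pow_mul', if_pos le_rfl, Nat.sub_self,
        coeff_zero_eq_constantCoeff_apply, hB₁d0, coeff_X_pow_mul', if_neg (by omega),
        smul_eq_mul, smul_eq_mul, mul_one, mul_zero] at h1
      exact had0 h1
    · exact heq
    · exfalso
      have h1 := congrArg (coeff s) hpow
      rw [coeff_smul, coeff_smul, coeff_X_pow_mul', if_neg (by omega), coeff_X_pow_mul',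
        if_pos le_rfl, Nat.sub_self, coeff_zero_eq_constantCoeff_apply, hV0,
        smul_eq_mul, smul_eq_mul, mul_one, mul_zero] at h1
      exact hC h1.symm
  rw [hrs] at hpow
  have haC : a ^ d = C := by
    have h1 := congrArg (coeff s) hpow
    rw [coeff_smul, coeff_smul, coeff_X_pow_mul', if_pos le_rfl, Nat.sub_self,
      coeff_zero_eq_constantCoeff_apply, hB₁d0, coeff_X_pow_mul', if_pos le_rfl, Nat.sub_self,
      coeff_zero_eq_constantCoeff_apply, hV0, smul_eq_mul, smul_eq_mul, mul_one, mul_one] at h1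
    exact h1
  have hB₁d : B₁ ^ d = V := by
    ext n
    have h1 := congrArg (coeff (n + s)) hpow
    rw [coeff_smul, coeff_smul, coeff_X_pow_mul, coeff_X_pow_mul, haC, smul_eq_mul,
      smul_eq_mul] at h1
    exact mul_left_cancel₀ hC h1
  -- rationality
  obtain ⟨A₀, hA₀⟩ := RootSeries.exists_map_eq B₁
    (RootSeries.coeff_mem_fieldRange hd B₁ U hB₁0 hU0 hB₁d)
  refine ⟨a, r, A₀, ?_, ?_⟩
  · have h1 : constantCoeff (PowerSeries.map (algebraMap ℚ ℂ) A₀) = 1 := by rw [hA₀, hB₁0]
    rw [← coeff_zero_eq_constantCoeff_apply, coeff_map, coeff_zero_eq_constantCoeff_apply] at h1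
    exact (algebraMap ℚ ℂ).injective (by rw [h1, map_one])
  · rw [hA₀]
    exact hAB₁

end Fermat.Agent.S16.LowerS21
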