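import Mathlib

/-!
# Formal `d`-th roots of power series with rational coefficients

If `A ∈ ℂ⟦X⟧` and `A ^ d = c • (X ^ e * U)` with `U ∈ ℤ⟦X⟧`, `U(0) = 1`, then `d ∣ e` and
`A = a • A₁` with `A₁ ∈ ℚ⟦X⟧` monic of order `e / d`, `a ^ d = c`.
-/

set_option autoImplicit false

namespace Fermat.Agent.S16.UnitRoot

open PowerSeries

/-- The rational numbers inside `ℂ`. -/
noncomputable def QQ : Subfield ℂ := (algebraMap ℚ ℂ).fieldRange

theorem natCast_mem_QQ (n : ℕ) : (n : ℂ) ∈ QQ := ⟨(n : ℚ), by simp⟩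

theorem intCast_mem_QQ (n : ℤ) : (n : ℂ) ∈ QQ := ⟨(n : ℚ), by simp⟩

theorem mem_QQ_iff (x : ℂ) : x ∈ QQ ↔ ∃ r : ℚ, (r : ℂ) = x := by
  constructor
  · rintro ⟨r, hr⟩; exact ⟨r, by simpa using hr⟩
  · rintro ⟨r, hr⟩; exact ⟨r, by simpa using hr⟩

/-- A `d`-th root with constant term `1` of a rational power series is rational. -/
theorem coeff_mem_QQ_of_pow (d : ℕ) (hd : 0 < d) (R W : PowerSeries ℂ)
    (hR0 : coeff 0 R = 1) (hW : ∀ n, coeff n W ∈ QQ) (h : R ^ d = W) :
    ∀ n, coeff n R ∈ QQ := by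
  have hW0 : coeff 0 W = 1 := by
    rw [← h]
    simp [PowerSeries.coeff_zero_eq_constantCoeff, map_pow] at hR0 ⊢
    rw [hR0, one_pow]
  -- the differential equation `d • (W * R') = W' * R`
  have hde : (d : PowerSeries ℂ) * (W * derivative ℂ R) = derivative ℂ W * R := by
    rw [← h]
    have h1 : derivative ℂ (R ^ d) = (d : PowerSeries ℂ) * R ^ (d - 1) * derivative ℂ R := by
      rw [Derivation.leibniz_pow]
      simp [nsmul_eq_mul, mul_assoc]
    rw [h1]
    have h2 : R ^ d = R ^ (d - 1) * R := by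
      rw [← pow_succ]; congr 1; omega
    rw [h2]; ring
  intro n
  induction n using Nat.strong_induction_on with
  | _ n ih =>
    rcases Nat.eq_zero_or_pos n with rfl | hn
    · rw [hR0]; exact QQ.one_mem
    obtain ⟨m, rfl⟩ : ∃ m, n = m + 1 := ⟨n - 1, by omega⟩
    have hc := congrArg (coeff m) hde
    rw [show (d : PowerSeries ℂ) = C (d : ℂ) by simp, PowerSeries.coeff_C_mul,
      PowerSeries.coeff_mul, PowerSeries.coeff_mul] at hc
    have hmem : (0, m) ∈ Finset.HasAntidiagonal.antidiagonal m := by simp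
    rw [← Finset.add_sum_erase _ _ hmem] at hc
    simp only [PowerSeries.coeff_derivative] at hc
    rw [hW0, one_mul] at hc
    -- the remaining sums are rational
    have hS1 : ∑ x ∈ (Finset.HasAntidiagonal.antidiagonal m).erase (0, m),
        coeff x.1 W * (coeff (x.2 + 1) R * ((x.2 : ℂ) + 1)) ∈ QQ := by
      refine QQ.sum_mem fun x hx => ?_
      have hx' := Finset.mem_erase.mp hx
      have hsum : x.1 + x.2 = m := Finset.HasAntidiagonal.mem_antidiagonal.mp hx'.2
      have hx1 : x.1 ≠ 0 := by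
        intro h0
        apply hx'.1
        ext
        · exact h0
        · simp; omega
      refine QQ.mul_mem (hW _) (QQ.mul_mem (ih _ (by omega)) ?_)
      exact QQ.add_mem (natCast_mem_QQ _) QQ.one_mem
    have hS2 : ∑ x ∈ Finset.HasAntidiagonal.antidiagonal m,
        coeff (x.1 + 1) W * ((x.1 : ℂ) + 1) * coeff x.2 R ∈ QQ := by
      refine QQ.sum_mem fun x hx => ?_
      have hsum : x.1 + x.2 = m := Finset.HasAntidiagonal.mem_antidiagonal.mp hx
      refine QQ.mul_mem (QQ.mul_mem (hW _) ?_) (ih _ (by omega))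
      exact QQ.add_mem (natCast_mem_QQ _) QQ.one_mem
    have hdm : (d : ℂ) * ((m : ℂ) + 1) ≠ 0 := by
      have h1 : (d : ℂ) ≠ 0 := by exact_mod_cast hd.ne'
      have h2 : ((m : ℂ) + 1) ≠ 0 := by exact_mod_cast Nat.succ_ne_zero m
      exact mul_ne_zero h1 h2
    have hkey : coeff (m + 1) R =
        ((∑ x ∈ Finset.HasAntidiagonal.antidiagonal m, coeff (x.1 + 1) W * ((x.1 : ℂ) + 1) * coeff x.2 R)
          - (d : ℂ) * ∑ x ∈ (Finset.HasAntidiagonal.antidiagonal m).erase (0, m),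
              coeff x.1 W * (coeff (x.2 + 1) R * ((x.2 : ℂ) + 1))) / ((d : ℂ) * ((m : ℂ) + 1)) := by
      rw [eq_div_iff hdm]
      linear_combination hc
    rw [hkey]
    refine QQ.div_mem (QQ.sub_mem hS2 (QQ.mul_mem (natCast_mem_QQ _) hS1)) ?_
    exact QQ.mul_mem (natCast_mem_QQ _) (QQ.add_mem (natCast_mem_QQ _) QQ.one_mem)


/-- Formal `d`-th roots: if `A ^ d = c • X ^ e • U` with `U ∈ ℤ⟦X⟧`, `U(0) = 1`, then `d ∣ e` and
`A = a • A₁` with `A₁` rational, monic of order `e / d`, and `a ^ d = c`. -/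
theorem exists_root_form (d : ℕ) (hd : 0 < d) (A : PowerSeries ℂ) (c : ℂ) (hc : c ≠ 0) (e : ℕ)
    (U : PowerSeries ℤ) (hU : coeff 0 U = 1)
    (h : A ^ d = C c * (X ^ e * map (Int.castRingHom ℂ) U)) :
    ∃ (k : ℕ) (a : ℂ) (A1 : PowerSeries ℂ), d * k = e ∧ a ^ d = c ∧ A = C a * A1 ∧
      (∀ n, coeff n A1 ∈ QQ) ∧ coeff k A1 = 1 ∧ ∀ n < k, coeff n A1 = 0 := by
  classical
  set W : PowerSeries ℂ := C c * map (Int.castRingHom ℂ) U with hWdef
  have hW0 : coeff 0 W = c := by
    simp [hWdef, hU]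
  have hrhs : A ^ d = X ^ e * W := by rw [h, hWdef]; ring
  have hA0 : A ≠ 0 := by
    rintro rfl
    rw [zero_pow hd.ne'] at hrhs
    have := congrArg (coeff e) hrhs
    rw [PowerSeries.coeff_X_pow_mul', if_pos le_rfl, Nat.sub_self, hW0] at this
    exact hc (by simpa using this.symm)
  have hex : ∃ n, coeff n A ≠ 0 := by
    by_contra hne
    push Not at hne
    exact hA0 (PowerSeries.ext (by simpa using hne))
  set k := Nat.find hex with hk
  have hkne : coeff k A ≠ 0 := Nat.find_spec hex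
  have hklt : ∀ m < k, coeff m A = 0 := fun m hm => by
    have := Nat.find_min hex hm
    simpa using this
  obtain ⟨A0, hA0eq⟩ : X ^ k ∣ A := PowerSeries.X_pow_dvd_iff.mpr hklt
  have ha : coeff 0 A0 = coeff k A := by
    rw [hA0eq, PowerSeries.coeff_X_pow_mul', if_pos le_rfl, Nat.sub_self]
  set a := coeff 0 A0 with hadef
  have ha0 : a ≠ 0 := by rw [ha]; exact hkne
  have hV0 : coeff 0 (A0 ^ d) = a ^ d := by
    simp [PowerSeries.coeff_zero_eq_constantCoeff, map_pow, hadef]
  have hpow : X ^ (k * d) * A0 ^ d = X ^ e * W := by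
    rw [← hrhs, hA0eq, mul_pow, ← pow_mul]
  have hkd : k * d = e := by
    rcases lt_trichotomy (k * d) e with hlt | heq | hgt
    · exfalso
      have := congrArg (coeff (k * d)) hpow
      rw [PowerSeries.coeff_X_pow_mul', if_pos le_rfl, Nat.sub_self, hV0,
        PowerSeries.coeff_X_pow_mul', if_neg (by omega)] at this
      exact pow_ne_zero d ha0 this
    · exact heq
    · exfalso
      have := congrArg (coeff e) hpow
      rw [PowerSeries.coeff_X_pow_mul', if_neg (by omega),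
        PowerSeries.coeff_X_pow_mul', if_pos le_rfl, Nat.sub_self, hW0] at this
      exact hc this.symm
  have hA0d : A0 ^ d = W := by
    rw [hkd] at hpow
    exact mul_left_cancel₀ (pow_ne_zero e PowerSeries.X_ne_zero) hpow
  have had : a ^ d = c := by
    rw [← hV0, hA0d, hW0]
  set R : PowerSeries ℂ := C a⁻¹ * A0 with hRdef
  have hR0 : coeff 0 R = 1 := by
    rw [hRdef, PowerSeries.coeff_C_mul, ← hadef, inv_mul_cancel₀ ha0]
  have hRd : R ^ d = map (Int.castRingHom ℂ) U := by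
    rw [hRdef, mul_pow, hA0d, hWdef, ← map_pow, ← mul_assoc, ← map_mul, inv_pow, had,
      inv_mul_cancel₀ hc, map_one, one_mul]
  have hRrat : ∀ n, coeff n R ∈ QQ := by
    refine coeff_mem_QQ_of_pow d hd R _ hR0 (fun n => ?_) hRd
    rw [PowerSeries.coeff_map]
    exact intCast_mem_QQ _
  have hA0R : A0 = C a * R := by
    rw [hRdef, ← mul_assoc, ← map_mul, mul_inv_cancel₀ ha0, map_one, one_mul]
  refine ⟨k, a, X ^ k * R, by rw [mul_comm]; exact hkd, had, ?_, ?_, ?_, ?_⟩
  · rw [hA0eq, hA0R]; ring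
  · intro n
    rw [PowerSeries.coeff_X_pow_mul']
    split_ifs
    · exact hRrat _
    · exact QQ.zero_mem
  · rw [PowerSeries.coeff_X_pow_mul', if_pos le_rfl, Nat.sub_self, hR0]
  · intro n hn
    rw [PowerSeries.coeff_X_pow_mul', if_neg (by omega)]

end Fermat.Agent.S16.UnitRoot
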