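import Mathlib
import Fermat.Agent.S16.LowerS21.Plan
import Fermat.Agent.S16.LowerS21.EisUnit
import Fermat.Agent.S16.LowerS21.RootForm
import Fermat.Agent.S16.LowerS21.UnitRootFormal
import Fermat.Agent.S23.Defs
import Fermat.Agent.S23.DeltaN
import Fermat.Agent.Lib.DeltaInt
import Fermat.Agent.Lib.LevelOneLow

/-!
# S16 / LowerS21, leaf L8 (second implementation): Ogg's argument through the trace principle

`root_of_pair : PairAPI p → RootStmt p`: if all periods of `24 F` (`F` a primitive of the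
Eisenstein series `E = eisP p`) are divisible by `d`, then `d ∣ 12`.

The landed leaf `rootForm` gives modular forms `Φ, Φ♭` of weight 12 on `Γ₀(p)` with
`Φ^d = C Δ(p z) Δ^(d-1)`, `Φ Φ♭ = c Δ Δ(p z)`, `c^d = C² p^(-12)`; hence
`Φ♭^d = C p^(-12) Δ Δ(p z)^(d-1)`.  The formal root lemma (`exists_root_form`) gives
`qExp Φ = a (q^k + ⋯)`, `qExp Φ♭ = b (q^k' + ⋯)` with rational `⋯`, `a^d = C`, `b^d = C p^(-12)`,
`k ≥ 2`, `k' ≥ 1`.  By the trace principle `X = Φ + p U_p Φ♭` has level one and weight 12, with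
`x₀ = 0`, so `X = x₁ Δ`; the coefficient at `q^k` gives `a = p b ρ` with `ρ` rational, hence
`(p ρ)^d = p^12` and `d ∣ 12` (`p`-adic valuation).
-/

set_option autoImplicit false

namespace Fermat.Agent.S16.UnitRoot

open UpperHalfPlane hiding I
open ModularForm Complex CongruenceSubgroup PowerSeries
open Fermat.Agent.S23
open scoped MatrixGroups ModularForm Manifold Topology Real

local notation "Δ" => ModularForm.discriminant

/-- `Q = X^s (1 + ⋯)` with integer coefficients. -/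
def IsIntMonic (s : ℕ) (Q : PowerSeries ℂ) : Prop :=
  ∃ U : PowerSeries ℤ, coeff 0 U = 1 ∧ Q = X ^ s * PowerSeries.map (Int.castRingHom ℂ) U

theorem IsIntMonic.mul {s t : ℕ} {Q R : PowerSeries ℂ} (hQ : IsIntMonic s Q)
    (hR : IsIntMonic t R) : IsIntMonic (s + t) (Q * R) := by
  obtain ⟨U, hU, rfl⟩ := hQ
  obtain ⟨V, hV, rfl⟩ := hR
  refine ⟨U * V, ?_, ?_⟩
  · rw [coeff_zero_eq_constantCoeff_apply] at hU hV ⊢
    rw [map_mul, hU, hV, mul_one]
  · rw [map_mul, pow_add]; ring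

theorem IsIntMonic.pow {s : ℕ} {Q : PowerSeries ℂ} (hQ : IsIntMonic s Q) (n : ℕ) :
    IsIntMonic (s * n) (Q ^ n) := by
  induction n with
  | zero => exact ⟨1, by simp, by simp⟩
  | succ n ih => rw [pow_succ, Nat.mul_succ]; exact ih.mul hQ

theorem isIntMonic_discriminant : IsIntMonic 1 (qExpansion 1 Δ) := by
  obtain ⟨U, hU, hD⟩ := Fermat.Agent.Lib.DeltaInt.exists_DeltaZ_eq_X_mul
  refine ⟨U, by rw [coeff_zero_eq_constantCoeff_apply]; exact hU, ?_⟩
  rw [Fermat.Agent.Lib.DeltaInt.qExpansion_discriminant_eq, hD, map_mul, map_X, pow_one]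

theorem isIntMonic_deltaN (p : ℕ) [NeZero p] : IsIntMonic p (qExpansion 1 (deltaN p)) := by
  obtain ⟨U, hU, hD⟩ := Fermat.Agent.Lib.DeltaInt.exists_DeltaZ_eq_X_mul
  have hp : 0 < p := NeZero.pos p
  refine ⟨PowerSeries.mk fun n => if p ∣ n then coeff (n / p) U else 0, ?_, ?_⟩
  · rw [coeff_mk, if_pos (dvd_zero p), Nat.zero_div, coeff_zero_eq_constantCoeff_apply, hU]
  · ext n
    rw [deltaN_qExpansion_coeff, Fermat.Agent.Lib.DeltaInt.coeff_qExpansion_discriminant, hD,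
      coeff_X_pow_mul', coeff_map, coeff_mk]
    by_cases hpn : p ∣ n
    · obtain ⟨m, rfl⟩ := hpn
      rw [if_pos (dvd_mul_right p m), Nat.mul_div_cancel_left m hp]
      rcases Nat.eq_zero_or_pos m with rfl | hm
      · have h0 : coeff 0 (X * U) = 0 := by simp
        rw [h0, if_neg (by omega)]
        simp
      · obtain ⟨m, rfl⟩ : ∃ m', m = m' + 1 := ⟨m - 1, by omega⟩
        have h1 : p * (m + 1) - p = p * m := by rw [Nat.mul_succ]; omega
        rw [if_pos (by rw [Nat.mul_succ]; omega), coeff_succ_X_mul, h1,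
          if_pos (dvd_mul_right p m), Nat.mul_div_cancel_left m hp]
        rfl
    · rw [if_neg hpn]
      by_cases h1 : p ≤ n
      · have h2 : ¬ p ∣ n - p := by
          intro h
          rcases Nat.dvd_sub_self_right.mp h with h' | h'
          · exact hpn h'
          · exact hpn (by rw [le_antisymm h' h1])
        rw [if_pos h1, if_neg h2]
        simp
      · rw [if_neg h1]

theorem isMF_discriminant : IsMF 𝒮ℒ 12 Δ :=
  (show IsCF 𝒮ℒ 12 Δ from ⟨CuspForm.discriminant, rfl⟩).isMF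

/-- The algebraic endgame: `a = p b ρ`, `a^d = C`, `b^d = C p^(-12)`, `ρ` rational, force
`d ∣ 12` (compare `p`-adic valuations in `(p ρ)^d = p^12`). -/
theorem dvd_twelve_of_rational (p : ℕ) [Fact p.Prime] (d : ℕ) (a b C ρ : ℂ)
    (hC : C ≠ 0) (ha : a ^ d = C) (hb : b ^ d = C * (p : ℂ) ^ (-(12 : ℤ))) (hρ : ρ ∈ QQ)
    (hab : a = (p : ℂ) * b * ρ) : d ∣ 12 := by
  have hpp : p.Prime := Fact.out
  have hp0 : (p : ℂ) ≠ 0 := Nat.cast_ne_zero.mpr hpp.ne_zero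
  have hpQ : (p : ℚ) ≠ 0 := Nat.cast_ne_zero.mpr hpp.ne_zero
  obtain ⟨r, hr⟩ := (mem_QQ_iff ρ).mp hρ
  have h2 : ((p : ℂ) * ρ) ^ d = (p : ℂ) ^ 12 := by
    have h3 : C = ((p : ℂ) * ρ) ^ d * (C * (p : ℂ) ^ (-(12 : ℤ))) := by
      rw [← hb, ← mul_pow, ← ha, hab]; ring
    have h4 : (p : ℂ) ^ (-(12 : ℤ)) * (p : ℂ) ^ 12 = 1 := by
      rw [zpow_neg]
      exact inv_mul_cancel₀ (by exact_mod_cast pow_ne_zero 12 hp0)
    apply mul_left_cancel₀ hC
    calc C * ((p : ℂ) * ρ) ^ d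
        = ((p : ℂ) * ρ) ^ d * (C * (p : ℂ) ^ (-(12 : ℤ))) * (p : ℂ) ^ 12 := by
          rw [mul_assoc, mul_assoc, h4]; ring
      _ = C * (p : ℂ) ^ 12 := by rw [← h3]
  have h1 : ((p : ℚ) * r) ^ d = (p : ℚ) ^ 12 := by
    have h5 : ((((p : ℚ) * r) ^ d : ℚ) : ℂ) = (((p : ℚ) ^ 12 : ℚ) : ℂ) := by
      push_cast
      rw [hr]
      exact h2
    exact_mod_cast h5
  have h6 := congrArg (padicValRat p) h1
  rw [padicValRat.pow, padicValRat.pow, padicValRat.self hpp.one_lt] at h6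
  have h7 : (d : ℤ) ∣ 12 := ⟨padicValRat p ((p : ℚ) * r), by rw [h6]; norm_num⟩
  exact_mod_cast h7

/-- **Leaf L8 (second implementation).**  If all periods of `24 F` (`F` a primitive of the
Eisenstein series `E`) are divisible by `d`, then `d ∣ 12` — through the trace principle. -/
theorem root_of_pair (p : ℕ) [Fact p.Prime] (hT : PairAPI p) :
    Fermat.Agent.S16.LowerS21.RootStmt p := by
  intro F hF d hd hper
  have hpp : p.Prime := Fact.out
  have hp2 : 2 ≤ p := hpp.two_le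
  have hp0 : (p : ℂ) ≠ 0 := Nat.cast_ne_zero.mpr hpp.ne_zero
  obtain ⟨Φ, Φ', C, c, hC0, hc0, hfr, hpow, hprod, hcd⟩ :=
    Fermat.Agent.S16.LowerS21.rootForm p (Fermat.Agent.S16.LowerS21.eisUnit p) F hF d hd hper
  obtain ⟨e, rfl⟩ : ∃ e, d = e + 1 := Nat.exists_eq_succ_of_ne_zero hd.ne'
  have hδ : Fermat.Agent.Lib.DeltaSlash.deltaN p = deltaN p := rfl
  simp only [hδ, Nat.add_sub_cancel] at hpow hprod
  have hΔne : ∀ z : ℍ, Δ z ≠ 0 := ModularForm.discriminant_ne_zero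
  have hδne : ∀ z : ℍ, deltaN p z ≠ 0 := Fermat.Agent.Lib.DeltaLevelN.deltaN_ne_zero p
  have hC'0 : C * (p : ℂ) ^ (-(12 : ℤ)) ≠ 0 := mul_ne_zero hC0 (zpow_ne_zero _ hp0)
  -- the `d`-th power of the Fricke image
  have hpow' : ∀ z : ℍ, Φ' z ^ (e + 1) =
      C * (p : ℂ) ^ (-(12 : ℤ)) * (Δ z * deltaN p z ^ e) := by
    intro z
    have h1 : C * (deltaN p z * Δ z ^ e) ≠ 0 :=
      mul_ne_zero hC0 (mul_ne_zero (hδne z) (pow_ne_zero _ (hΔne z)))
    apply mul_left_cancel₀ h1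
    calc C * (deltaN p z * Δ z ^ e) * Φ' z ^ (e + 1)
        = (Φ z * Φ' z) ^ (e + 1) := by rw [mul_pow, hpow z]
      _ = (C ^ 2 * (p : ℂ) ^ (-(12 : ℤ))) * (Δ z * deltaN p z) ^ (e + 1) := by
          rw [hprod z, mul_pow, hcd]
      _ = C * (deltaN p z * Δ z ^ e) * (C * (p : ℂ) ^ (-(12 : ℤ)) * (Δ z * deltaN p z ^ e)) := by
          ring
  -- q-expansions
  have nΦ : Nice (Φ : ℍ → ℂ) := (IsMF.coe Φ).niceG0
  have nΦ' : Nice (Φ' : ℍ → ℂ) := (IsMF.coe Φ').niceG0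
  have nΔ : Nice (Δ : ℍ → ℂ) := isMF_discriminant.niceSL
  have nδ : Nice (deltaN p) := (deltaN_isCF p).isMF.niceG0
  have hA : qExpansion 1 Φ ^ (e + 1) =
      C • (qExpansion 1 (deltaN p) * qExpansion 1 Δ ^ e) := by
    rw [← nΦ.qExp_pow, ← nΔ.qExp_pow, ← nδ.qExp_mul (nΔ.pow e),
      ← Nice.qExp_smul C (nδ.mul (nΔ.pow e))]
    congr 1
    funext z
    simp only [Pi.pow_apply, Pi.smul_apply, Pi.mul_apply, smul_eq_mul]
    exact hpow z
  have hB : qExpansion 1 Φ' ^ (e + 1) =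
      (C * (p : ℂ) ^ (-(12 : ℤ))) • (qExpansion 1 Δ * qExpansion 1 (deltaN p) ^ e) := by
    rw [← nΦ'.qExp_pow, ← nδ.qExp_pow, ← nΔ.qExp_mul (nδ.pow e),
      ← Nice.qExp_smul _ (nΔ.mul (nδ.pow e))]
    congr 1
    funext z
    simp only [Pi.pow_apply, Pi.smul_apply, Pi.mul_apply, smul_eq_mul]
    exact hpow' z
  obtain ⟨UA, hUA0, hUA⟩ := (isIntMonic_deltaN p).mul (isIntMonic_discriminant.pow e)
  obtain ⟨UB, hUB0, hUB⟩ := isIntMonic_discriminant.mul ((isIntMonic_deltaN p).pow e)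
  rw [hUA, smul_eq_C_mul] at hA
  rw [hUB, smul_eq_C_mul] at hB
  obtain ⟨k, a, A1, hk, ha, hAeq, -, hA1k, hA1low⟩ :=
    exists_root_form (e + 1) (Nat.succ_pos e) _ C hC0 _ UA hUA0 hA
  obtain ⟨k', b, B1, hk', hb, hBeq, hB1Q, -, hB1low⟩ :=
    exists_root_form (e + 1) (Nat.succ_pos e) _ _ hC'0 _ UB hUB0 hB
  have hk2 : 2 ≤ k := by
    by_contra h
    have h1 : k ≤ 1 := by omega
    have h2 := Nat.mul_le_mul_left (e + 1) h1
    omega
  have hk'1 : 0 < k' := by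
    rcases Nat.eq_zero_or_pos k' with rfl | h
    · rw [Nat.mul_zero] at hk'
      omega
    · exact h
  have hAn : ∀ n, coeff n (qExpansion 1 Φ) = a * coeff n A1 := by
    intro n; rw [hAeq, coeff_C_mul]
  have hBn : ∀ n, coeff n (qExpansion 1 Φ') = b * coeff n B1 := by
    intro n; rw [hBeq, coeff_C_mul]
  -- the trace
  obtain ⟨X, hX⟩ := hT.trace (k := 12) (A := qExpansion 1 Φ) (B := qExpansion 1 Φ')
    ⟨Φ, Φ', hfr, rfl, rfl⟩
  have hXn : ∀ n, coeff n (qExpansion 1 X) =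
      a * coeff n A1 + (p : ℂ) * (b * coeff (p * n) B1) := by
    intro n
    rw [hX, map_add, coeff_smul, psU, coeff_mk, hAn, hBn, smul_eq_mul]
  have hx0 : coeff 0 (qExpansion 1 X) = 0 := by
    rw [hXn, hA1low 0 (by omega), Nat.mul_zero, hB1low 0 hk'1]; ring
  have hx1 : coeff 1 (qExpansion 1 X) = (p : ℂ) * (b * coeff p B1) := by
    rw [hXn, hA1low 1 (by omega), Nat.mul_one]; ring
  obtain ⟨Δm, hΔm⟩ := isMF_discriminant
  have hY : ∀ n, coeff n
      (qExpansion 1 ((X - coeff 1 (qExpansion 1 X) • Δm : ModularForm 𝒮ℒ 12) : ℍ → ℂ)) =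
      coeff n (qExpansion 1 X) -
        coeff 1 (qExpansion 1 X) * ((Fermat.Agent.Lib.DeltaInt.DeltaZ.coeff n : ℤ) : ℂ) := by
    intro n
    have h1 : ((X - coeff 1 (qExpansion 1 X) • Δm : ModularForm 𝒮ℒ 12) : ℍ → ℂ) =
        (X : ℍ → ℂ) - coeff 1 (qExpansion 1 X) • Δ := by
      rw [← hΔm]; rfl
    rw [h1, (IsMF.coe X).niceSL.qExp_sub (Nice.smul _ nΔ), Nice.qExp_smul _ nΔ, map_sub,
      coeff_smul, Fermat.Agent.Lib.DeltaInt.coeff_qExpansion_discriminant, smul_eq_mul]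
  have hlow := Fermat.Agent.Lib.LevelOneLow.coeff_mem_of_low ⊥ 12
    (X - coeff 1 (qExpansion 1 X) • Δm) (by
      intro n hn
      have hn1 : n ≤ 1 := by omega
      rw [AddSubgroup.mem_bot, hY]
      interval_cases n
      · rw [Fermat.Agent.Lib.DeltaInt.DeltaZ_coeff_zero, hx0]; simp
      · rw [Fermat.Agent.Lib.DeltaInt.DeltaZ_coeff_one]; simp)
  have hXk := hlow k
  rw [AddSubgroup.mem_bot, hY, sub_eq_zero, hXn, hx1, hA1k] at hXk
  refine dvd_twelve_of_rational p (e + 1) a b C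
    (coeff p B1 * ((Fermat.Agent.Lib.DeltaInt.DeltaZ.coeff k : ℤ) : ℂ) - coeff (p * k) B1)
    hC0 ha hb
    (QQ.sub_mem (QQ.mul_mem (hB1Q p) (intCast_mem_QQ _)) (hB1Q (p * k))) ?_
  linear_combination hXk

end Fermat.Agent.S16.UnitRoot
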